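import Mathlib
set_option autoImplicit false
set_option linter.unusedSectionVars false

namespace Fermat.Agent.Igusa

/-- exponents -/
def rS (N : ℕ) (S : Finset ℕ) : ℤ := (-1) ^ S.card * ∏ p ∈ N.primeFactors \ S, (p : ℤ)

/-- total weight -/
def RN (N : ℕ) : ℤ := ∏ p ∈ N.primeFactors, ((p : ℤ) - 1)

/-- scaling factors -/
def tS (N : ℕ) (S : Finset ℕ) : ℕ := N / ∏ p ∈ S, p

variable {N : ℕ}

lemma sum_rS : ∑ S ∈ N.primeFactors.powerset, rS N S = RN N := by
  rw [RN, Finset.prod_sub]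
  refine Finset.sum_congr rfl fun S _ => ?_
  simp [rS]

lemma RN_pos : 0 < RN N := by
  refine Finset.prod_pos fun p hp => ?_
  have := (Nat.prime_of_mem_primeFactors hp).two_le
  have : (2 : ℤ) ≤ p := by exact_mod_cast this
  linarith

lemma tS_mul {S : Finset ℕ} (hS : S ⊆ N.primeFactors) : tS N S * ∏ p ∈ S, p = N := by
  have h1 : (∏ p ∈ S, p) ∣ N :=
    (Finset.prod_dvd_prod_of_subset S N.primeFactors (fun p => p) hS).trans (Nat.prod_primeFactors_dvd N)
  exact Nat.div_mul_cancel h1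

lemma tS_pos (hN : N ≠ 0) {S : Finset ℕ} (hS : S ⊆ N.primeFactors) : 0 < tS N S := by
  rcases Nat.eq_zero_or_pos (tS N S) with h | h
  · have := tS_mul hS
    rw [h, zero_mul] at this
    exact absurd this.symm hN
  · exact h

lemma tS_dvd {S : Finset ℕ} (hS : S ⊆ N.primeFactors) : tS N S ∣ N :=
  Dvd.intro _ (tS_mul hS)

lemma tS_empty : tS N ∅ = N := by simp [tS]

lemma order_term (hN : N ≠ 0) {S : Finset ℕ} (hS : S ⊆ N.primeFactors) {s A : ℕ}
    (h : s * tS N S = N * A ^ 2) :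
    rS N S * s = (∏ p ∈ N.primeFactors, (p : ℤ)) * ((-1) ^ S.card * (A : ℤ) ^ 2) := by
  have h1 := tS_pos hN hS
  have h2 : s = (∏ p ∈ S, p) * A ^ 2 := by
    refine Nat.eq_of_mul_eq_mul_right h1 ?_
    calc s * tS N S = N * A ^ 2 := h
      _ = (tS N S * ∏ p ∈ S, p) * A ^ 2 := by rw [tS_mul hS]
      _ = _ := by ring
  rw [h2, rS, ← Finset.prod_sdiff hS]
  push_cast
  ring

lemma gcd_eq_gcd_div {M p c : ℕ} (hp : p.Prime) (hM : M ≠ 0) (hpM : p ∣ M)
    (hc : ¬ p ^ (M.factorization p) ∣ c) : Nat.gcd (M / p) c = Nat.gcd M c := by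
  obtain ⟨M', rfl⟩ := hpM
  rw [Nat.mul_div_cancel_left _ hp.pos]
  have hM' : M' ≠ 0 := by rintro rfl; simp at hM
  apply Nat.dvd_antisymm
  · exact Nat.gcd_dvd_gcd_mul_left_left _ _ _
  · refine Nat.dvd_gcd ?_ (Nat.gcd_dvd_right _ _)
    set g := Nat.gcd (p * M') c with hg
    obtain ⟨m, hm⟩ := Nat.gcd_dvd_left (p * M') c
    rw [← hg] at hm
    have hpm : p ∣ m := by
      by_contra hpm
      apply hc
      have h1 : p ^ ((p * M').factorization p) ∣ p * M' := Nat.ordProj_dvd _ _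
      rw [hm] at h1
      have h2 : Nat.Coprime (p ^ ((g * m).factorization p)) m :=
        Nat.Coprime.pow_left _ ((Nat.Prime.coprime_iff_not_dvd hp).mpr hpm)
      rw [hm]
      exact (h2.dvd_of_dvd_mul_right h1).trans (Nat.gcd_dvd_right _ _)
    obtain ⟨m', rfl⟩ := hpm
    refine ⟨m', Nat.eq_of_mul_eq_mul_left hp.pos ?_⟩
    rw [hm]; ring

lemma alt_sum_eq_zero (hN : N ≠ 0) {c : ℕ} (hc : ¬ N ∣ c) :
    ∑ S ∈ N.primeFactors.powerset, ((-1 : ℤ) ^ S.card * ((Nat.gcd (tS N S) c : ℕ) : ℤ) ^ 2) = 0 := by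
  have hc0 : c ≠ 0 := by rintro rfl; exact hc (dvd_zero _)
  obtain ⟨p, hp, hpc⟩ : ∃ p : ℕ, p.Prime ∧ ¬ p ^ (N.factorization p) ∣ c := by
    by_contra hcon
    push Not at hcon
    apply hc
    rw [← Nat.factorization_le_iff_dvd hN hc0]
    intro p
    by_cases hp : p.Prime
    · exact (hp.pow_dvd_iff_le_factorization hc0).mp (hcon p hp)
    · simp [Nat.factorization_eq_zero_of_not_prime _ hp]
  have hpN : p ∈ N.primeFactors := by
    rw [Nat.mem_primeFactors]
    refine ⟨hp, ?_, hN⟩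
    by_contra h
    apply hpc
    rw [Nat.factorization_eq_zero_of_not_dvd h, pow_zero]
    exact one_dvd _
  obtain ⟨P', hP', hPP'⟩ : ∃ P' : Finset ℕ, p ∉ P' ∧ N.primeFactors = insert p P' :=
    ⟨N.primeFactors.erase p, Finset.notMem_erase _ _, (Finset.insert_erase hpN).symm⟩
  rw [hPP', Finset.sum_powerset_insert hP', ← Finset.sum_add_distrib]
  refine Finset.sum_eq_zero fun S hS => ?_
  have hS' : S ⊆ P' := Finset.mem_powerset.mp hS
  have hpS : p ∉ S := fun h => hP' (hS' h)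
  have hSN : insert p S ⊆ N.primeFactors := by rw [hPP']; exact Finset.insert_subset_insert _ hS'
  have hSN' : S ⊆ N.primeFactors := (Finset.subset_insert _ _).trans hSN
  have h1 : tS N (insert p S) * p = tS N S := by
    have h2 := tS_mul hSN
    have h3 := tS_mul hSN'
    rw [Finset.prod_insert hpS] at h2
    have h4 : 0 < ∏ q ∈ S, q := Finset.prod_pos fun q hq => (Nat.prime_of_mem_primeFactors (hSN' hq)).pos
    refine Nat.eq_of_mul_eq_mul_right h4 ?_
    rw [h3, mul_assoc]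
    exact h2
  have h2 : tS N (insert p S) = tS N S / p := by
    rw [← h1, Nat.mul_div_cancel _ hp.pos]
  have h3 : (tS N S).factorization p = N.factorization p := by
    have h4 := congrArg (fun x => Nat.factorization x p) (tS_mul hSN')
    have h5 : (∏ q ∈ S, q) ≠ 0 :=
      (Finset.prod_pos fun q hq => (Nat.prime_of_mem_primeFactors (hSN' hq)).pos).ne'
    rw [Nat.factorization_mul (tS_pos hN hSN').ne' h5] at h4
    have h6 : (∏ q ∈ S, q).factorization p = 0 := by
      apply Nat.factorization_eq_zero_of_not_dvd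
      intro h
      obtain ⟨q, hq, hpq⟩ := (Prime.dvd_finsetProd_iff hp.prime _).mp h
      have := (Nat.prime_dvd_prime_iff_eq hp (Nat.prime_of_mem_primeFactors (hSN' hq))).mp hpq
      exact hpS (this ▸ hq)
    simpa [h6] using h4
  rw [h2, gcd_eq_gcd_div hp (tS_pos hN hSN').ne' (Dvd.intro_left _ h1) (by rwa [h3]),
    Finset.card_insert_of_notMem hpS, pow_succ]
  ring

lemma alt_sum_pos (hN : N ≠ 0) :
    0 < ∑ S ∈ N.primeFactors.powerset, ((-1 : ℤ) ^ S.card * (tS N S : ℤ) ^ 2) := by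
  set P := N.primeFactors with hP
  have h1 : ∀ S ∈ P.powerset, ((-1 : ℤ) ^ S.card * (tS N S : ℤ) ^ 2) =
      (tS N P : ℤ) ^ 2 * (((-1 : ℤ) ^ S.card * ∏ p ∈ P \ S, (p : ℤ) ^ 2) * ∏ p ∈ S, (1 : ℤ)) := by
    intro S hS
    have hS' : S ⊆ P := Finset.mem_powerset.mp hS
    have h2 : tS N S = tS N P * ∏ p ∈ P \ S, p := by
      have h3 := tS_mul hS'
      have h4 := tS_mul (N := N) (S := P) subset_rfl
      have h5 : 0 < ∏ q ∈ S, q := Finset.prod_pos fun q hq => (Nat.prime_of_mem_primeFactors (hS' hq)).pos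
      refine Nat.eq_of_mul_eq_mul_right h5 ?_
      rw [mul_assoc, Finset.prod_sdiff hS', h3, h4]
    rw [h2]
    push_cast
    rw [Finset.prod_pow]
    simp only [Finset.prod_const_one]
    ring
  rw [Finset.sum_congr rfl h1, ← Finset.mul_sum, ← Finset.prod_sub]
  refine mul_pos ?_ ?_
  · have := tS_pos (N := N) (S := P) hN subset_rfl
    positivity
  · refine Finset.prod_pos fun p hp => ?_
    have := (Nat.prime_of_mem_primeFactors hp).two_le
    have : (2 : ℤ) ≤ p := by exact_mod_cast this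
    nlinarith

end Fermat.Agent.Igusa
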