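import Fermat.Agent.Igusa.Conj
set_option autoImplicit false
set_option linter.unusedSectionVars false

noncomputable section
open UpperHalfPlane Function Filter ModularCurve Polynomial
open scoped Topology Manifold MatrixGroups ModularForm

namespace Fermat.Agent.Igusa

local notation "𝕢" => Periodic.qParam
local notation "Δ" => ModularForm.discriminant

section
variable (R : Type*) [CommRing R]

/-- series of `Δ(tτ)` -/
def dserU (t : ℕ) : (LaurentSeries R)ˣ :=
  if h : 0 < t then
    haveI : NeZero t := ⟨h.ne'⟩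
    Units.map (qExpand R t : LaurentSeries R →* LaurentSeries R) (deltaU R)
  else 1

variable (N : ℕ)

/-- series of the modular unit -/
def UserU : (LaurentSeries R)ˣ :=
  (∏ S ∈ N.primeFactors.powerset, dserU R (tS N S) ^ (rS N S)) * (deltaU R) ^ (-(RN N))

variable {R} {S : Type*} [CommRing S] (f : R →+* S)

/-- coefficient map on units -/
def cmU : (LaurentSeries R)ˣ →* (LaurentSeries S)ˣ :=
  Units.map (coeffMap f : LaurentSeries R →* LaurentSeries S)

lemma cmU_deltaU : cmU f (deltaU R) = deltaU S := by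
  ext1; exact coeffMap_deltaC f

lemma cmU_dserU (t : ℕ) : cmU f (dserU R t) = dserU S t := by
  rw [dserU, dserU]
  split_ifs with h
  · have : NeZero t := ⟨h.ne'⟩
    ext1
    show coeffMap f (qExpand R t (deltaC R)) = qExpand S t (deltaC S)
    rw [coeffMap_qExpand', coeffMap_deltaC]
  · rw [map_one]

lemma cmU_UserU : cmU f (UserU R N) = UserU S N := by
  rw [UserU, map_mul, map_prod, map_zpow, cmU_deltaU, UserU]
  congr 1
  refine Finset.prod_congr rfl fun S _ => ?_
  rw [map_zpow, cmU_dserU]

lemma coeffMap_UserU : coeffMap f (UserU R N : LaurentSeries R) = (UserU S N : LaurentSeries S) := by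
  rw [← cmU_UserU N f]; rfl

end

section
variable (N : ℕ) [NeZero N] (R : Type*) [CommRing R] [Algebra R ℂ]

/-- `f(τ) ↦ f(tτ)` -/
def sclHom (t : ℕ) (ht : 0 < t) : expRing 1 R →+* expRing 1 R :=
  haveI : NeZero t := ⟨ht.ne'⟩
  substHom (scl t ht) 1 t (fun τ => by
    rw [Units.val_one, map_one, one_mul, coe_scl, Periodic.qParam, Periodic.qParam, ← Complex.exp_nat_mul]
    congr 1
    push_cast
    ring)

lemma sclHom_fn (t : ℕ) (ht : 0 < t) (x : expRing 1 R) (τ : ℍ) :
    evAt τ (sclHom R t ht x) = evAt (scl t ht τ) x := rfl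

lemma sclHom_ser (t : ℕ) (ht : 0 < t) (x : expRing 1 R) [NeZero t] :
    serHom (sclHom R t ht x) = qExpand R t (serHom x) := by
  have : serHom (sclHom R t ht x) = lsubst t 1 (serHom x) := rfl
  rw [this, lsubst_apply, twist_one]

/-- `Δ(tτ)` as a unit in the expansion ring -/
def dE (t : ℕ) : (expRing 1 R)ˣ :=
  if h : 0 < t then Units.map (sclHom R t h : expRing 1 R →* expRing 1 R) (discU R) else 1

lemma dE_fn (t : ℕ) (ht : 0 < t) (τ : ℍ) : evAt τ (dE R t : expRing 1 R) = Δ (sclT t τ) := by
  rw [dE, dif_pos ht, sclT_of_pos ht]; rfl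

/-- serHom on units -/
def serU {h : ℕ} {R : Type*} [CommRing R] [Algebra R ℂ] : (expRing h R)ˣ →* (LaurentSeries R)ˣ :=
  Units.map ((serHom : expRing h R →+* LaurentSeries R) : expRing h R →* LaurentSeries R)

lemma serU_dE (t : ℕ) : serU (dE R t) = dserU R t := by
  rw [dE, dserU]
  split_ifs with h
  · have : NeZero t := ⟨h.ne'⟩
    ext1
    exact sclHom_ser R t h (discU R)
  · rw [map_one]

/-- modular unit in the level 1 expansion ring -/
def UE : (expRing 1 R)ˣ :=
  (∏ S ∈ N.primeFactors.powerset, dE R (tS N S) ^ (rS N S)) * (discU R) ^ (-(RN N))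

lemma serU_UE : serU (UE N R) = UserU R N := by
  rw [UE, map_mul, map_prod, map_zpow, UserU]
  congr 1
  · refine Finset.prod_congr rfl fun S _ => ?_
    rw [map_zpow, serU_dE]

lemma evAt_UE (τ : ℍ) : evAt τ (UE N R : expRing 1 R) = Ufun N τ := by
  set E : (expRing 1 R)ˣ →* ℂˣ := Units.map ((evAt τ : expRing 1 R →+* ℂ) : expRing 1 R →* ℂ) with hE
  have hEv : ∀ w : (expRing 1 R)ˣ, evAt τ (w : expRing 1 R) = (E w : ℂ) := fun w => rfl
  rw [hEv, UE, map_mul, map_prod, map_zpow, Ufun, Units.val_mul, Units.coe_prod]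
  congr 1
  · refine Finset.prod_congr rfl fun S hS => ?_
    rw [map_zpow, Units.val_zpow_eq_zpow_val]
    congr 1
    exact dE_fn R _ (tS_pos (NeZero.ne N) (Finset.mem_powerset.mp hS)) τ
  · rw [Units.val_zpow_eq_zpow_val]
    rfl

/-- change of parameter `q = q_N ^ N` -/
def upHom : expRing 1 R →+* expRing N R :=
  substHom id 1 N (fun τ => by
    rw [Units.val_one, map_one]
    exact q_one_eq N τ)

lemma upHom_fn (x : expRing 1 R) (τ : ℍ) : evAt τ (upHom N R x) = evAt τ x := rfl

lemma upHom_ser (x : expRing 1 R) : serHom (upHom N R x) = qExpand R N (serHom x) := by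
  have : serHom (upHom N R x) = lsubst N 1 (serHom x) := rfl
  rw [this, lsubst_apply, twist_one]

variable {N R}

lemma IsMod.conj_one (hinj : Function.Injective (algebraMap R ℂ)) {f : ℍ → ℂ} (hf : IsMod N R f)
    (y : expRing 1 R) (hy : ∀ τ, evAt τ y = f τ) :
    serHom (hf.conj (QuotientGroup.mk 1)) = qExpand R N (serHom y) := by
  rw [← upHom_ser]
  congr 1
  apply fnHom_injective hinj
  ext τ
  have := hf.conj_mk 1 τ
  rw [inv_one, one_smul, ← hy τ] at this
  exact this

/-- evaluation of `R[T]` at `j` -/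
def jev (R : Type*) [CommRing R] : R[X] →+* LaurentSeries R :=
  Polynomial.eval₂RingHom (HahnSeries.C : R →+* LaurentSeries R) (jqModC R)

lemma jev_X (R : Type*) [CommRing R] : jev R X = jqModC R := by
  simp [jev]

lemma jev_C (R : Type*) [CommRing R] (r : R) : jev R (C r) = HahnSeries.C r := by
  simp [jev]

lemma coeffMap_jev {R S : Type*} [CommRing R] [CommRing S] (f : R →+* S) (p : R[X]) :
    coeffMap f (jev R p) = jev S (p.map f) := by
  have : (coeffMap f).comp (jev R) = (jev S).comp (Polynomial.mapRingHom f) := by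
    apply Polynomial.ringHom_ext
    · intro a
      rw [RingHom.comp_apply, RingHom.comp_apply, jev_C, Polynomial.coe_mapRingHom, Polynomial.map_C, jev_C,
        HahnSeries.C_apply, coeffMap_single]
      rfl
    · rw [RingHom.comp_apply, RingHom.comp_apply, jev_X, Polynomial.coe_mapRingHom, Polynomial.map_X, jev_X,
        coeffMap_jqModC]
  exact congrArg (fun g : R[X] →+* LaurentSeries S => g p) this

lemma serHom_polyHom (p : R[X]) : serHom (polyHom N R p) = qExpand R N (jev R p) := by
  have : (serHom).comp (polyHom N R) = (qExpand R N).comp (jev R) := by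
    apply Polynomial.ringHom_ext
    · intro a
      rw [RingHom.comp_apply, RingHom.comp_apply, jev_C, qExpand_C, polyHom, Polynomial.coe_eval₂RingHom,
        Polynomial.eval₂_C]
      rfl
    · rw [RingHom.comp_apply, RingHom.comp_apply, jev_X, polyHom, Polynomial.coe_eval₂RingHom,
        Polynomial.eval₂_X]
      rfl
  exact congrArg (fun g : R[X] →+* LaurentSeries R => g p) this

/-- evaluation of two-variable polynomials at `(j, x)` -/
lemma eval₂_qExpand (P : R[X][X]) (x : LaurentSeries R) :
    P.eval₂ ((serHom (h := N)).comp (polyHom N R)) (qExpand R N x) = qExpand R N (P.eval₂ (jev R) x) := by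
  rw [Polynomial.hom_eval₂]
  congr 1
  exact RingHom.ext fun p => serHom_polyHom p

end

end Fermat.Agent.Igusa
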