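import Fermat.Agent.Igusa.AtInf
set_option autoImplicit false
set_option linter.unusedSectionVars false

noncomputable section
open UpperHalfPlane Function Filter ModularCurve Polynomial
open scoped Topology Manifold MatrixGroups ModularForm

namespace Fermat.Agent.Igusa

local notation "𝕢" => Periodic.qParam
local notation "Δ" => ModularForm.discriminant

section jevinj
variable (R : Type*) [CommRing R]

lemma coeff_jev_natDegree {p : R[X]} : (jev R p).coeff (-(p.natDegree : ℤ)) = p.leadingCoeff := by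
  rw [jev, Polynomial.coe_eval₂RingHom, Polynomial.eval₂_eq_sum_range, HahnSeries.coeff_sum,
    Finset.sum_range_succ, Finset.sum_eq_zero, zero_add]
  · rw [HahnSeries.C_mul_eq_smul, HahnSeries.coeff_smul, coeff_jqModC_pow_self, smul_eq_mul, mul_one]
    rfl
  · intro i hi
    rw [Finset.mem_range] at hi
    rw [HahnSeries.C_mul_eq_smul, HahnSeries.coeff_smul, coeff_jqModC_pow_of_lt _ (by omega), smul_zero]

lemma jev_injective : Function.Injective (jev R) := by
  rw [injective_iff_map_eq_zero]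
  intro p hp
  have := coeff_jev_natDegree R (p := p)
  rw [hp, HahnSeries.coeff_zero] at this
  exact Polynomial.leadingCoeff_eq_zero.mp this.symm

variable (N : ℕ) [NeZero N] [Algebra R ℂ]

lemma polyHom_injective : Function.Injective (polyHom N R) := by
  intro p q hpq
  have := congrArg serHom hpq
  rw [serHom_polyHom, serHom_polyHom] at this
  exact jev_injective R (qExpand_injective N this)

end jevinj

section prods
variable {N : ℕ} [NeZero N] {R : Type*} [CommRing R] [Algebra R ℂ]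

lemma prod_erase_perm {ι M : Type*} [Fintype ι] [DecidableEq ι] [CommMonoid M] (σ : Equiv.Perm ι) (c : ι)
    (F : ι → M) : ∏ c' ∈ Finset.univ.erase c, F (σ c') = ∏ c' ∈ Finset.univ.erase (σ c), F c' := by
  refine Finset.prod_equiv σ ?_ ?_
  · intro i; simp
  · intro i _; rfl

variable {f : ℍ → ℂ}

/-- characteristic polynomial -/
def PhiQ (hf : IsMod N R f) : (expRing N R)[X] := ∏ c : Cos N, (X - C (hf.conj c))

lemma PhiQ_monic (hf : IsMod N R f) : (PhiQ hf).Monic :=
  Polynomial.monic_prod_of_monic _ _ fun _ _ => Polynomial.monic_X_sub_C _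

lemma PhiQ_inv (hf : IsMod N R f) (γ : SL(2, ℤ)) (τ : ℍ) :
    (PhiQ hf).map (evAt (γ • τ)) = (PhiQ hf).map (evAt τ) := by
  rw [PhiQ, Polynomial.map_prod, Polynomial.map_prod]
  simp only [Polynomial.map_sub, Polynomial.map_X, Polynomial.map_C]
  simp only [hf.conj_smul]
  exact Equiv.prod_comp (MulAction.toPerm γ⁻¹ : Equiv.Perm (Cos N))
    (fun c => (X - C (evAt τ (hf.conj c)) : ℂ[X]))

/-- Lagrange polynomial -/
def PhiG [DecidableEq (Cos N)] (hf : IsMod N R f) {g : ℍ → ℂ} (hg : IsMod N R g) : (expRing N R)[X] :=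
  ∑ c : Cos N, C (hg.conj c) * ∏ c' ∈ Finset.univ.erase c, (X - C (hf.conj c'))

lemma PhiG_inv [DecidableEq (Cos N)] (hf : IsMod N R f) {g : ℍ → ℂ} (hg : IsMod N R g)
    (γ : SL(2, ℤ)) (τ : ℍ) :
    (PhiG hf hg).map (evAt (γ • τ)) = (PhiG hf hg).map (evAt τ) := by
  rw [PhiG, Polynomial.map_sum, Polynomial.map_sum]
  simp only [Polynomial.map_mul, Polynomial.map_prod, Polynomial.map_sub, Polynomial.map_X, Polynomial.map_C]
  simp only [hf.conj_smul, hg.conj_smul]
  have h1 : ∀ c : Cos N, C (evAt τ (hg.conj (γ⁻¹ • c))) * ∏ c' ∈ Finset.univ.erase c,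
      (X - C (evAt τ (hf.conj (γ⁻¹ • c'))) : ℂ[X]) =
      (fun c => C (evAt τ (hg.conj c)) * ∏ c' ∈ Finset.univ.erase c,
      (X - C (evAt τ (hf.conj c')) : ℂ[X])) ((MulAction.toPerm γ⁻¹ : Equiv.Perm (Cos N)) c) := by
    intro c
    simp only
    rw [← prod_erase_perm]
    rfl
  rw [Finset.sum_congr rfl fun c _ => h1 c]
  exact Equiv.sum_comp (MulAction.toPerm γ⁻¹ : Equiv.Perm (Cos N))
    (fun c => C (evAt τ (hg.conj c)) * ∏ c' ∈ Finset.univ.erase c,
      (X - C (evAt τ (hf.conj c')) : ℂ[X]))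

lemma PhiQ_eval (hf : IsMod N R f) (c : Cos N) : (PhiQ hf).eval (hf.conj c) = 0 := by
  rw [PhiQ, Polynomial.eval_prod]
  exact Finset.prod_eq_zero (Finset.mem_univ c) (by simp)

lemma PhiG_eval [DecidableEq (Cos N)] (hf : IsMod N R f) {g : ℍ → ℂ} (hg : IsMod N R g) (c : Cos N) :
    (PhiG hf hg).eval (hf.conj c) =
      hg.conj c * ∏ c' ∈ Finset.univ.erase c, (hf.conj c - hf.conj c') := by
  rw [PhiG, Polynomial.eval_finsetSum, Finset.sum_eq_single c]
  · rw [Polynomial.eval_mul, Polynomial.eval_C, Polynomial.eval_prod]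
    simp only [Polynomial.eval_sub, Polynomial.eval_X, Polynomial.eval_C]
  · intro c' _ hc'
    rw [Polynomial.eval_mul, Polynomial.eval_prod, Finset.prod_eq_zero (i := c), mul_zero]
    · exact Finset.mem_erase.mpr ⟨hc'.symm, Finset.mem_univ _⟩
    · simp
  · intro h; exact absurd (Finset.mem_univ c) h

lemma PhiQ_degree [Nontrivial (expRing N R)] (hf : IsMod N R f) :
    (PhiQ hf).degree = Fintype.card (Cos N) := by
  rw [PhiQ, Polynomial.degree_prod_of_monic _ _ fun c _ => Polynomial.monic_X_sub_C _]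
  simp [Polynomial.degree_X_sub_C]

lemma PhiQ_coeff_zero (hf : IsMod N R f) : (PhiQ hf).coeff 0 = ∏ c : Cos N, (-(hf.conj c)) := by
  rw [PhiQ, Polynomial.coeff_zero_eq_eval_zero, Polynomial.eval_prod]
  simp

end prods

section unit
variable {N : ℕ} [NeZero N] {R : Type*} [CommRing R] [Algebra R ℂ]

lemma exists_unit_conj (hR : GoodRing N R) (hinj : Function.Injective (algebraMap R ℂ)) (g : SL(2, ℤ)) :
    ∃ u : (expRing N R)ˣ, (u : expRing N R) = (isMod_Ufun hR).conj (QuotientGroup.mk g) ∧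
      ∀ {k : Type} [Field k] (ρ : R →+* k), (coeffMap ρ (serHom (u : expRing N R))).order =
        (∏ p ∈ N.primeFactors, (p : ℤ)) * ∑ S ∈ N.primeFactors.powerset,
          ((-1 : ℤ) ^ S.card * ((Nat.gcd (tS N S) ((g⁻¹ : SL(2, ℤ)) 1 0).natAbs : ℕ) : ℤ) ^ 2) - RN N * N := by
  obtain ⟨u, hu, ho⟩ := exists_unit hR (g⁻¹)
  refine ⟨u, ?_, fun ρ => ho ρ⟩
  apply fnHom_injective hinj
  ext τ
  have h1 := (isMod_Ufun hR).conj_mk g τ
  rw [← hu τ] at h1
  exact h1.symm

lemma isUnit_conj (hR : GoodRing N R) (hinj : Function.Injective (algebraMap R ℂ)) (c : Cos N) :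
    IsUnit ((isMod_Ufun hR).conj c) := by
  induction c using QuotientGroup.induction_on with
  | H g =>
    obtain ⟨u, hu, -⟩ := exists_unit_conj hR hinj g
    exact ⟨u, hu⟩

lemma order_conj_ne (hR : GoodRing N R) (hinj : Function.Injective (algebraMap R ℂ)) {c : Cos N}
    (hc : c ≠ QuotientGroup.mk 1) {k : Type} [Field k] (ρ : R →+* k) :
    (coeffMap ρ (serHom ((isMod_Ufun hR).conj c))).order = - (RN N * N) := by
  induction c using QuotientGroup.induction_on with
  | H g =>
    obtain ⟨u, hu, ho⟩ := exists_unit_conj hR hinj g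
    rw [← hu, ho ρ, alt_sum_eq_zero (NeZero.ne N), mul_zero, zero_sub]
    intro hd
    apply hc
    rw [QuotientGroup.eq, mul_one, Gamma0_iff_dvd]
    exact Int.natCast_dvd.mpr hd

lemma order_conj_one (hR : GoodRing N R) (hinj : Function.Injective (algebraMap R ℂ))
    {k : Type} [Field k] (ρ : R →+* k) :
    - (RN N * N) < (coeffMap ρ (serHom ((isMod_Ufun hR).conj (QuotientGroup.mk 1)))).order := by
  obtain ⟨u, hu, ho⟩ := exists_unit_conj hR hinj 1
  rw [← hu, ho ρ]
  have h1 : ((1⁻¹ : SL(2, ℤ)) 1 0).natAbs = 0 := by simp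
  rw [h1]
  simp only [Nat.gcd_zero_right]
  have h2 := alt_sum_pos (NeZero.ne N)
  have h3 : 0 < (∏ p ∈ N.primeFactors, (p : ℤ)) :=
    Finset.prod_pos fun p hp => by exact_mod_cast (Nat.prime_of_mem_primeFactors hp).pos
  have := mul_pos h3 h2
  linarith

lemma conj_ne (hR : GoodRing N R) (hinj : Function.Injective (algebraMap R ℂ)) {c : Cos N}
    (hc : c ≠ QuotientGroup.mk 1) {k : Type} [Field k] (ρ : R →+* k) :
    coeffMap ρ (serHom ((isMod_Ufun hR).conj (QuotientGroup.mk 1))) ≠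
      coeffMap ρ (serHom ((isMod_Ufun hR).conj c)) := by
  intro h
  have h1 := order_conj_ne hR hinj hc ρ
  have h2 := order_conj_one hR hinj ρ
  rw [h, h1] at h2
  exact lt_irrefl _ h2

end unit

end Fermat.Agent.Igusa
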