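import Mathlib
set_option autoImplicit false
set_option linter.unusedSectionVars false

noncomputable section
open Polynomial

namespace Fermat.Agent.Igusa

theorem integral_of_mul_gen {R₁ L : Type*} [CommRing R₁] [IsDomain R₁] [IsIntegrallyClosed R₁] [Field L] [Algebra R₁ L]
    (inj : Function.Injective (algebraMap R₁ L)) {π : R₁} (hπ : Prime π) {x y z : L} {b : R₁} (hb : ¬ π ∣ b)
    (hx : IsIntegral R₁ x) (hz : IsIntegral R₁ z) (hxy : algebraMap R₁ L π * y = x)
    (hzy : algebraMap R₁ L b * y = z) : IsIntegral R₁ y := by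
  have hb0 : b ≠ 0 := by rintro rfl; exact hb (dvd_zero _)
  have hπne : algebraMap R₁ L π ≠ 0 := by
    rw [Ne, map_eq_zero_iff _ inj]
    exact hπ.ne_zero
  have : FaithfulSMul R₁ L := (faithfulSMul_iff_algebraMap_injective R₁ L).mpr inj
  have h1 : b • x = π • z := by
    rw [Algebra.smul_def, Algebra.smul_def, ← hxy, ← hzy]; ring
  have h2 := IsIntegrallyClosed.minpoly_smul hb0 hx
  have h3 := IsIntegrallyClosed.minpoly_smul hπ.ne_zero hz
  rw [h1] at h2
  have h4 : (minpoly R₁ x).scaleRoots b = (minpoly R₁ z).scaleRoots π := h2.symm.trans h3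
  set f := minpoly R₁ x with hf
  set g := minpoly R₁ z with hg
  have hdeg : f.natDegree = g.natDegree := by
    have := congrArg Polynomial.natDegree h4
    rwa [Polynomial.natDegree_scaleRoots, Polynomial.natDegree_scaleRoots] at this
  have hdvd : ∀ i, ∃ c, f.coeff i = c * π ^ (f.natDegree - i) := by
    intro i
    have h5 := congrArg (fun p => Polynomial.coeff p i) h4
    simp only [Polynomial.coeff_scaleRoots] at h5
    rw [← hdeg] at h5
    have h6 : π ^ (f.natDegree - i) ∣ f.coeff i * b ^ (f.natDegree - i) := by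
      rw [h5]; exact dvd_mul_left _ _
    have h7 : π ^ (f.natDegree - i) ∣ f.coeff i := by
      apply hπ.pow_dvd_of_dvd_mul_right _ _ h6
      exact fun h => hb (hπ.dvd_of_dvd_pow h)
    obtain ⟨c, hc⟩ := h7
    exact ⟨c, by rw [hc, mul_comm]⟩
  choose c hc using hdvd
  have hfm : f.Monic := minpoly.monic hx
  have hcm : c f.natDegree = 1 := by
    have := hc f.natDegree
    rw [hfm.coeff_natDegree, Nat.sub_self, pow_zero, mul_one] at this
    exact this.symm
  set h : R₁[X] := ∑ i ∈ Finset.range (f.natDegree + 1), monomial i (c i) with hh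
  have hcoeff : ∀ i, h.coeff i = if i < f.natDegree + 1 then c i else 0 := by
    intro i
    rw [hh, Polynomial.finsetSum_coeff]
    simp only [Polynomial.coeff_monomial]
    rw [Finset.sum_ite_eq']
    simp only [Finset.mem_range]
  have hle : h.natDegree ≤ f.natDegree := by
    rw [Polynomial.natDegree_le_iff_coeff_eq_zero]
    intro i hi
    rw [hcoeff, if_neg (by omega)]
  have hmon : h.Monic := by
    apply Polynomial.monic_of_natDegree_le_of_coeff_eq_one _ hle
    rw [hcoeff, if_pos (by omega), hcm]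
  have hnat : h.natDegree = f.natDegree := by
    refine le_antisymm hle (Polynomial.le_natDegree_of_ne_zero ?_)
    rw [hcoeff, if_pos (by omega), hcm]
    exact one_ne_zero
  have hscale : h.scaleRoots π = f := by
    ext i
    rw [Polynomial.coeff_scaleRoots, hnat, hcoeff]
    split_ifs with hi
    · exact (hc i).symm
    · rw [zero_mul, Polynomial.coeff_eq_zero_of_natDegree_lt (by omega)]
  refine ⟨h, hmon, ?_⟩
  have h8 : (h.scaleRoots π).eval₂ (algebraMap R₁ L) (algebraMap R₁ L π * y) =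
      algebraMap R₁ L π ^ h.natDegree * h.eval₂ (algebraMap R₁ L) y :=
    Polynomial.scaleRoots_eval₂_mul _ _ _
  rw [hscale, hxy] at h8
  have h9 : f.eval₂ (algebraMap R₁ L) x = 0 := minpoly.aeval R₁ x
  rw [h9] at h8
  exact (mul_eq_zero.mp h8.symm).resolve_left (pow_ne_zero _ hπne)

/-- data for reduction of a primitive element -/
structure RedData (R₁ L E : Type*) [CommRing R₁] [IsDomain R₁] [Field L] [Algebra R₁ L] [Field E] where
  /-- prime -/
  π : R₁
  /-- reduction -/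
  φ : R₁ →+* E
  /-- polynomial -/
  Q : R₁[X]
  /-- primitive element -/
  U : L
  /-- its reduction -/
  Ub : E
  prime : Prime π
  inj : Function.Injective (algebraMap R₁ L)
  ker : ∀ a, φ a = 0 ↔ π ∣ a
  monic : Q.Monic
  root : aeval U Q = 0
  compat : ∀ P : R₁[X], aeval U P = 0 → P.eval₂ φ Ub = 0
  deg : ∀ P : R₁[X], P.degree < Q.degree → P.eval₂ φ Ub = 0 → ∀ i, π ∣ P.coeff i

namespace RedData
variable {R₁ L E : Type*} [CommRing R₁] [IsDomain R₁] [Field L] [Algebra R₁ L] [Field E]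
variable (D : RedData R₁ L E)

lemma exists_low (P : R₁[X]) : ∃ P' : R₁[X], P'.degree < D.Q.degree ∧ aeval D.U P' = aeval D.U P ∧
    P'.eval₂ D.φ D.Ub = P.eval₂ D.φ D.Ub := by
  refine ⟨P %ₘ D.Q, Polynomial.degree_modByMonic_lt _ D.monic, ?_, ?_⟩
  · have h := Polynomial.modByMonic_add_div P D.Q
    conv_rhs => rw [← h]
    rw [map_add, map_mul, D.root, zero_mul, add_zero]
  · have h := Polynomial.modByMonic_add_div P D.Q
    conv_rhs => rw [← h]
    rw [Polynomial.eval₂_add, Polynomial.eval₂_mul, D.compat D.Q D.root, zero_mul, add_zero]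

lemma exists_div (P : R₁[X]) (hP : P.eval₂ D.φ D.Ub = 0) :
    ∃ P' : R₁[X], aeval D.U P = algebraMap R₁ L D.π * aeval D.U P' := by
  obtain ⟨P₁, h1, h2, h3⟩ := D.exists_low P
  have h4 := D.deg P₁ h1 (by rw [h3, hP])
  rw [← Polynomial.C_dvd_iff_dvd_coeff] at h4
  obtain ⟨P', hP'⟩ := h4
  refine ⟨P', ?_⟩
  rw [← h2, hP', map_mul, aeval_C]

lemma π_ne : algebraMap R₁ L D.π ≠ 0 := by
  rw [Ne, map_eq_zero_iff _ D.inj]
  exact D.prime.ne_zero

/-- a root of a monic polynomial, scaled by `π`, reduces to zero -/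
lemma eval_zero_of_integral {y : L} (hy : IsIntegral R₁ y) {P : R₁[X]}
    (hP : algebraMap R₁ L D.π * y = aeval D.U P) : P.eval₂ D.φ D.Ub = 0 := by
  obtain ⟨f, hf, hfy⟩ := hy
  have h1 : aeval (D.π • y) (f.scaleRoots D.π) = 0 := by
    rw [Algebra.smul_def]
    exact Polynomial.scaleRoots_aeval_eq_zero hfy
  rw [Algebra.smul_def, hP, ← Polynomial.aeval_comp] at h1
  have h2 := D.compat _ h1
  rw [Polynomial.eval₂_comp, ← Polynomial.eval_map] at h2
  have h3 : (f.scaleRoots D.π).map D.φ = X ^ f.natDegree := by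
    ext i
    rw [Polynomial.coeff_map, Polynomial.coeff_scaleRoots, Polynomial.coeff_X_pow, map_mul, map_pow,
      (D.ker D.π).mpr dvd_rfl]
    rcases lt_trichotomy i f.natDegree with h | h | h
    · rw [if_neg h.ne, zero_pow (Nat.sub_pos_of_lt h).ne', mul_zero]
    · subst h
      simp [hf.coeff_natDegree]
    · rw [Polynomial.coeff_eq_zero_of_natDegree_lt h, map_zero, zero_mul, if_neg h.ne']
  rw [h3, Polynomial.eval_pow, Polynomial.eval_X] at h2
  exact eq_zero_of_pow_eq_zero h2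

/-- Elements for which the reduction is defined. -/
def Good (x : L) : Prop := ∃ b : R₁, D.φ b ≠ 0 ∧ ∃ P : R₁[X], algebraMap R₁ L b * x = aeval D.U P

lemma good_of_integral_aux {x : L} (hx : IsIntegral R₁ x) {b : R₁} (m : ℕ) :
    ∀ P : R₁[X], algebraMap R₁ L (D.π ^ m * b) * x = aeval D.U P →
    ∃ P' : R₁[X], algebraMap R₁ L b * x = aeval D.U P' := by
  induction m with
  | zero => intro P hP; exact ⟨P, by simpa using hP⟩
  | succ m ih =>
    intro P hP
    have h1 : IsIntegral R₁ (algebraMap R₁ L (D.π ^ m * b) * x) := isIntegral_algebraMap.mul hx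
    have h2 : algebraMap R₁ L D.π * (algebraMap R₁ L (D.π ^ m * b) * x) = aeval D.U P := by
      rw [← hP, ← mul_assoc, ← map_mul, ← mul_assoc, ← pow_succ']
    obtain ⟨P', hP'⟩ := D.exists_div P (D.eval_zero_of_integral h1 h2)
    rw [hP'] at h2
    exact ih P' (mul_left_cancel₀ D.π_ne h2)

lemma good_of_integral [WfDvdMonoid R₁] {x : L} (hx : IsIntegral R₁ x) {b : R₁} (hb : b ≠ 0)
    {P : R₁[X]} (hP : algebraMap R₁ L b * x = aeval D.U P) : D.Good x := by
  have h1 : FiniteMultiplicity D.π b := FiniteMultiplicity.of_not_isUnit D.prime.not_isUnit hb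
  obtain ⟨b', hb', hnd⟩ := h1.exists_eq_pow_mul_and_not_dvd
  rw [hb'] at hP
  obtain ⟨P', hP'⟩ := D.good_of_integral_aux hx _ P hP
  exact ⟨b', fun h => hnd ((D.ker b').mp h), P', hP'⟩

lemma compat' {P P' : R₁[X]} (h : aeval D.U P = aeval D.U P') :
    P.eval₂ D.φ D.Ub = P'.eval₂ D.φ D.Ub := by
  have := D.compat (P - P') (by rw [map_sub, h, sub_self])
  rwa [Polynomial.eval₂_sub, sub_eq_zero] at this

/-- the ring of good elements -/
def goodRing : Subring L where
  carrier := {x | D.Good x}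
  mul_mem' := by
    rintro x y ⟨b, hb, P, hP⟩ ⟨c, hc, P', hP'⟩
    refine ⟨b * c, by rw [map_mul]; exact mul_ne_zero hb hc, P * P', ?_⟩
    rw [map_mul, map_mul, ← hP, ← hP']; ring
  one_mem' := ⟨1, by rw [map_one]; exact one_ne_zero, 1, by simp⟩
  add_mem' := by
    rintro x y ⟨b, hb, P, hP⟩ ⟨c, hc, P', hP'⟩
    refine ⟨b * c, by rw [map_mul]; exact mul_ne_zero hb hc, C c * P + C b * P', ?_⟩
    rw [map_mul, map_add, map_mul, map_mul, aeval_C, aeval_C, ← hP, ← hP']; ring
  zero_mem' := ⟨1, by rw [map_one]; exact one_ne_zero, 0, by simp⟩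
  neg_mem' := by
    rintro x ⟨b, hb, P, hP⟩
    refine ⟨b, hb, -P, ?_⟩
    rw [map_neg, ← hP]; ring

/-- value of the reduction -/
def thetaFun (x : D.goodRing) : E :=
  (D.φ x.2.choose)⁻¹ * (x.2.choose_spec.2.choose).eval₂ D.φ D.Ub

lemma thetaFun_eq (x : D.goodRing) {b : R₁} {P : R₁[X]}
    (hP : algebraMap R₁ L b * x = aeval D.U P) : D.φ b * D.thetaFun x = P.eval₂ D.φ D.Ub := by
  have h1 := x.2.choose_spec.1
  have h2 := x.2.choose_spec.2.choose_spec
  set c := x.2.choose
  set P' := x.2.choose_spec.2.choose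
  have h3 : aeval D.U (C b * P') = aeval D.U (C c * P) := by
    rw [map_mul, map_mul, aeval_C, aeval_C, ← hP, ← h2]; ring
  have h4 := D.compat' h3
  rw [Polynomial.eval₂_mul, Polynomial.eval₂_mul, Polynomial.eval₂_C, Polynomial.eval₂_C] at h4
  show D.φ b * ((D.φ c)⁻¹ * P'.eval₂ D.φ D.Ub) = _
  rw [mul_left_comm, h4, ← mul_assoc, inv_mul_cancel₀ h1, one_mul]

/-- the reduction as a ring homomorphism -/
def theta : D.goodRing →+* E where
  toFun := D.thetaFun
  map_one' := by
    have := D.thetaFun_eq 1 (b := 1) (P := 1) (by simp)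
    simpa using this
  map_zero' := by
    have := D.thetaFun_eq 0 (b := 1) (P := 0) (by simp)
    simpa using this
  map_mul' x y := by
    obtain ⟨b, hb, P, hP⟩ := x.2
    obtain ⟨c, hc, P', hP'⟩ := y.2
    have h1 := D.thetaFun_eq x hP
    have h2 := D.thetaFun_eq y hP'
    have h3 := D.thetaFun_eq (x * y) (b := b * c) (P := P * P') (by
      rw [map_mul, map_mul, ← hP, ← hP', Subring.coe_mul]; ring)
    rw [map_mul, Polynomial.eval₂_mul, ← h1, ← h2] at h3
    apply mul_left_cancel₀ (mul_ne_zero hb hc)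
    rw [h3]; ring
  map_add' x y := by
    obtain ⟨b, hb, P, hP⟩ := x.2
    obtain ⟨c, hc, P', hP'⟩ := y.2
    have h1 := D.thetaFun_eq x hP
    have h2 := D.thetaFun_eq y hP'
    have h3 := D.thetaFun_eq (x + y) (b := b * c) (P := C c * P + C b * P') (by
      rw [map_mul, map_add, map_mul, map_mul, aeval_C, aeval_C, ← hP, ← hP', Subring.coe_add]; ring)
    rw [map_mul, Polynomial.eval₂_add, Polynomial.eval₂_mul, Polynomial.eval₂_mul, Polynomial.eval₂_C,
      Polynomial.eval₂_C, ← h1, ← h2] at h3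
    apply mul_left_cancel₀ (mul_ne_zero hb hc)
    rw [h3]; ring

lemma theta_eq (x : D.goodRing) {b : R₁} {P : R₁[X]}
    (hP : algebraMap R₁ L b * x = aeval D.U P) : D.φ b * D.theta x = P.eval₂ D.φ D.Ub :=
  D.thetaFun_eq x hP

lemma theta_algebraMap (a : R₁) (h : algebraMap R₁ L a ∈ D.goodRing) :
    D.theta ⟨algebraMap R₁ L a, h⟩ = D.φ a := by
  have := D.theta_eq ⟨algebraMap R₁ L a, h⟩ (b := 1) (P := C a) (by simp)
  simpa using this

lemma algebraMap_mem (a : R₁) : algebraMap R₁ L a ∈ D.goodRing :=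
  ⟨1, by rw [map_one]; exact one_ne_zero, C a, by simp⟩

lemma integral_of_mul [IsIntegrallyClosed R₁] {x y z : L} {b : R₁} (hb : ¬ D.π ∣ b)
    (hx : IsIntegral R₁ x) (hz : IsIntegral R₁ z) (hxy : algebraMap R₁ L D.π * y = x)
    (hzy : algebraMap R₁ L b * y = z) : IsIntegral R₁ y :=
  integral_of_mul_gen D.inj D.prime hb hx hz hxy hzy

lemma U_integral : IsIntegral R₁ D.U := ⟨D.Q, D.monic, D.root⟩

/-- the kernel of the reduction on integral elements -/
theorem exists_of_theta_eq_zero [IsIntegrallyClosed R₁] {x : L} (hx : IsIntegral R₁ x)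
    (hg : x ∈ D.goodRing) (h0 : D.theta ⟨x, hg⟩ = 0) :
    ∃ y : L, algebraMap R₁ L D.π * y = x ∧ IsIntegral R₁ y := by
  obtain ⟨b, hb, P, hP⟩ := hg
  have h1 := D.theta_eq ⟨x, ⟨b, hb, P, hP⟩⟩ hP
  rw [h0, mul_zero] at h1
  obtain ⟨P', hP'⟩ := D.exists_div P h1.symm
  have hy : algebraMap R₁ L D.π * ((algebraMap R₁ L D.π)⁻¹ * x) = x := by
    rw [← mul_assoc, mul_inv_cancel₀ D.π_ne, one_mul]
  refine ⟨(algebraMap R₁ L D.π)⁻¹ * x, hy, ?_⟩
  refine D.integral_of_mul (b := b) (fun h => hb ((D.ker b).mpr h)) hx (z := aeval D.U P') ?_ hy ?_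
  · exact adjoin_le_integralClosure D.U_integral (Polynomial.aeval_mem_adjoin_singleton R₁ D.U)
  · rw [mul_left_comm, hP, hP', ← mul_assoc, inv_mul_cancel₀ D.π_ne, one_mul]

/-- the field of fractions of `R₁[U]` with denominators in `R₁` -/
def wField : Subfield L where
  carrier := {x | ∃ b : R₁, b ≠ 0 ∧ ∃ P : R₁[X], algebraMap R₁ L b * x = aeval D.U P}
  mul_mem' := by
    rintro x y ⟨b, hb, P, hP⟩ ⟨c, hc, P', hP'⟩
    refine ⟨b * c, mul_ne_zero hb hc, P * P', ?_⟩
    rw [map_mul, map_mul, ← hP, ← hP']; ring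
  one_mem' := ⟨1, one_ne_zero, 1, by simp⟩
  add_mem' := by
    rintro x y ⟨b, hb, P, hP⟩ ⟨c, hc, P', hP'⟩
    refine ⟨b * c, mul_ne_zero hb hc, C c * P + C b * P', ?_⟩
    rw [map_mul, map_add, map_mul, map_mul, aeval_C, aeval_C, ← hP, ← hP']; ring
  zero_mem' := ⟨1, one_ne_zero, 0, by simp⟩
  neg_mem' := by
    rintro x ⟨b, hb, P, hP⟩
    refine ⟨b, hb, -P, ?_⟩
    rw [map_neg, ← hP]; ring
  inv_mem' := by
    rintro x ⟨b, hb, P, hP⟩
    by_cases hx : x = 0
    · subst hx
      exact ⟨1, one_ne_zero, 0, by simp⟩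
    have hb0 : algebraMap R₁ L b ≠ 0 := by rwa [Ne, map_eq_zero_iff _ D.inj]
    set s := algebraMap R₁ L b * x with hs
    have hs0 : s ≠ 0 := mul_ne_zero hb0 hx
    have h1 : s ∈ Algebra.adjoin R₁ {D.U} := by
      rw [hP]; exact Polynomial.aeval_mem_adjoin_singleton R₁ D.U
    have h2 : IsIntegral R₁ s := adjoin_le_integralClosure D.U_integral h1
    have : Nontrivial R₁ := inferInstance
    obtain ⟨t, ht, r, hr, hst⟩ := h2.isAlgebraic.exists_nonzero_eq_adjoin_mul
      (mem_nonZeroDivisors_of_ne_zero hs0)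
    have h3 : t ∈ Algebra.adjoin R₁ {D.U} := by
      have : Algebra.adjoin R₁ {s} ≤ Algebra.adjoin R₁ {D.U} := by
        rw [Algebra.adjoin_le_iff, Set.singleton_subset_iff]; exact h1
      exact this ht
    rw [Algebra.adjoin_singleton_eq_range_aeval] at h3
    obtain ⟨P', hP'⟩ := h3
    refine ⟨r, hr, C b * P', ?_⟩
    rw [map_mul, aeval_C, ← hst, hs]
    have h4 : aeval D.U P' = t := hP'
    rw [h4]
    field_simp

lemma mem_wField {x : L} : x ∈ D.wField ↔
    ∃ b : R₁, b ≠ 0 ∧ ∃ P : R₁[X], algebraMap R₁ L b * x = aeval D.U P := Iff.rfl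

lemma aeval_mem_wField (P : R₁[X]) : aeval D.U P ∈ D.wField := ⟨1, one_ne_zero, P, by simp⟩

end RedData

end Fermat.Agent.Igusa
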