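import Mathlib
import Fermat.Prelude.Def_GaloisRep_Flat
set_option autoImplicit false
set_option linter.unusedSectionVars false

noncomputable section
open Polynomial

namespace Fermat.Agent.Igusa

section
variable (ℓ : ℕ) [hℓ : Fact ℓ.Prime]

set_option quotPrecheck false in
local notation "Zl" => ↥(GaloisRep.ratLocalizedAt ℓ)

variable {ℓ}

lemma mem_ratLoc_iff {q : ℚ} : q ∈ GaloisRep.ratLocalizedAt ℓ ↔ q.den.Coprime ℓ := Iff.rfl

lemma den_ne_zero {q : ℚ} (hq : q ∈ GaloisRep.ratLocalizedAt ℓ) : ((q.den : ℕ) : ZMod ℓ) ≠ 0 := by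
  rw [mem_ratLoc_iff, Nat.coprime_comm, Nat.Prime.coprime_iff_not_dvd hℓ.out] at hq
  rwa [Ne, ZMod.natCast_eq_zero_iff]

lemma inv_mem_ratLoc {n : ℤ} (hn : ¬ (ℓ : ℤ) ∣ n) : ((n : ℚ)⁻¹) ∈ GaloisRep.ratLocalizedAt ℓ := by
  have hn0 : n ≠ 0 := by rintro rfl; exact hn (dvd_zero _)
  rw [mem_ratLoc_iff, Rat.inv_intCast_den, if_neg hn0, Nat.coprime_comm,
    Nat.Prime.coprime_iff_not_dvd hℓ.out]
  rwa [← Int.natCast_dvd]

lemma isUnit_intCast {n : ℤ} (hn : ¬ (ℓ : ℤ) ∣ n) : IsUnit ((n : ℤ) : Zl) := by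
  have hn0 : (n : ℚ) ≠ 0 := by
    intro h
    have : n = 0 := by exact_mod_cast h
    exact hn (this ▸ dvd_zero _)
  refine IsUnit.of_mul_eq_one ⟨_, inv_mem_ratLoc hn⟩ ?_
  apply Subtype.ext
  push_cast
  exact mul_inv_cancel₀ hn0

variable (ℓ)

/-- the prime ideal `(ℓ)` of `ℤ` -/
abbrev pl : Ideal ℤ := Ideal.span {(ℓ : ℤ)}

instance pl_prime : (pl ℓ).IsPrime := by
  rw [Ideal.span_singleton_prime (by exact_mod_cast hℓ.out.ne_zero)]
  exact Nat.prime_iff_prime_int.mp hℓ.out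

instance isLocalization_Zl : IsLocalization.AtPrime Zl (pl ℓ) := by
  refine (isLocalization_iff _ _).mpr ⟨?_, ?_, ?_⟩
  · rintro ⟨n, hn⟩
    have : ¬ (ℓ : ℤ) ∣ n := fun h => hn (Ideal.mem_span_singleton.mpr h)
    exact isUnit_intCast this
  · intro z
    have h1 : ¬ (ℓ : ℤ) ∣ ((z : ℚ).den : ℤ) := by
      have := z.2
      rw [mem_ratLoc_iff, Nat.coprime_comm, Nat.Prime.coprime_iff_not_dvd hℓ.out] at this
      exact_mod_cast this
    refine ⟨((z : ℚ).num, ⟨((z : ℚ).den : ℤ), fun h => h1 (Ideal.mem_span_singleton.mp h)⟩), ?_⟩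
    apply Subtype.ext
    simp only [eq_intCast, Int.cast_natCast, Subring.coe_mul, Subring.coe_natCast, Subring.coe_intCast]
    exact Rat.mul_den_eq_num _
  · intro x y h
    refine ⟨1, ?_⟩
    have h1 : ((x : ℤ) : Zl) = ((y : ℤ) : Zl) := h
    have h2 := congrArg Subtype.val h1
    simp only [Subring.coe_intCast] at h2
    have h3 : x = y := by exact_mod_cast h2
    rw [h3]

instance dvr_Zl : IsDiscreteValuationRing Zl :=
  IsLocalization.AtPrime.isDiscreteValuationRing_of_dedekind_domain ℤ (P := pl ℓ)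
    (by rw [Ne, Ideal.span_singleton_eq_bot]; exact_mod_cast hℓ.out.ne_zero) Zl

/-- reduction modulo `ℓ` -/
def redZ : Zl →+* ZMod ℓ where
  toFun q := ((q : ℚ) : ZMod ℓ)
  map_one' := by simp
  map_zero' := by simp
  map_add' p q := by
    push_cast
    exact Rat.cast_add_of_ne_zero (den_ne_zero p.2) (den_ne_zero q.2)
  map_mul' p q := by
    push_cast
    exact Rat.cast_mul_of_ne_zero (den_ne_zero p.2) (den_ne_zero q.2)

lemma redZ_eq_zero_iff (a : Zl) : redZ ℓ a = 0 ↔ (ℓ : Zl) ∣ a := by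
  constructor
  · intro h
    have h1 : ((a : ℚ) : ZMod ℓ) = 0 := h
    rw [Rat.cast_def, div_eq_zero_iff, or_iff_left (den_ne_zero a.2),
      ZMod.intCast_zmod_eq_zero_iff_dvd] at h1
    obtain ⟨m, hm⟩ := h1
    have h2 : ¬ (ℓ : ℤ) ∣ ((a : ℚ).den : ℤ) := by
      have := a.2
      rw [mem_ratLoc_iff, Nat.coprime_comm, Nat.Prime.coprime_iff_not_dvd hℓ.out] at this
      exact_mod_cast this
    have h3 := inv_mem_ratLoc h2
    refine ⟨(m : Zl) * ⟨_, h3⟩, ?_⟩
    apply Subtype.ext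
    push_cast
    conv_lhs => rw [← Rat.num_div_den (a : ℚ), hm]
    push_cast
    ring
  · rintro ⟨b, rfl⟩
    rw [map_mul, map_natCast, CharP.cast_eq_zero, zero_mul]

lemma prime_ell : Prime (ℓ : Zl) := by
  have h1 : RingHom.ker (redZ ℓ) = Ideal.span {(ℓ : Zl)} := by
    ext a
    rw [RingHom.mem_ker, redZ_eq_zero_iff, Ideal.mem_span_singleton]
  have h2 : (RingHom.ker (redZ ℓ)).IsPrime := RingHom.ker_isPrime _
  rw [h1] at h2
  refine (Ideal.span_singleton_prime ?_).mp h2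
  intro h
  have h3 := congrArg Subtype.val h
  simp only [Subring.coe_natCast, Subring.coe_zero, Nat.cast_eq_zero] at h3
  exact hℓ.out.ne_zero h3

lemma redZ_surjective : Function.Surjective (redZ ℓ) := fun x => by
  obtain ⟨n, rfl⟩ := ZMod.intCast_surjective x
  exact ⟨n, map_intCast _ _⟩

end

end Fermat.Agent.Igusa
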