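import Fermat.Agent.Igusa.Descent
import Fermat.Agent.Igusa.RedAlg
import Fermat.Agent.Igusa.Zl
import Fermat.Prelude.Def_ModularCurve_IgusaScheme
set_option autoImplicit false
set_option linter.unusedSectionVars false

noncomputable section
open ModularCurve Polynomial

namespace Fermat.Agent.Igusa

section
variable (N : ℕ) [NeZero N] (ℓ : ℕ) [hℓ : Fact ℓ.Prime] (hN : ¬ ℓ ∣ N)

set_option quotPrecheck false in
local notation "Zl" => ↥(GaloisRep.ratLocalizedAt ℓ)

/-- `ℤ_(ℓ)[T]` as an algebra via `T ↦ j` -/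
@[reducible] def algJ : Algebra Zl[X] (LaurentSeries ℚ) :=
  ((coeffMap (algebraMap Zl ℚ)).comp (jev Zl)).toAlgebra

lemma coeffMapZl_injective : Function.Injective (coeffMap (algebraMap Zl ℚ)) :=
  coeffMap_injective _ (fun _ _ h => Subtype.ext h)

lemma C_dvd_iff {p : Zl[X]} : p.map (redZ ℓ) = 0 ↔ (C (ℓ : Zl)) ∣ p := by
  rw [Polynomial.C_dvd_iff_dvd_coeff, Polynomial.ext_iff]
  refine forall_congr' fun i => ?_
  rw [Polynomial.coeff_map, Polynomial.coeff_zero, redZ_eq_zero_iff]

/-- the reduction data -/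
def redData : letI := algJ ℓ; RedData Zl[X] (LaurentSeries ℚ) (LaurentSeries (ZMod ℓ)) :=
  let := algJ ℓ
  { π := C (ℓ : Zl)
    φ := (jev (ZMod ℓ)).comp (Polynomial.mapRingHom (redZ ℓ))
    Q := (exists_Q0 N ℓ hN).choose
    U := (UserU ℚ N : LaurentSeries ℚ)
    Ub := (UserU (ZMod ℓ) N : LaurentSeries (ZMod ℓ))
    prime := Polynomial.prime_C_iff.mpr (prime_ell ℓ)
    inj := (coeffMapZl_injective ℓ).comp (jev_injective Zl)
    ker := fun a => by
      rw [RingHom.comp_apply, map_eq_zero_iff _ (jev_injective _)]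
      exact C_dvd_iff ℓ
    monic := (exists_Q0 N ℓ hN).choose_spec.1
    root := by
      have h1 := (exists_Q0 N ℓ hN).choose_spec.2.2
      have h2 := congrArg (coeffMap (algebraMap Zl ℚ)) h1
      rw [Polynomial.hom_eval₂, coeffMap_UserU, map_zero] at h2
      exact h2
    compat := fun P hP => by
      have h1 : P.eval₂ (jev Zl) (UserU Zl N) = 0 := by
        apply coeffMapZl_injective ℓ
        rw [Polynomial.hom_eval₂, coeffMap_UserU, map_zero]
        exact hP
      have h2 := congrArg (coeffMap (redZ ℓ)) h1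
      rw [coeffMap_eval₂_jev, coeffMap_UserU, map_zero, Polynomial.eval₂_map] at h2
      exact h2
    deg := fun P hdeg hP i => by
      have h1 : P.map (Polynomial.mapRingHom (redZ ℓ)) = 0 := by
        apply keyF N ℓ hN
        · rw [← (exists_Q0 N ℓ hN).choose_spec.2.1]
          exact lt_of_le_of_lt Polynomial.degree_map_le hdeg
        · rw [Polynomial.eval₂_map]
          exact hP
      have h2 := congrArg (fun p => Polynomial.coeff p i) h1
      simp only [Polynomial.coeff_map, Polynomial.coeff_zero] at h2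
      exact (C_dvd_iff ℓ).mp h2 }

lemma eval₂_mem_subring {A B : Type*} [CommRing A] [CommRing B] (W : Subring B) (f : A →+* B)
    (hf : ∀ a, f a ∈ W) {x : B} (hx : x ∈ W) (p : A[X]) : p.eval₂ f x ∈ W := by
  rw [Polynomial.eval₂_eq_sum_range]
  exact sum_mem fun i _ => mul_mem (hf _) (pow_mem hx i)

lemma ratConst_mem (q : ℚ) : (HahnSeries.C q : LaurentSeries ℚ) ∈
    (letI := algJ ℓ; (redData N ℓ hN).wField) := by
  let := algJ ℓ
  rw [RedData.mem_wField]
  refine ⟨C ((q.den : ℕ) : Zl), ?_, C (C ((q.num : ℤ) : Zl)), ?_⟩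
  · rw [Ne, Polynomial.C_eq_zero]
    intro h
    have := congrArg Subtype.val h
    simp only [Subring.coe_natCast, Subring.coe_zero, Nat.cast_eq_zero] at this
    exact q.den_ne_zero this
  · rw [aeval_C]
    have h : ∀ a : Zl, algebraMap Zl[X] (LaurentSeries ℚ) (C a) = HahnSeries.C ((a : ℚ)) := by
      intro a
      show coeffMap (algebraMap Zl ℚ) (jev Zl (C a)) = _
      rw [jev_C, HahnSeries.C_apply, coeffMap_single]; rfl
    rw [h, h, ← map_mul]
    congr 1
    simp only [Subring.coe_natCast, Subring.coe_intCast]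
    rw [mul_comm]
    exact Rat.mul_den_eq_num q

lemma jq_mem_wField : jq ∈ (letI := algJ ℓ; (redData N ℓ hN).wField) := by
  let := algJ ℓ
  rw [RedData.mem_wField]
  refine ⟨1, one_ne_zero, C X, ?_⟩
  rw [map_one, one_mul, aeval_C]
  show jq = coeffMap (algebraMap Zl ℚ) (jev Zl X)
  rw [jev_X, coeffMap_jqModC, jqModC_rat]

lemma evalQ_mem_wField (P : ℚ[X][X]) : P.eval₂ (jev ℚ) (UserU ℚ N) ∈
    (letI := algJ ℓ; (redData N ℓ hN).wField) := by
  let := algJ ℓ
  refine eval₂_mem_subring (redData N ℓ hN).wField.toSubring _ ?_ ?_ P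
  · intro p
    refine eval₂_mem_subring (redData N ℓ hN).wField.toSubring _ ?_ ?_ p
    · exact ratConst_mem N ℓ hN
    · exact jq_mem_wField N ℓ hN
  · have := (redData N ℓ hN).aeval_mem_wField X
    rw [aeval_X] at this
    exact this

lemma full_le_wField {x : LaurentSeries ℚ} (hx : x ∈ modularFunctionFieldFull N) :
    x ∈ (letI := algJ ℓ; (redData N ℓ hN).wField) := by
  let := algJ ℓ
  set W := (redData N ℓ hN).wField with hW
  have hQ : ∀ q : ℚ, algebraMap ℚ (LaurentSeries ℚ) q ∈ W := by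
    intro q
    rw [ModularCurve.algebraMap_apply_eq_single]
    exact ratConst_mem N ℓ hN q
  have h1 : modularFunctionFieldFull N ≤ W.toIntermediateField hQ := by
    rw [modularFunctionFieldFull, IntermediateField.adjoin_le_iff]
    rintro y ⟨d, hd, hdN, rfl⟩
    obtain ⟨w, z, hw, hwz⟩ := lagrange N hdN
    have h2 := evalQ_mem_wField N ℓ hN w
    have h3 := evalQ_mem_wField N ℓ hN z
    have h4 : qExpand ℚ d jq = z.eval₂ (jev ℚ) (UserU ℚ N) * (w.eval₂ (jev ℚ) (UserU ℚ N))⁻¹ := by
      rw [← hwz, mul_assoc, mul_inv_cancel₀ hw, mul_one]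
    show qExpand ℚ d jq ∈ W
    rw [h4]
    exact mul_mem h3 (inv_mem h2)
  exact h1 hx

end

end Fermat.Agent.Igusa
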