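import Fermat.Agent.Igusa.Chart
set_option autoImplicit false
set_option linter.unusedSectionVars false

noncomputable section
open ModularCurve ModularCurve.IgusaScheme Polynomial

namespace Fermat.Agent.Igusa

section
variable (N : ℕ) [NeZero N] (ℓ : ℕ) [hℓ : Fact ℓ.Prime] (hN : ¬ ℓ ∣ N)

set_option quotPrecheck false in
local notation "Zl" => ↥(GaloisRep.ratLocalizedAt ℓ)

set_option quotPrecheck false in
local notation "F" => ↥(modularFunctionFieldFull N)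

/-- inclusion of the function field -/
def valF : F →+* LaurentSeries ℚ where
  toFun x := x
  map_one' := rfl
  map_zero' := rfl
  map_add' _ _ := rfl
  map_mul' _ _ := rfl

lemma valF_apply (x : F) : valF N x = (x : LaurentSeries ℚ) := rfl

lemma valF_injective : Function.Injective (valF N) := Subtype.val_injective

/-- evaluation at `s` -/
def gs (s : F) : Zl[X] →+* LaurentSeries ℚ := (valF N).comp (aeval s : Zl[X] →ₐ[Zl] F).toRingHom

variable {N ℓ} in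
lemma mem_chartAlg_iff_gs {s y : F} :
    y ∈ chartAlg N ℓ {s} ↔ (gs N ℓ s).IsIntegralElem (y : LaurentSeries ℚ) := by
  rw [mem_chartAlg_iff]
  set α : Zl[X] →+* Algebra.adjoin Zl {s} :=
    (aeval (⟨s, Algebra.subset_adjoin rfl⟩ : Algebra.adjoin Zl {s}) :
      Zl[X] →ₐ[Zl] Algebra.adjoin Zl {s}).toRingHom with hα
  have hα1 : (algebraMap (Algebra.adjoin Zl {s}) F).comp α = (aeval s : Zl[X] →ₐ[Zl] F).toRingHom := by
    refine RingHom.ext fun p => ?_
    show ((aeval (⟨s, Algebra.subset_adjoin rfl⟩ : Algebra.adjoin Zl {s}) p : Algebra.adjoin Zl {s}) : F) =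
      aeval s p
    exact (Subalgebra.aeval_coe (Algebra.adjoin Zl {s}) ⟨s, Algebra.subset_adjoin rfl⟩ p).symm
  have hsurj : Function.Surjective α := by
    intro z
    obtain ⟨z, h1⟩ := z
    have h1' := h1
    rw [Algebra.adjoin_singleton_eq_range_aeval] at h1'
    obtain ⟨p, hp⟩ := h1'
    refine ⟨p, Subtype.ext ?_⟩
    have h2 := congrArg (fun f : Zl[X] →+* F => f p) hα1
    exact h2.trans hp
  constructor
  · rintro ⟨p, hp, hpy⟩
    have h1 : p ∈ Polynomial.lifts α := by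
      rw [Polynomial.lifts_iff_coeff_lifts]
      exact fun i => hsurj _
    obtain ⟨p', h2, -, h3⟩ := Polynomial.lifts_and_natDegree_eq_and_monic h1 hp
    refine ⟨p', h3, ?_⟩
    rw [← h2, Polynomial.eval₂_map, hα1] at hpy
    have h4 := congrArg (valF N) hpy
    rw [Polynomial.hom_eval₂, map_zero] at h4
    exact h4
  · rintro ⟨p, hp, hpy⟩
    refine ⟨p.map α, hp.map _, ?_⟩
    rw [Polynomial.eval₂_map, hα1]
    apply valF_injective N
    rw [Polynomial.hom_eval₂, map_zero]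
    exact hpy

lemma gs_jFull : gs N ℓ (jFull N) = (coeffMap (algebraMap Zl ℚ)).comp (jev Zl) := by
  apply Polynomial.ringHom_ext
  · intro a
    rw [RingHom.comp_apply, jev_C, HahnSeries.C_apply, coeffMap_single]
    show valF N (aeval (jFull N) (C a)) = _
    rw [aeval_C]
    exact congrArg (fun f : ℚ →+* LaurentSeries ℚ => f (a : ℚ))
      (Subsingleton.elim ((valF N).comp (algebraMap ℚ F)) (HahnSeries.C : ℚ →+* LaurentSeries ℚ))
  · rw [RingHom.comp_apply, jev_X, coeffMap_jqModC, jqModC_rat]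
    show valF N (aeval (jFull N) X) = _
    rw [aeval_X]
    rfl

/-- the middle chart -/
abbrev Smid : Set F := {jFull N, (jFull N)⁻¹}

lemma fin_good {x : F} (hx : x ∈ chartAlg N ℓ {jFull N}) :
    (x : LaurentSeries ℚ) ∈ (letI := algJ ℓ; (redData N ℓ hN).goodRing) := by
  let := algJ ℓ
  rw [mem_chartAlg_iff_gs, gs_jFull] at hx
  have h1 : IsIntegral Zl[X] (x : LaurentSeries ℚ) := hx
  obtain ⟨b, hb, P, hP⟩ := full_le_wField N ℓ hN x.2
  exact (redData N ℓ hN).good_of_integral h1 hb hP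

lemma fin_ker {x : F} (hx : x ∈ chartAlg N ℓ {jFull N})
    (h0 : (letI := algJ ℓ; (redData N ℓ hN).theta) ⟨(x : LaurentSeries ℚ), fin_good N ℓ hN hx⟩ = 0) :
    ∃ y ∈ chartAlg N ℓ {jFull N}, x = (ℓ : F) * y := by
  let := algJ ℓ
  have hx' := hx
  rw [mem_chartAlg_iff_gs, gs_jFull] at hx'
  have h1 : IsIntegral Zl[X] (x : LaurentSeries ℚ) := hx'
  obtain ⟨y, hy, hyi⟩ := (redData N ℓ hN).exists_of_theta_eq_zero h1 (fin_good N ℓ hN hx) h0
  have h2 : algebraMap Zl[X] (LaurentSeries ℚ) (redData N ℓ hN).π = (ℓ : LaurentSeries ℚ) := by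
    show coeffMap (algebraMap Zl ℚ) (jev Zl (C (ℓ : Zl))) = _
    rw [map_natCast, map_natCast, map_natCast]
  rw [h2] at hy
  have hl : (ℓ : F) ≠ 0 := by exact_mod_cast hℓ.out.ne_zero
  have hl' : (ℓ : LaurentSeries ℚ) ≠ 0 := by
    have := (valF_injective N).ne hl
    rwa [map_natCast, map_zero] at this
  have h3 : ((((ℓ : F))⁻¹ * x : F) : LaurentSeries ℚ) = y := by
    have : valF N (((ℓ : F))⁻¹ * x) = y := by
      rw [map_mul, map_inv₀, map_natCast, valF_apply, ← hy, ← mul_assoc, inv_mul_cancel₀ hl', one_mul]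
    exact this
  refine ⟨(ℓ : F)⁻¹ * x, ?_, by rw [← mul_assoc, mul_inv_cancel₀ hl, one_mul]⟩
  rw [mem_chartAlg_iff_gs, gs_jFull, h3]
  exact hyi

lemma algJ_X : (letI := algJ ℓ; algebraMap Zl[X] (LaurentSeries ℚ) X) = jq := by
  show coeffMap (algebraMap Zl ℚ) (jev Zl X) = jq
  rw [jev_X, coeffMap_jqModC, jqModC_rat]

lemma phi_X : (letI := algJ ℓ; (redData N ℓ hN).φ X) = jqModC (ZMod ℓ) := by
  show jev (ZMod ℓ) (Polynomial.map (redZ ℓ) X) = _
  rw [Polynomial.map_X, jev_X]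

lemma exists_pow_mul_fin {x : F} (hx : x ∈ chartAlg N ℓ (Smid N)) :
    ∃ M : ℕ, (jFull N) ^ M * x ∈ chartAlg N ℓ {jFull N} := by
  refine exists_pow_mul_mem_chartAlg (Set.mem_singleton _) (jFull_ne_zero N) ?_
  rw [show insert (jFull N)⁻¹ ({jFull N} : Set F) = Smid N from Set.pair_comm _ _]
  exact hx

lemma exists_pow_mul_inf {x : F} (hx : x ∈ chartAlg N ℓ (Smid N)) :
    ∃ M : ℕ, ((jFull N)⁻¹) ^ M * x ∈ chartAlg N ℓ {(jFull N)⁻¹} := by
  refine exists_pow_mul_mem_chartAlg (Set.mem_singleton _) (inv_ne_zero (jFull_ne_zero N)) ?_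
  rw [inv_inv]
  exact hx

lemma mid_good {x : F} (hx : x ∈ chartAlg N ℓ (Smid N)) :
    (x : LaurentSeries ℚ) ∈ (letI := algJ ℓ; (redData N ℓ hN).goodRing) := by
  let := algJ ℓ
  obtain ⟨M, hM⟩ := exists_pow_mul_fin N ℓ hx
  obtain ⟨b, hb, P, hP⟩ := fin_good N ℓ hN hM
  refine ⟨b * X ^ M, ?_, P, ?_⟩
  · rw [map_mul, map_pow, phi_X]
    exact mul_ne_zero hb (pow_ne_zero _ (jqModC_ne_zero_of_nontrivial (ZMod ℓ)))
  · rw [map_mul, map_pow, algJ_X, ← hP, mul_assoc]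
    rfl

/-- reduction on charts -/
def thetaS {S : Set F} (hS : S ⊆ Smid N) : chartAlg N ℓ S →+* LaurentSeries (ZMod ℓ) :=
  letI := algJ ℓ
  ((redData N ℓ hN).theta).comp
    (((valF N).comp (chartAlg N ℓ S).val.toRingHom).codRestrict (redData N ℓ hN).goodRing
      (fun x => mid_good N ℓ hN (chartAlg_mono N ℓ hS x.2)))

lemma thetaS_eq {S : Set F} (hS : S ⊆ Smid N) (x : chartAlg N ℓ S)
    (h : (x : LaurentSeries ℚ) ∈ (letI := algJ ℓ; (redData N ℓ hN).goodRing)) :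
    thetaS N ℓ hN hS x = (letI := algJ ℓ; (redData N ℓ hN).theta) ⟨((x : F) : LaurentSeries ℚ), h⟩ := rfl

lemma thetaS_congr {S T : Set F} (hS : S ⊆ Smid N) (hT : T ⊆ Smid N) (x : chartAlg N ℓ S)
    (y : chartAlg N ℓ T) (hxy : (x : F) = y) : thetaS N ℓ hN hS x = thetaS N ℓ hN hT y := by
  obtain ⟨x, hx⟩ := x
  obtain ⟨y, hy⟩ := y
  have : x = y := hxy
  subst this
  rfl

lemma thetaS_incl {S T : Set F} (hS : S ⊆ Smid N) (hT : T ⊆ Smid N) (hST : S ⊆ T) (x : chartAlg N ℓ S) :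
    thetaS N ℓ hN hT (chartIncl N ℓ hST x) = thetaS N ℓ hN hS x :=
  thetaS_congr N ℓ hN hT hS _ _ (coe_chartIncl N ℓ hST x)

lemma sub_fin : ({jFull N} : Set F) ⊆ Smid N := sFin_subset N
lemma sub_inf : ({(jFull N)⁻¹} : Set F) ⊆ Smid N := sInf_subset N

lemma jMid_mem : jFull N ∈ chartAlg N ℓ (Smid N) := subset_chartAlg N ℓ _ (by simp)

lemma thetaS_jMid : thetaS N ℓ hN subset_rfl (⟨jFull N, jMid_mem N ℓ⟩ : chartAlg N ℓ (Smid N)) =
    jqModC (ZMod ℓ) := by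
  let := algJ ℓ
  have h1 : (jFull N : LaurentSeries ℚ) = algebraMap Zl[X] (LaurentSeries ℚ) X := (algJ_X ℓ).symm
  rw [thetaS_eq N ℓ hN subset_rfl _ (mid_good N ℓ hN (jMid_mem N ℓ))]
  have h2 := (redData N ℓ hN).theta_eq ⟨((jFull N : F) : LaurentSeries ℚ), mid_good N ℓ hN (jMid_mem N ℓ)⟩
    (b := 1) (P := C X) (by rw [map_one, one_mul, aeval_C]; exact h1)
  rw [map_one, one_mul, Polynomial.eval₂_C, phi_X] at h2
  exact h2

lemma ell_ne : (ℓ : F) ≠ 0 := by exact_mod_cast hℓ.out.ne_zero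

/-- kernel on the finite chart -/
lemma ker_fin (x : chartAlg N ℓ {jFull N}) (h0 : thetaS N ℓ hN (sub_fin N) x = 0) :
    ∃ y : chartAlg N ℓ {jFull N}, x = (ℓ : chartAlg N ℓ {jFull N}) * y := by
  obtain ⟨y, hy, hxy⟩ := fin_ker N ℓ hN x.2 h0
  exact ⟨⟨y, hy⟩, Subtype.ext (by rw [Subalgebra.coe_mul]; exact hxy)⟩

/-- kernel on the middle chart -/
lemma ker_mid {x : F} (hx : x ∈ chartAlg N ℓ (Smid N))
    (h0 : thetaS N ℓ hN subset_rfl ⟨x, hx⟩ = 0) : ∃ y ∈ chartAlg N ℓ (Smid N), x = (ℓ : F) * y := by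
  obtain ⟨M, hM⟩ := exists_pow_mul_fin N ℓ hx
  have h1 : thetaS N ℓ hN (sub_fin N) ⟨_, hM⟩ = 0 := by
    have h2 : thetaS N ℓ hN (sub_fin N) ⟨_, hM⟩ =
        thetaS N ℓ hN subset_rfl (⟨jFull N, jMid_mem N ℓ⟩ ^ M * ⟨x, hx⟩) :=
      thetaS_congr N ℓ hN _ _ _ _ (by rw [Subalgebra.coe_mul, Subalgebra.coe_pow])
    rw [h2, map_mul, h0, mul_zero]
  obtain ⟨y, hy⟩ := ker_fin N ℓ hN _ h1
  have hy' : (jFull N) ^ M * x = (ℓ : F) * (y : F) := by
    have := congrArg Subtype.val hy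
    rw [Subalgebra.coe_mul] at this
    exact this
  have hj := jFull_ne_zero N
  refine ⟨((jFull N)⁻¹) ^ M * y, ?_, ?_⟩
  · refine mul_mem (pow_mem (subset_chartAlg N ℓ _ (by simp)) _) (chartAlg_mono N ℓ (sub_fin N) y.2)
  · rw [mul_left_comm, ← hy', ← mul_assoc, ← mul_pow, inv_mul_cancel₀ hj, one_pow, one_mul]

lemma aeval_inv_injective : Function.Injective (aeval (jFull N)⁻¹ : Zl[X] →ₐ[Zl] F) := by
  have h1 : Function.Injective (aeval (jFull N) : Zl[X] →ₐ[Zl] F) := by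
    have h2 : Function.Injective (gs N ℓ (jFull N)) := by
      rw [gs_jFull]
      exact (coeffMapZl_injective ℓ).comp (jev_injective Zl)
    have h3 : Function.Injective (valF N ∘ (aeval (jFull N) : Zl[X] →ₐ[Zl] F)) := h2
    exact h3.of_comp
  rw [← transcendental_iff_injective] at h1 ⊢
  intro h
  exact h1 (IsAlgebraic.inv_iff.mp h)

/-- kernel on the chart at infinity -/
lemma ker_inf (x : chartAlg N ℓ {(jFull N)⁻¹}) (h0 : thetaS N ℓ hN (sub_inf N) x = 0) :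
    ∃ y : chartAlg N ℓ {(jFull N)⁻¹}, x = (ℓ : chartAlg N ℓ {(jFull N)⁻¹}) * y := by
  have hx' : (x : F) ∈ chartAlg N ℓ (Smid N) := chartAlg_mono N ℓ (sub_inf N) x.2
  obtain ⟨y, hy, hxy⟩ := ker_mid N ℓ hN hx' (by
    rw [← h0]
    exact thetaS_congr N ℓ hN _ _ _ _ rfl)
  obtain ⟨M, hM⟩ := exists_pow_mul_inf N ℓ hy
  suffices h : y ∈ chartAlg N ℓ {(jFull N)⁻¹} from
    ⟨⟨y, h⟩, Subtype.ext (by rw [Subalgebra.coe_mul]; exact hxy)⟩
  let : Algebra Zl[X] (LaurentSeries ℚ) := (gs N ℓ (jFull N)⁻¹).toAlgebra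
  have hmap : ∀ p : Zl[X], algebraMap Zl[X] (LaurentSeries ℚ) p = gs N ℓ (jFull N)⁻¹ p := fun _ => rfl
  have hx2 : IsIntegral Zl[X] ((x : F) : LaurentSeries ℚ) := mem_chartAlg_iff_gs.mp x.2
  have hz2 : IsIntegral Zl[X] (((jFull N)⁻¹ ^ M * y : F) : LaurentSeries ℚ) := mem_chartAlg_iff_gs.mp hM
  rw [mem_chartAlg_iff_gs]
  have hinj : Function.Injective (algebraMap Zl[X] (LaurentSeries ℚ)) :=
    (valF_injective N).comp (aeval_inv_injective N ℓ)
  refine integral_of_mul_gen (b := X ^ M) hinj (Polynomial.prime_C_iff.mpr (prime_ell ℓ)) ?_ hx2 hz2 ?_ ?_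
  · intro h
    rw [← C_dvd_iff, Polynomial.map_pow, Polynomial.map_X] at h
    exact pow_ne_zero M Polynomial.X_ne_zero h
  · rw [hmap, hxy]
    show gs N ℓ (jFull N)⁻¹ (C (ℓ : Zl)) * valF N y = valF N ((ℓ : F) * y)
    rw [map_natCast, map_natCast, map_mul, map_natCast]
  · rw [hmap]
    show valF N (aeval (jFull N)⁻¹ (X ^ M)) * valF N y = valF N ((jFull N)⁻¹ ^ M * y)
    rw [map_pow, aeval_X, map_mul]

end

end Fermat.Agent.Igusa
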