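import Fermat.Agent.Igusa.ModUnit
set_option autoImplicit false
set_option linter.unusedSectionVars false

noncomputable section
open UpperHalfPlane Function Filter ModularCurve Polynomial
open scoped Topology Manifold MatrixGroups ModularForm

namespace Fermat.Agent.Igusa

local notation "𝕢" => Periodic.qParam
local notation "Δ" => ModularForm.discriminant

section
variable {N : ℕ} [NeZero N]

lemma Gamma0_iff_dvd {γ : SL(2, ℤ)} : γ ∈ CongruenceSubgroup.Gamma0 N ↔ (N : ℤ) ∣ γ 1 0 := by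
  rw [CongruenceSubgroup.Gamma0_mem]
  exact ZMod.intCast_zmod_eq_zero_iff_dvd _ _

lemma prod_zpow_exp₀ {ι : Type*} {a : ℂ} (ha : a ≠ 0) (s : Finset ι) (r : ι → ℤ) :
    ∏ i ∈ s, a ^ r i = a ^ (∑ i ∈ s, r i) := by
  classical
  induction s using Finset.induction_on with
  | empty => simp
  | insert i s hi ih => rw [Finset.prod_insert hi, Finset.sum_insert hi, ih, zpow_add₀ ha]

lemma Ufun_inv {γ : SL(2, ℤ)} (hγ : γ ∈ CongruenceSubgroup.Gamma0 N) (τ : ℍ) :
    Ufun N (γ • τ) = Ufun N τ := by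
  have hN : N ≠ 0 := NeZero.ne N
  rw [Gamma0_iff_dvd] at hγ
  have ha : cd γ τ ^ 12 ≠ 0 := pow_ne_zero _ (cd_ne_zero γ τ)
  have h1 : ∀ S ∈ N.primeFactors.powerset, Δ (sclT (tS N S) (γ • τ)) ^ (rS N S) =
      (cd γ τ ^ 12) ^ (rS N S) * Δ (sclT (tS N S) τ) ^ (rS N S) := by
    intro S hS
    have hS' := Finset.mem_powerset.mp hS
    have ht := tS_pos hN hS'
    have hd : ((tS N S : ℕ) : ℤ) ∣ γ 1 0 := (Int.natCast_dvd_natCast.mpr (tS_dvd hS')).trans hγ
    rw [sclT_of_pos ht, sclT_of_pos ht, disc_scl_of_dvd ht hd, mul_zpow]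
  rw [Ufun, Finset.prod_congr rfl h1, Finset.prod_mul_distrib, prod_zpow_exp₀ ha, sum_rS, disc_smul,
    mul_zpow, mul_mul_mul_comm, ← zpow_add₀ ha, add_neg_cancel, zpow_zero, one_mul]
  rfl

variable (N) (R : Type*) [CommRing R] [Algebra R ℂ]

/-- `Γ₀(N)`-invariant functions all of whose conjugates have integral expansions -/
structure IsMod (f : ℍ → ℂ) : Prop where
  inv : ∀ γ ∈ CongruenceSubgroup.Gamma0 N, ∀ τ : ℍ, f (γ • τ) = f τ
  exp : ∀ γ : SL(2, ℤ), ∃ x : expRing N R, ∀ τ, evAt τ x = f (γ • τ)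

variable {N R}

lemma isMod_Ufun (hR : GoodRing N R) : IsMod N R (Ufun N) where
  inv γ hγ τ := Ufun_inv hγ τ
  exp γ := by
    obtain ⟨u, hu, -⟩ := exists_unit hR γ
    exact ⟨u, hu⟩

lemma isMod_jscl (hR : GoodRing N R) {t : ℕ} (ht : 0 < t) (htN : t ∣ N) :
    IsMod N R (fun τ => jfun (scl t ht τ)) where
  inv γ hγ τ := by
    rw [Gamma0_iff_dvd] at hγ
    exact jfun_scl_of_dvd ht ((Int.natCast_dvd_natCast.mpr htN).trans hγ) τ
  exp γ := by
    obtain ⟨dec⟩ := Dec.exists t ht γ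
    obtain ⟨s, hs, ζ, φ, h1, h2, h3⟩ := hR.exists_subst ht htN dec
    refine ⟨φ (jel1 R), fun τ => ?_⟩
    rw [dec.jfun_scl ht τ]
    exact h2 (jel1 R) τ

lemma isMod_const (r : R) : IsMod N R (fun _ => algebraMap R ℂ r) where
  inv _ _ _ := rfl
  exp _ := ⟨cst N R r, fun _ => rfl⟩

/-- the cosets -/
abbrev Cos (N : ℕ) : Type := SL(2, ℤ) ⧸ CongruenceSubgroup.Gamma0 N

instance : Fintype (Cos N) := Subgroup.fintypeQuotientOfFiniteIndex

/-- conjugates of a modular function -/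
def IsMod.conj {f : ℍ → ℂ} (hf : IsMod N R f) (c : Cos N) : expRing N R :=
  (hf.exp (c.out)⁻¹).choose

lemma IsMod.conj_mk {f : ℍ → ℂ} (hf : IsMod N R f) (g : SL(2, ℤ)) (τ : ℍ) :
    evAt τ (hf.conj (QuotientGroup.mk g)) = f (g⁻¹ • τ) := by
  rw [IsMod.conj, (hf.exp _).choose_spec τ]
  obtain ⟨h, hh⟩ := QuotientGroup.mk_out_eq_mul (CongruenceSubgroup.Gamma0 N) g
  rw [hh, mul_inv_rev, mul_smul]
  exact hf.inv _ (inv_mem h.2) _

lemma IsMod.conj_smul {f : ℍ → ℂ} (hf : IsMod N R f) (c : Cos N) (γ : SL(2, ℤ)) (τ : ℍ) :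
    evAt (γ • τ) (hf.conj c) = evAt τ (hf.conj (γ⁻¹ • c)) := by
  induction c using QuotientGroup.induction_on with
  | H g =>
    rw [hf.conj_mk, MulAction.Quotient.smul_mk, smul_eq_mul, hf.conj_mk, mul_inv_rev, inv_inv, mul_smul]

/-- the canonical map `R[T] → expRing` -/
def polyHom (N : ℕ) [NeZero N] (R : Type*) [CommRing R] [Algebra R ℂ] : R[X] →+* expRing N R :=
  Polynomial.eval₂RingHom (cst N R) (jel N R)

/-- Polynomials with `SL₂(ℤ)`-invariant coefficients come from `R[T][X]`. -/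
theorem exists_lift (hinj : Function.Injective (algebraMap R ℂ)) (Φ : (expRing N R)[X])
    (hΦ : ∀ (γ : SL(2, ℤ)) (τ : ℍ), Φ.map (evAt (γ • τ)) = Φ.map (evAt τ)) :
    ∃ P : R[X][X], P.map (polyHom N R) = Φ ∧ P.degree = Φ.degree ∧ (Φ.Monic → P.Monic) := by
  have h1 : Φ ∈ Polynomial.lifts (polyHom N R) := by
    rw [Polynomial.lifts_iff_coeff_lifts]
    intro i
    obtain ⟨P, hP⟩ := levelOne hinj (Φ.coeff i) (by
      intro γ τ
      have := congrArg (fun p => Polynomial.coeff p i) (hΦ γ τ)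
      simp only [Polynomial.coeff_map] at this
      exact this)
    exact ⟨P, hP⟩
  by_cases hmon : Φ.Monic
  · obtain ⟨P, h2, h3, h4⟩ := Polynomial.lifts_and_degree_eq_and_monic h1 hmon
    exact ⟨P, h2, h3, fun _ => h4⟩
  · obtain ⟨P, h2, h3⟩ := Polynomial.exists_degree_eq_of_mem_lifts h1
    exact ⟨P, h2, h3, fun h => absurd h hmon⟩

end

end Fermat.Agent.Igusa
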