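import Fermat.Agent.Igusa.LevelOnePoly
set_option autoImplicit false
set_option linter.unusedSectionVars false

noncomputable section
open UpperHalfPlane Function Filter ModularCurve Polynomial
open scoped Topology Manifold MatrixGroups ModularForm

namespace Fermat.Agent.Igusa

local notation "𝕢" => Periodic.qParam
local notation "Δ" => ModularForm.discriminant

/-- `τ ↦ (A τ + B) / D` -/
def aff (A : ℕ) (B : ℤ) (D : ℕ) (hA : 0 < A) (hD : 0 < D) (τ : ℍ) : ℍ :=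
  ⟨((A : ℂ) * τ + B) / D, by
    have h1 : (((A : ℂ) * τ + B) / D).im = (A / D : ℝ) * τ.im := by
      rw [show ((A : ℂ) * τ + B) / D = ((A / D : ℝ) : ℂ) * τ + ((B / D : ℝ) : ℂ) by
        push_cast; ring]
      rw [Complex.add_im, Complex.im_ofReal_mul, Complex.ofReal_im, add_zero]
      rfl
    rw [h1]
    have h2 : (0 : ℝ) < A := by exact_mod_cast hA
    have h3 : (0 : ℝ) < D := by exact_mod_cast hD
    exact mul_pos (div_pos h2 h3) τ.im_pos⟩

lemma coe_aff (A : ℕ) (B : ℤ) (D : ℕ) (hA : 0 < A) (hD : 0 < D) (τ : ℍ) :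
    (aff A B D hA hD τ : ℂ) = ((A : ℂ) * τ + B) / D := rfl

/-- `τ ↦ t τ` -/
def scl (t : ℕ) (ht : 0 < t) (τ : ℍ) : ℍ := aff t 0 1 ht one_pos τ

lemma coe_scl (t : ℕ) (ht : 0 < t) (τ : ℍ) : (scl t ht τ : ℂ) = t * τ := by
  rw [scl, coe_aff]; push_cast; ring

lemma scl_one (τ : ℍ) : scl 1 one_pos τ = τ := by
  ext1; rw [coe_scl]; simp

/-- a decomposition `(t 0; 0 1) γ = δ (A B; 0 D)` -/
structure Dec (t : ℕ) (γ : SL(2, ℤ)) where
  /-- the matrix `δ` -/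
  δ : SL(2, ℤ)
  /-- A -/
  A : ℕ
  /-- D -/
  D : ℕ
  /-- B -/
  B : ℤ
  hAD : A * D = t
  hA : A = Nat.gcd t (γ 1 0).natAbs
  e00 : δ 0 0 * A = t * γ 0 0
  e10 : δ 1 0 * A = γ 1 0
  e01 : δ 0 0 * B + δ 0 1 * D = t * γ 0 1
  e11 : δ 1 0 * B + δ 1 1 * D = γ 1 1

lemma Dec.exists (t : ℕ) (ht : 0 < t) (γ : SL(2, ℤ)) : Nonempty (Dec t γ) := by
  set a := γ 0 0
  set b := γ 0 1
  set c := γ 1 0
  set d := γ 1 1
  have hdet : a * d - b * c = 1 := by
    have := γ.det_coe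
    rwa [Matrix.det_fin_two] at this
  set A := Nat.gcd t c.natAbs with hA
  have hApos : 0 < A := Nat.gcd_pos_of_pos_left _ ht
  obtain ⟨D, hD⟩ : A ∣ t := Nat.gcd_dvd_left _ _
  have hAc : (A : ℤ) ∣ c := by
    rw [Int.natCast_dvd]; exact Nat.gcd_dvd_right _ _
  obtain ⟨z, hz⟩ := hAc
  have hDpos : 0 < D := by
    rcases Nat.eq_zero_or_pos D with h | h
    · rw [h, mul_zero] at hD; omega
    · exact h
  -- gcd (D a, z) = 1
  have hcop : IsCoprime ((D : ℤ) * a) z := by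
    have h1 : IsCoprime (D : ℤ) z := by
      rw [Int.isCoprime_iff_gcd_eq_one]
      have h2 : Int.gcd (t : ℤ) c = A := by rw [Int.gcd_def, Int.natAbs_natCast]
      have h3 : Int.gcd ((A : ℤ) * D) ((A : ℤ) * z) = A * Int.gcd (D : ℤ) z := by
        rw [Int.gcd_mul_left, Int.natAbs_natCast]
      rw [← hz, ← Nat.cast_mul, ← hD, h2] at h3
      exact Nat.eq_of_mul_eq_mul_left hApos (by rw [← h3, mul_one])
    have h4 : IsCoprime a z := by
      have : IsCoprime a c := ⟨d, -b, by linarith⟩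
      exact this.of_isCoprime_of_dvd_right ⟨A, by rw [hz]; ring⟩
    exact h1.mul_left h4
  obtain ⟨w, y', hwy⟩ := hcop
  -- w * (D a) + y' * z = 1 ; matrix (Da, -y'; z, w)
  refine ⟨⟨⟨!![(D : ℤ) * a, -y'; z, w], ?_⟩, A, D, w * (t * b) + y' * d, hD.symm, rfl, ?_, ?_, ?_, ?_⟩⟩
  · rw [Matrix.det_fin_two_of]; linarith
  · show (D : ℤ) * a * A = t * a
    rw [hD]; push_cast; ring
  · show z * A = c
    rw [hz]; ring
  · show (D : ℤ) * a * (w * (t * b) + y' * d) + (-y') * D = t * b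
    -- D a w t b + y' D (a d - 1) = D a w t b + y' D b c = t b (D a w + y' z)
    have h5 : (D : ℤ) * c = t * z := by rw [hz, hD]; push_cast; ring
    calc (D : ℤ) * a * (w * (t * b) + y' * d) + (-y') * D
        = t * b * (w * (D * a)) + y' * D * (a * d - 1) := by ring
      _ = t * b * (w * (D * a)) + y' * (D * c) * b := by
          rw [show a * d - 1 = b * c by linarith]; ring
      _ = t * b * (w * (D * a) + y' * z) := by rw [h5]; ring
      _ = t * b := by rw [hwy, mul_one]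
  · show z * (w * (t * b) + y' * d) + w * D = d
    have h5 : (D : ℤ) * c = t * z := by rw [hz, hD]; push_cast; ring
    calc z * (w * (t * b) + y' * d) + w * D
        = w * b * (t * z) + z * y' * d + w * D := by ring
      _ = w * D * (b * c + 1) + z * y' * d := by rw [← h5]; ring
      _ = w * D * (a * d) + z * y' * d := by rw [show b * c + 1 = a * d by linarith]
      _ = d * (w * (D * a) + y' * z) := by ring
      _ = d := by rw [hwy, mul_one]

namespace Dec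
variable {t : ℕ} {γ : SL(2, ℤ)} (dec : Dec t γ)

lemma A_pos (ht : 0 < t) : 0 < dec.A := by
  rcases Nat.eq_zero_or_pos dec.A with h | h
  · have := dec.hAD; rw [h, zero_mul] at this; omega
  · exact h

lemma D_pos (ht : 0 < t) : 0 < dec.D := by
  rcases Nat.eq_zero_or_pos dec.D with h | h
  · have := dec.hAD; rw [h, mul_zero] at this; omega
  · exact h

/-- the affine map of a decomposition -/
def map (ht : 0 < t) (τ : ℍ) : ℍ := aff dec.A dec.B dec.D (dec.A_pos ht) (dec.D_pos ht) τ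

lemma cd_map (ht : 0 < t) (τ : ℍ) : cd dec.δ (dec.map ht τ) * dec.D = cd γ τ := by
  have hD : (dec.D : ℂ) ≠ 0 := by exact_mod_cast (dec.D_pos ht).ne'
  rw [cd, cd, map, coe_aff, ← dec.e10, ← dec.e11]
  push_cast
  field_simp
  ring

lemma scl_smul (ht : 0 < t) (τ : ℍ) : scl t ht (γ • τ) = dec.δ • dec.map ht τ := by
  ext1
  have hD : (dec.D : ℂ) ≠ 0 := by exact_mod_cast (dec.D_pos ht).ne'
  have h1 := dec.cd_map ht τ
  have h2 := cd_ne_zero γ τ
  have h3 := cd_ne_zero dec.δ (dec.map ht τ)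
  rw [coe_scl, coe_specialLinearGroup_apply, coe_specialLinearGroup_apply]
  have e1 : ∀ (g : SL(2, ℤ)) (z : ℍ), ((algebraMap ℤ ℝ (g 1 0) : ℂ) * z + (algebraMap ℤ ℝ (g 1 1) : ℂ)) = cd g z := by
    intro g z
    rw [cd]; simp
  rw [e1, e1, ← h1]
  have e2 : (((algebraMap ℤ ℝ (dec.δ 0 0) : ℂ) * (dec.map ht τ) + (algebraMap ℤ ℝ (dec.δ 0 1) : ℂ))) * dec.D
      = t * (((algebraMap ℤ ℝ (γ 0 0) : ℂ) * τ + (algebraMap ℤ ℝ (γ 0 1) : ℂ))) := by
    have h00 : ((dec.δ 0 0 : ℤ) : ℂ) * dec.A = t * ((γ 0 0 : ℤ) : ℂ) := by exact_mod_cast dec.e00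
    have h01 : ((dec.δ 0 0 : ℤ) : ℂ) * dec.B + ((dec.δ 0 1 : ℤ) : ℂ) * dec.D = t * ((γ 0 1 : ℤ) : ℂ) := by
      exact_mod_cast dec.e01
    simp only [algebraMap_int_eq, eq_intCast, Complex.ofReal_intCast]
    rw [map, coe_aff]
    have : (((dec.δ 0 0 : ℤ) : ℂ) * (((dec.A : ℂ) * τ + dec.B) / dec.D) + ((dec.δ 0 1 : ℤ) : ℂ)) * dec.D
      = ((dec.δ 0 0 : ℤ) : ℂ) * dec.A * τ + (((dec.δ 0 0 : ℤ) : ℂ) * dec.B + ((dec.δ 0 1 : ℤ) : ℂ) * dec.D) := by
      field_simp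
      ring
    rw [this, h00, h01]; ring
  have h4 : (dec.D : ℂ) * cd dec.δ (dec.map ht τ) ≠ 0 := mul_ne_zero hD h3
  rw [← mul_div_assoc, ← e2]
  field_simp

lemma disc_scl (ht : 0 < t) (τ : ℍ) :
    Δ (scl t ht (γ • τ)) = cd γ τ ^ 12 * (((dec.D : ℂ)⁻¹) ^ 12 * Δ (dec.map ht τ)) := by
  have hD : (dec.D : ℂ) ≠ 0 := by exact_mod_cast (dec.D_pos ht).ne'
  rw [dec.scl_smul, disc_smul, ← dec.cd_map ht τ]
  field_simp

lemma jfun_scl (ht : 0 < t) (τ : ℍ) : jfun (scl t ht (γ • τ)) = jfun (dec.map ht τ) := by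
  rw [dec.scl_smul, jfun_smul]

lemma map_eq_of_dvd (ht : 0 < t) (h : (t : ℤ) ∣ γ 1 0) (τ : ℍ) :
    dec.map ht τ = ModularGroup.T ^ dec.B • scl t ht τ := by
  have h1 : dec.A = t := by
    rw [dec.hA]
    exact Nat.gcd_eq_left (Int.natCast_dvd.mp h)
  have h2 : dec.D = 1 := by
    have := dec.hAD
    rw [h1] at this
    exact Nat.eq_of_mul_eq_mul_left ht (by rw [this, mul_one])
  ext1
  rw [modular_T_zpow_smul, coe_vadd, map, coe_aff, coe_scl, h1, h2]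
  push_cast; ring

end Dec

lemma cd_T_zpow (n : ℤ) (τ : ℍ) : cd (ModularGroup.T ^ n) τ = 1 := by
  rw [cd, ModularGroup.coe_T_zpow]; simp

lemma disc_T_zpow (n : ℤ) (τ : ℍ) : Δ (ModularGroup.T ^ n • τ) = Δ τ := by
  rw [disc_smul, cd_T_zpow]; simp

lemma disc_scl_of_dvd {t : ℕ} (ht : 0 < t) {γ : SL(2, ℤ)} (h : (t : ℤ) ∣ γ 1 0) (τ : ℍ) :
    Δ (scl t ht (γ • τ)) = cd γ τ ^ 12 * Δ (scl t ht τ) := by
  obtain ⟨dec⟩ := Dec.exists t ht γ
  have h1 : dec.A = t := by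
    rw [dec.hA]
    exact Nat.gcd_eq_left (Int.natCast_dvd.mp h)
  have h2 : dec.D = 1 := by
    have := dec.hAD
    rw [h1] at this
    exact Nat.eq_of_mul_eq_mul_left ht (by rw [this, mul_one])
  rw [dec.disc_scl, h2, dec.map_eq_of_dvd ht h, disc_T_zpow]
  simp

lemma jfun_scl_of_dvd {t : ℕ} (ht : 0 < t) {γ : SL(2, ℤ)} (h : (t : ℤ) ∣ γ 1 0) (τ : ℍ) :
    jfun (scl t ht (γ • τ)) = jfun (scl t ht τ) := by
  obtain ⟨dec⟩ := Dec.exists t ht γ
  rw [dec.jfun_scl, dec.map_eq_of_dvd ht h, jfun_smul]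

end Fermat.Agent.Igusa
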