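import Fermat.Agent.Igusa.KeyK
import Fermat.Prelude.Def_GaloisRep_Flat
set_option autoImplicit false
set_option linter.unusedSectionVars false

noncomputable section
open UpperHalfPlane Function Filter ModularCurve Polynomial
open scoped Topology Manifold MatrixGroups ModularForm

namespace Fermat.Agent.Igusa

section val
variable (ℓ : ℕ) [Fact ℓ.Prime]

lemma exists_valSubring : ∃ O : ValuationSubring ℂ, (ℓ : O) ∈ IsLocalRing.maximalIdeal O := by
  set A : Subring ℂ := (Int.castRingHom ℂ).range with hA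
  set I : Ideal A := Ideal.span {(ℓ : A)} with hI
  have hne : I ≠ ⊤ := by
    intro h
    rw [Ideal.eq_top_iff_one, hI, Ideal.mem_span_singleton'] at h
    obtain ⟨⟨a, n, rfl⟩, ha⟩ := h
    have h1 := congrArg Subtype.val ha
    simp only [Subring.coe_mul, Subring.coe_one, Subring.coe_natCast, eq_intCast] at h1
    have h2 : n * (ℓ : ℤ) = 1 := by exact_mod_cast h1
    have h3 : (ℓ : ℤ) ∣ 1 := ⟨n, by rw [← h2]; ring⟩
    have h4 : ℓ ∣ 1 := by exact_mod_cast h3
    exact (Fact.out : ℓ.Prime).one_lt.ne' (Nat.dvd_one.mp h4)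
  obtain ⟨O, -, hO⟩ := I.image_subset_nonunits_valuationSubring hne
  refine ⟨O, ?_⟩
  rw [← ValuationSubring.coe_mem_nonunits_iff]
  apply hO
  exact ⟨(ℓ : A), Ideal.mem_span_singleton_self _, by simp⟩

variable {ℓ} {O : ValuationSubring ℂ} (hO : (ℓ : O) ∈ IsLocalRing.maximalIdeal O)

include hO in
lemma isUnit_of_coprime {n : ℤ} (hn : IsCoprime n (ℓ : ℤ)) : IsUnit (n : O) := by
  obtain ⟨a, b, hab⟩ := hn
  have h1 : (a : O) * n + b * ℓ = 1 := by exact_mod_cast congrArg (Int.cast : ℤ → O) hab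
  have h2 : (b : O) * ℓ ∈ IsLocalRing.maximalIdeal O := Ideal.mul_mem_left _ _ hO
  have h3 : IsUnit ((a : O) * n) := by
    by_contra h
    have h4 : (a : O) * n ∈ IsLocalRing.maximalIdeal O := (IsLocalRing.mem_maximalIdeal _).mpr h
    have h5 := Ideal.add_mem _ h4 h2
    rw [h1] at h5
    exact (Ideal.ne_top_iff_one _).mp (IsLocalRing.maximalIdeal.isMaximal O).ne_top h5
  exact isUnit_of_mul_isUnit_right h3

lemma mem_of_pow_eq_one {z : ℂ} {n : ℕ} (hn : n ≠ 0) (hz : z ^ n = 1) : z ∈ O := by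
  rcases O.mem_or_inv_mem z with h | h
  · exact h
  · have hz0 : z ≠ 0 := by
      rintro rfl
      rw [zero_pow hn] at hz
      exact zero_ne_one hz
    have : z = z⁻¹ ^ (n - 1) := by
      rw [inv_pow]
      apply eq_inv_of_mul_eq_one_left
      rw [← pow_succ', Nat.sub_add_cancel (Nat.one_le_iff_ne_zero.mpr hn), hz]
    rw [this]
    exact pow_mem h _

include hO in
lemma goodRing_O {N : ℕ} [NeZero N] (hN : ¬ ℓ ∣ N) : GoodRing N O where
  root z hz := by
    have h1 : z ∈ O := mem_of_pow_eq_one (NeZero.ne N) hz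
    have hz0 : z ≠ 0 := by
      rintro rfl
      rw [zero_pow (NeZero.ne N)] at hz
      exact zero_ne_one hz
    have h2 : z⁻¹ ∈ O := mem_of_pow_eq_one (NeZero.ne N) (by rw [inv_pow, hz, inv_one])
    exact ⟨⟨⟨z, h1⟩, ⟨z⁻¹, h2⟩, Subtype.ext (mul_inv_cancel₀ hz0), Subtype.ext (inv_mul_cancel₀ hz0)⟩, rfl⟩
  unit := by
    have h1 : IsCoprime (N : ℤ) (ℓ : ℤ) := by
      rw [Nat.isCoprime_iff_coprime]
      exact ((Nat.Prime.coprime_iff_not_dvd (Fact.out : ℓ.Prime)).mpr hN).symm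
    exact_mod_cast isUnit_of_coprime hO h1

include hO in
lemma mem_ratLoc {q : ℚ} (hq : (q : ℂ) ∈ O) : q ∈ GaloisRep.ratLocalizedAt ℓ := by
  show q.den.Coprime ℓ
  rw [Nat.coprime_comm, Nat.Prime.coprime_iff_not_dvd (Fact.out : ℓ.Prime)]
  intro hd
  obtain ⟨d, hd⟩ := hd
  have h1 : IsCoprime q.num (ℓ : ℤ) := by
    have h2 : IsCoprime q.num (q.den : ℤ) := by
      rw [Int.isCoprime_iff_gcd_eq_one]
      exact q.reduced
    exact h2.of_isCoprime_of_dvd_right ⟨d, by rw [hd]; push_cast; ring⟩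
  have h3 := isUnit_of_coprime hO h1
  have h4 : (q.num : O) = ℓ * (d * ⟨(q : ℂ), hq⟩) := by
    apply Subtype.ext
    push_cast
    have h5 : (q : ℂ) * q.den = q.num := by
      exact_mod_cast congrArg (Rat.cast : ℚ → ℂ) (Rat.mul_den_eq_num q)
    rw [← h5, hd]
    push_cast
    ring
  rw [h4] at h3
  have h6 : IsUnit (ℓ : O) := isUnit_of_mul_isUnit_left h3
  exact (IsLocalRing.mem_maximalIdeal _).mp hO h6

end val

lemma exists_lam : ∃ lam : ℂ →ₗ[ℚ] ℚ, lam 1 = 1 := by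
  obtain ⟨g, hg⟩ := LinearMap.exists_leftInverse_of_injective (Algebra.linearMap ℚ ℂ)
    (LinearMap.ker_eq_bot.mpr (algebraMap ℚ ℂ).injective)
  refine ⟨g, ?_⟩
  have := LinearMap.congr_fun hg 1
  simpa using this

section descent
variable (N : ℕ) [NeZero N] (ℓ : ℕ) [Fact ℓ.Prime] (hN : ¬ ℓ ∣ N)

set_option quotPrecheck false in
local notation "Zl" => ↥(GaloisRep.ratLocalizedAt ℓ)

lemma degree_pos_card : 0 < Fintype.card (Cos N) := Fintype.card_pos_iff.mpr ⟨QuotientGroup.mk 1⟩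

lemma pmap_pmap_C_monic {P : ℂ[X][X]} (hP : P.Monic) {lam : ℂ →ₗ[ℚ] ℚ} (hlam : lam 1 = 1) :
    (pmap (pmap lam.toAddMonoidHom) P).Monic ∧
      (pmap (pmap lam.toAddMonoidHom) P).natDegree = P.natDegree := by
  have h1 : (pmap (pmap lam.toAddMonoidHom) P).coeff P.natDegree = 1 := by
    rw [pmap_coeff, hP.coeff_natDegree]
    ext i
    rw [pmap_coeff, Polynomial.coeff_one, Polynomial.coeff_one]
    split_ifs
    · exact hlam
    · exact map_zero _
  have h2 : (pmap (pmap lam.toAddMonoidHom) P).natDegree ≤ P.natDegree := by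
    rw [Polynomial.natDegree_le_iff_coeff_eq_zero]
    intro i hi
    rw [pmap_coeff, Polynomial.coeff_eq_zero_of_natDegree_lt hi, map_zero]
  have h3 := Polynomial.monic_of_natDegree_le_of_coeff_eq_one _ h2 h1
  refine ⟨h3, le_antisymm h2 (Polynomial.le_natDegree_of_ne_zero ?_)⟩
  rw [h1]
  exact one_ne_zero

include hN in
/-- the characteristic polynomial of the modular unit is defined over `ℤ_(ℓ)` -/
theorem exists_Q0 : ∃ Q : Zl[X][X], Q.Monic ∧ Q.degree = Fintype.card (Cos N) ∧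
    Q.eval₂ (jev Zl) (UserU Zl N) = 0 := by
  obtain ⟨O, hO⟩ := exists_valSubring ℓ
  have hR : GoodRing N O := goodRing_O hO hN
  have hinj : Injective (algebraMap O ℂ) := fun _ _ h => Subtype.ext h
  obtain ⟨lam, hlam⟩ := exists_lam
  set Q := Qpoly hR hinj with hQ
  have : Nontrivial (expRing N O) := by
    refine ⟨⟨0, 1, fun h => ?_⟩⟩
    have := congrArg (coeffMap (algebraMap O ℂ)) (congrArg serHom h)
    simp at this
  set QC : ℂ[X][X] := Q.map (Polynomial.mapRingHom (algebraMap O ℂ)) with hQC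
  have hmonC : QC.Monic := (Qpoly_monic hR hinj).map _
  have hdegC : QC.degree = Fintype.card (Cos N) := by
    rw [hQC, (Qpoly_monic hR hinj).degree_map, Qpoly_degree]
  have hevC : QC.eval₂ (jev ℂ) (UserU ℂ N) = 0 := by
    rw [← coeffMap_UserU N (algebraMap O ℂ), hQC, ← coeffMap_eval₂_jev, Qpoly_eval, map_zero]
  set QQ : ℚ[X][X] := pmap (pmap lam.toAddMonoidHom) QC with hQQ
  have hevQ : QQ.eval₂ (jev ℚ) (UserU ℚ N) = 0 := by
    rw [hQQ, ← lmapA_eval₂, coeffMap_UserU, hevC, map_zero]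
  obtain ⟨hmonQ, hdegQ⟩ := pmap_pmap_C_monic hmonC hlam
  rw [← hQQ] at hmonQ hdegQ
  have hdegQ' : QQ.degree = Fintype.card (Cos N) := by
    rw [Polynomial.degree_eq_natDegree hmonQ.ne_zero, hdegQ, ← Polynomial.degree_eq_natDegree hmonC.ne_zero,
      hdegC]
  have heq : QC = QQ.map (Polynomial.mapRingHom (algebraMap ℚ ℂ)) := by
    rw [← sub_eq_zero]
    apply keyC (N := N)
    · rw [← hdegC]
      apply Polynomial.degree_sub_lt_left
      · rw [hdegC, hmonQ.degree_map, hdegQ']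
      · exact hmonC.ne_zero
      · rw [hmonC.leadingCoeff, (hmonQ.map _).leadingCoeff]
    · rw [Polynomial.eval₂_sub, hevC, ← coeffMap_UserU N (algebraMap ℚ ℂ), ← coeffMap_eval₂_jev, hevQ,
        map_zero, sub_zero]
  have hmem : ∀ i j, (QQ.coeff i).coeff j ∈ GaloisRep.ratLocalizedAt ℓ := by
    intro i j
    apply mem_ratLoc hO
    have h1 := congrArg (fun p : ℂ[X][X] => (p.coeff i).coeff j) heq
    simp only [hQC, Polynomial.coeff_map, Polynomial.coe_mapRingHom] at h1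
    have h2 : (((QQ.coeff i).coeff j : ℚ) : ℂ) = algebraMap O ℂ ((Q.coeff i).coeff j) := h1.symm
    rw [h2]
    exact ((Q.coeff i).coeff j).2
  have hlift : QQ ∈ Polynomial.lifts (Polynomial.mapRingHom (algebraMap Zl ℚ)) := by
    rw [Polynomial.lifts_iff_coeff_lifts]
    intro i
    have h1 : QQ.coeff i ∈ Polynomial.lifts (algebraMap Zl ℚ) := by
      rw [Polynomial.lifts_iff_coeff_lifts]
      intro j
      exact ⟨⟨_, hmem i j⟩, rfl⟩
    obtain ⟨p, hp⟩ := h1
    exact ⟨p, hp⟩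
  obtain ⟨Q0, h1, h2, h3⟩ := Polynomial.lifts_and_degree_eq_and_monic hlift hmonQ
  refine ⟨Q0, h3, by rw [h2, hdegQ'], ?_⟩
  have hinj2 : Injective (coeffMap (algebraMap Zl ℚ)) :=
    coeffMap_injective _ (fun _ _ h => Subtype.ext h)
  apply hinj2
  rw [coeffMap_eval₂_jev, h1, coeffMap_UserU, hevQ, map_zero]

include hN in
/-- independence over `𝔽_ℓ` -/
theorem keyF {P : (ZMod ℓ)[X][X]} (hdeg : P.degree < Fintype.card (Cos N))
    (hP : P.eval₂ (jev (ZMod ℓ)) (UserU (ZMod ℓ) N) = 0) : P = 0 := by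
  obtain ⟨O, hO⟩ := exists_valSubring ℓ
  have hR : GoodRing N O := goodRing_O hO hN
  have hinj : Injective (algebraMap O ℂ) := fun _ _ h => Subtype.ext h
  let k := IsLocalRing.ResidueField O
  let ρ : O →+* k := IsLocalRing.residue O
  have hchar : CharP k ℓ := by
    have h1 : ((ℓ : ℕ) : k) = 0 := by
      have h2 : ρ (ℓ : O) = 0 := (IsLocalRing.residue_eq_zero_iff _).mpr hO
      rwa [map_natCast] at h2
    exact (CharP.charP_iff_prime_eq_zero (Fact.out : ℓ.Prime)).mpr h1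
  let ι : ZMod ℓ →+* k := ZMod.castHom dvd_rfl k
  have hι : Injective ι := ι.injective
  have h1 : P.map (Polynomial.mapRingHom ι) = 0 := by
    apply keyK hR hinj ρ
    · exact lt_of_le_of_lt Polynomial.degree_map_le hdeg
    · rw [← coeffMap_UserU N ι, ← coeffMap_eval₂_jev, hP, map_zero]
  rw [Polynomial.map_eq_zero_iff] at h1
  · exact h1
  · exact Polynomial.map_injective _ hι

/-- the functions `j(q^t)` lie in `ℚ(j, U)` -/
theorem lagrange {t : ℕ} [NeZero t] (htN : t ∣ N) : ∃ w z : ℚ[X][X],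
    w.eval₂ (jev ℚ) (UserU ℚ N) ≠ 0 ∧
    qExpand ℚ t jq * w.eval₂ (jev ℚ) (UserU ℚ N) = z.eval₂ (jev ℚ) (UserU ℚ N) := by
  classical
  have ht : 0 < t := Nat.pos_of_ne_zero (NeZero.ne t)
  have hR : GoodRing N ℂ := goodRing_complex
  have hinj : Injective (algebraMap ℂ ℂ) := fun _ _ h => h
  have hU := isMod_Ufun hR
  have hj := isMod_jscl hR ht htN
  have h1 := isMod_const (N := N) (1 : ℂ)
  obtain ⟨Gj, hGj, -, -⟩ := exists_lift hinj (PhiG hU hj) (PhiG_inv hU hj)
  obtain ⟨G1, hG1, -, -⟩ := exists_lift hinj (PhiG hU h1) (PhiG_inv hU h1)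
  set W := ∏ c' ∈ Finset.univ.erase (QuotientGroup.mk 1 : Cos N),
    (hU.conj (QuotientGroup.mk 1) - hU.conj c') with hW
  have hWne : serHom W ≠ 0 := by
    rw [hW, map_prod, Finset.prod_ne_zero_iff]
    intro c hc
    have h2 := conj_ne hR hinj (Finset.ne_of_mem_erase hc) (RingHom.id ℂ)
    rw [coeffMap_id, coeffMap_id] at h2
    rw [map_sub, sub_ne_zero]
    exact h2
  have hconst : serHom (h1.conj (QuotientGroup.mk 1)) = 1 := by
    have h2 := h1.conj_one hinj 1 (fun τ => by rw [map_one, map_one])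
    rw [h2, map_one, map_one]
  have hjone : serHom (hj.conj (QuotientGroup.mk 1)) = qExpand ℂ N (qExpand ℂ t (jqModC ℂ)) := by
    have h2 := hj.conj_one hinj (sclHom ℂ t ht (jel1 ℂ)) (fun τ => by rw [sclHom_fn]; rfl)
    rw [h2, sclHom_ser]
    rfl
  have hev : ∀ (G : ℂ[X][X]) {g : ℍ → ℂ} (hg : IsMod N ℂ g), G.map (polyHom N ℂ) = PhiG hU hg →
      qExpand ℂ N (G.eval₂ (jev ℂ) (UserU ℂ N)) = serHom (hg.conj (QuotientGroup.mk 1)) * serHom W := by
    intro G g hg hG
    have h2 := congrArg serHom (PhiG_eval hU hg (QuotientGroup.mk 1))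
    rw [← hG, Polynomial.eval_map, Polynomial.hom_eval₂, serHom_conj_one hR hinj, eval₂_qExpand,
      map_mul] at h2
    exact h2
  have e1 := hev G1 h1 hG1
  have ej := hev Gj hj hGj
  rw [hconst, one_mul] at e1
  rw [hjone, ← e1, ← map_mul] at ej
  have ej' := qExpand_injective N ej
  have hne : G1.eval₂ (jev ℂ) (UserU ℂ N) ≠ 0 := by
    intro h
    rw [h, map_zero] at e1
    exact hWne e1.symm
  obtain ⟨m, hm⟩ : ∃ m, (G1.eval₂ (jev ℂ) (UserU ℂ N)).coeff m ≠ 0 := by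
    by_contra hcon
    push Not at hcon
    exact hne (HahnSeries.ext (funext hcon))
  obtain ⟨lam, hlam⟩ := exists_lam
  set a := (G1.eval₂ (jev ℂ) (UserU ℂ N)).coeff m with ha
  set lam' : ℂ →ₗ[ℚ] ℚ := lam.comp (LinearMap.mulLeft ℚ a⁻¹) with hlam'
  refine ⟨pmap (pmap lam'.toAddMonoidHom) G1, pmap (pmap lam'.toAddMonoidHom) Gj, ?_, ?_⟩
  · rw [← lmapA_eval₂, coeffMap_UserU]
    intro h
    have h2 := congrArg (fun x => HahnSeries.coeff x m) h
    simp only [lmapA_coeff, ← ha] at h2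
    have h3 : lam' a = 0 := h2
    rw [hlam', LinearMap.comp_apply, LinearMap.mulLeft_apply, inv_mul_cancel₀ hm, hlam] at h3
    exact one_ne_zero h3
  · rw [← lmapA_eval₂, ← lmapA_eval₂, coeffMap_UserU, ej', ← lmapA_mul]
    congr 2
    rw [coeffMap_qExpand', ← jqModC_rat, coeffMap_jqModC]

end descent

end Fermat.Agent.Igusa
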