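import Fermat.Agent.Igusa.Subst
set_option autoImplicit false

noncomputable section
open UpperHalfPlane Function Filter ModularCurve
open scoped Topology Manifold

namespace Fermat.Agent.Igusa

local notation "𝕢" => Periodic.qParam

lemma PSConv.iteratedDeriv {h : ℕ} [NeZero h] {f : ℍ → ℂ} {p : PowerSeries ℂ}
    (hf : PSConv h f p) (n : ℕ) :
    iteratedDeriv n (psFun p) 0 = (n.factorial : ℂ) * p.coeff n := by
  have h1 := hf.hasFPowerSeriesOnBall.hasFPowerSeriesAt
  have h2 := h1.analyticAt.hasFPowerSeriesAt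
  have h3 := congr_arg (FormalMultilinearSeries.coeff · n) (h1.eq_formalMultilinearSeries h2)
  simp only [FormalMultilinearSeries.coeff_ofScalars] at h3
  rw [h3, mul_div_cancel₀]
  exact_mod_cast Nat.factorial_ne_zero n

lemma tendstoLocallyUniformlyOn_iteratedDeriv {ι : Type*} {φ : Filter ι} [φ.NeBot] {F : ι → ℂ → ℂ}
    {f : ℂ → ℂ} {U : Set ℂ} (hU : IsOpen U) (hf : TendstoLocallyUniformlyOn F f φ U)
    (hF : ∀ᶠ i in φ, DifferentiableOn ℂ (F i) U) (n : ℕ) :
    TendstoLocallyUniformlyOn (fun i => iteratedDeriv n (F i)) (iteratedDeriv n f) φ U ∧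
      ∀ᶠ i in φ, DifferentiableOn ℂ (iteratedDeriv n (F i)) U := by
  induction n with
  | zero => simpa [iteratedDeriv_zero] using ⟨hf, hF⟩
  | succ n ih =>
    simp only [iteratedDeriv_succ]
    refine ⟨ih.1.deriv ih.2 hU, ?_⟩
    filter_upwards [ih.2] with i hi
    exact hi.deriv hU

lemma psConv_of_differentiableOn {F : ℂ → ℂ} (hF : DifferentiableOn ℂ F (Metric.ball 0 1))
    (h : ℕ) [NeZero h] :
    PSConv h (fun τ => F (𝕢 h (τ : ℂ)))
      (PowerSeries.mk fun n => (n.factorial : ℂ)⁻¹ * iteratedDeriv n F 0) := fun τ => by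
  have := Complex.hasSum_taylorSeries_on_ball (c := 0) (r := 1) (f := F) (by simpa using hF)
    (z := 𝕢 h (τ : ℂ)) (by simpa using norm_q_lt_one τ)
  simp only [sub_zero, smul_eq_mul] at this
  refine this.congr_fun fun n => ?_
  rw [PowerSeries.coeff_mk]; ring

/-- the formal partial products -/
lemma psConv_prod (h : ℕ) [NeZero h] (s : Finset ℕ) :
    PSConv h (fun τ => ∏ i ∈ s, (1 - (𝕢 h (τ : ℂ)) ^ (i + 1)))
      (∏ i ∈ s, (1 - PowerSeries.X ^ (i + 1))) := by
  have := Subring.prod_mem (psRing h) (t := s)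
    (f := fun i => ((fun τ : ℍ => 1 - (𝕢 h (τ : ℂ)) ^ (i + 1)), (1 - PowerSeries.X ^ (i + 1) : PowerSeries ℂ)))
    (fun i _ => (psRing h).sub_mem (x := ((1 : ℍ → ℂ), (1 : PowerSeries ℂ)))
      (y := ((fun τ : ℍ => (𝕢 h (τ : ℂ)) ^ (i + 1)), (PowerSeries.X ^ (i + 1) : PowerSeries ℂ)))
      (Subring.one_mem _) (PSConv.qvar.pow (i + 1)))
  have h2 := mem_psRing.mp this
  rw [Prod.fst_prod, Prod.snd_prod] at h2
  convert h2 using 1
  ext τ; simp

lemma psFun_prod (s : Finset ℕ) {z : ℂ} (hz : ‖z‖ < 1) :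
    psFun (∏ i ∈ s, (1 - PowerSeries.X ^ (i + 1))) z = ∏ i ∈ s, (1 - z ^ (i + 1)) := by
  rcases eq_or_ne z 0 with rfl | hz0
  · rw [psFun_zero, map_prod]
    simp
  · obtain ⟨τ, rfl⟩ := exists_q_eq (h := 1) hz hz0
    exact ((psConv_prod 1 s).eq_psFun τ).symm

lemma iteratedDeriv_prod (s : Finset ℕ) (n : ℕ) :
    iteratedDeriv n (fun z : ℂ => ∏ i ∈ s, (1 - z ^ (i + 1))) 0 =
      (n.factorial : ℂ) * (∏ i ∈ s, (1 - PowerSeries.X ^ (i + 1)) : PowerSeries ℂ).coeff n := by
  rw [← (psConv_prod 1 s).iteratedDeriv n]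
  apply Filter.EventuallyEq.iteratedDeriv_eq
  filter_upwards [Metric.ball_mem_nhds (0 : ℂ) one_pos] with z hz
  exact (psFun_prod s (by simpa using hz)).symm

open scoped PowerSeries.WithPiTopology in
lemma eventually_coeff_etaProd (n : ℕ) :
    ∀ᶠ s : Finset ℕ in atTop, (∏ i ∈ s, (1 - PowerSeries.X ^ (i + 1)) : PowerSeries ℤ).coeff n =
      etaProd.coeff n := by
  have h1 : HasProd (fun n : ℕ => (1 - PowerSeries.X ^ (n + 1) : PowerSeries ℤ)) etaProd :=
    (PowerSeries.WithPiTopology.multipliable_one_sub_X_pow ℤ).hasProd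
  have h2 := (PowerSeries.WithPiTopology.continuous_coeff ℤ n).continuousAt.tendsto.comp h1
  exact (tendsto_nhds.mp h2) {etaProd.coeff n} (isOpen_discrete _) rfl

lemma etaProd_conv (h : ℕ) [NeZero h] :
    PSConv h (fun τ => ∏' n : ℕ, (1 - (𝕢 h (τ : ℂ)) ^ (n + 1)))
      (etaProd.map (Int.castRingHom ℂ)) := by
  have h0 := psConv_of_differentiableOn ModularForm.differentiableOn_tprod_one_sub_pow h
  convert h0 using 1
  ext n
  rw [PowerSeries.coeff_map, PowerSeries.coeff_mk]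
  have h1 := (tendstoLocallyUniformlyOn_iteratedDeriv Metric.isOpen_ball
    ModularForm.multipliableLocallyUniformlyOn_one_sub_pow.hasProdLocallyUniformlyOn
    (.of_forall fun s => by
      have : Differentiable ℂ (fun z : ℂ => ∏ i ∈ s, (1 - z ^ (i + 1))) := by
        fun_prop
      exact this.differentiableOn) n).1
  have h2 := h1.tendsto_at (a := 0) (by simp)
  have h3 : ∀ᶠ s : Finset ℕ in atTop,
      iteratedDeriv n (fun z : ℂ => ∏ i ∈ s, (1 - z ^ (i + 1))) 0 =
        (n.factorial : ℂ) * ((etaProd.coeff n : ℤ) : ℂ) := by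
    filter_upwards [eventually_coeff_etaProd n] with s hs
    rw [iteratedDeriv_prod, ← hs]
    congr 1
    have : (∏ i ∈ s, (1 - PowerSeries.X ^ (i + 1)) : PowerSeries ℂ) =
        PowerSeries.map (Int.castRingHom ℂ) (∏ i ∈ s, (1 - PowerSeries.X ^ (i + 1))) := by
      rw [map_prod]; simp
    rw [this, PowerSeries.coeff_map]; rfl
  have h5 := tendsto_nhds_unique (h2.congr' h3) tendsto_const_nhds
  rw [h5, ← mul_assoc, inv_mul_cancel₀ (by exact_mod_cast Nat.factorial_ne_zero n), one_mul]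
  rfl

end Fermat.Agent.Igusa
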