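import Mathlib
import Fermat.Prelude.Def_ModularCurve_LaurentCoeff
import Fermat.Prelude.Def_ModularCurve_X0
set_option autoImplicit false

/-!
# Expansions at infinity

Pairs `(f, p)` where `f : ℍ → ℂ` is given by a convergent power series (resp. Laurent series) in
`q_h = exp (2 π i τ / h)`.
-/

noncomputable section
open UpperHalfPlane Function Filter
open scoped Topology Manifold

namespace Fermat.Agent.Igusa

local notation "𝕢" => Periodic.qParam

/-- `f` is given by the convergent power series `p` in `q_h`. -/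
def PSConv (h : ℕ) (f : ℍ → ℂ) (p : PowerSeries ℂ) : Prop :=
  ∀ τ : ℍ, HasSum (fun n : ℕ => p.coeff n * (𝕢 h (τ : ℂ)) ^ n) (f τ)

variable {h : ℕ}

lemma norm_q_lt_one [NeZero h] (τ : ℍ) : ‖𝕢 h (τ : ℂ)‖ < 1 :=
  Periodic.norm_qParam_lt_one (by exact_mod_cast Nat.pos_of_ne_zero (NeZero.ne h)) τ.im_pos

lemma q_ne_zero (τ : ℍ) : 𝕢 h (τ : ℂ) ≠ 0 := Periodic.qParam_ne_zero _

namespace PSConv

lemma add {f g : ℍ → ℂ} {p r : PowerSeries ℂ} (hf : PSConv h f p) (hg : PSConv h g r) :
    PSConv h (f + g) (p + r) := fun τ => by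
  have := (hf τ).add (hg τ)
  simpa [add_mul] using this

lemma zero : PSConv h 0 0 := fun τ => by simp [hasSum_zero]

lemma neg {f : ℍ → ℂ} {p : PowerSeries ℂ} (hf : PSConv h f p) :
    PSConv h (-f) (-p) := fun τ => by
  have := (hf τ).neg
  simpa [neg_mul] using this

lemma mul {f g : ℍ → ℂ} {p r : PowerSeries ℂ} (hf : PSConv h f p) (hg : PSConv h g r) :
    PSConv h (f * g) (p * r) := fun τ => by
  have h1 := (hf τ).summable.norm
  have h2 := (hg τ).summable.norm
  have key := tsum_mul_tsum_eq_tsum_sum_antidiagonal_of_summable_norm h1 h2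
  have hs := (summable_norm_sum_mul_antidiagonal_of_summable_norm h1 h2).of_norm
  rw [(hf τ).tsum_eq, (hg τ).tsum_eq] at key
  have h3 := hs.hasSum
  rw [← key] at h3
  refine h3.congr_fun ?_ |> fun h4 => h4
  intro n
  rw [PowerSeries.coeff_mul, Finset.sum_mul]
  refine Finset.sum_congr rfl fun x hx => ?_
  rw [Finset.HasAntidiagonal.mem_antidiagonal] at hx
  rw [← hx, pow_add]; ring

lemma const (c : ℂ) : PSConv h (fun _ => c) (PowerSeries.C c) := fun τ => by
  have := hasSum_single (f := fun n : ℕ => (PowerSeries.C c).coeff n * (𝕢 h (τ : ℂ)) ^ n) 0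
    (fun n hn => by simp [PowerSeries.coeff_C, hn])
  simpa using this

lemma one : PSConv h 1 1 := by
  have := const (h := h) 1
  rwa [map_one] at this

lemma qvar : PSConv h (fun τ => 𝕢 h (τ : ℂ)) PowerSeries.X := fun τ => by
  have := hasSum_single (f := fun n : ℕ => (PowerSeries.X : PowerSeries ℂ).coeff n * (𝕢 h (τ : ℂ)) ^ n) 1
    (fun n hn => by simp [PowerSeries.coeff_X, hn])
  simpa using this

end PSConv

variable (h) in
/-- the ring of pairs `(f, p)` with `f = p(q_h)`. -/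
def psRing : Subring ((ℍ → ℂ) × PowerSeries ℂ) where
  carrier := {x | PSConv h x.1 x.2}
  mul_mem' ha hb := PSConv.mul ha hb
  one_mem' := PSConv.one
  add_mem' ha hb := PSConv.add ha hb
  zero_mem' := PSConv.zero
  neg_mem' ha := PSConv.neg ha

lemma mem_psRing {x : (ℍ → ℂ) × PowerSeries ℂ} : x ∈ psRing h ↔ PSConv h x.1 x.2 := Iff.rfl

lemma PSConv.pow {f : ℍ → ℂ} {p : PowerSeries ℂ} (hf : PSConv h f p) (n : ℕ) :
    PSConv h (f ^ n) (p ^ n) :=
  (psRing h).pow_mem (x := (f, p)) hf n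

section Analytic

variable [NeZero h]

lemma h_pos : (0 : ℝ) < (h : ℝ) := by exact_mod_cast Nat.pos_of_ne_zero (NeZero.ne h)

/-- every nonzero `z` in the unit disc is a value of `q_h` -/
lemma exists_q_eq {z : ℂ} (hz : ‖z‖ < 1) (hz0 : z ≠ 0) : ∃ τ : ℍ, 𝕢 h (τ : ℂ) = z :=
  ⟨⟨Periodic.invQParam h z, Periodic.im_invQParam_pos_of_norm_lt_one h_pos hz hz0⟩,
    Periodic.qParam_right_inv (h_pos (h := h)).ne' hz0⟩

lemma PSConv.summable {f : ℍ → ℂ} {p : PowerSeries ℂ} (hf : PSConv h f p) {z : ℂ} (hz : ‖z‖ < 1) :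
    Summable fun n : ℕ => p.coeff n * z ^ n := by
  rcases eq_or_ne z 0 with rfl | hz0
  · refine summable_of_ne_finset_zero (s := {0}) fun n hn => ?_
    simp at hn; simp [hn]
  · obtain ⟨τ, rfl⟩ := exists_q_eq (h := h) hz hz0
    exact (hf τ).summable

/-- the analytic function on the unit disc attached to a convergent power series -/
def psFun (p : PowerSeries ℂ) (z : ℂ) : ℂ := ∑' n : ℕ, p.coeff n * z ^ n

omit [NeZero h] in
lemma PSConv.eq_psFun {f : ℍ → ℂ} {p : PowerSeries ℂ} (hf : PSConv h f p) (τ : ℍ) :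
    f τ = psFun p (𝕢 h (τ : ℂ)) := (hf τ).tsum_eq.symm

omit [NeZero h] in
lemma psFun_zero (p : PowerSeries ℂ) : psFun p 0 = PowerSeries.constantCoeff p := by
  rw [psFun, tsum_eq_single 0 (fun n hn => by simp [hn])]
  simp

lemma PSConv.hasFPowerSeriesOnBall {f : ℍ → ℂ} {p : PowerSeries ℂ} (hf : PSConv h f p) :
    HasFPowerSeriesOnBall (psFun p) (.ofScalars ℂ fun n => p.coeff n) 0 1 := by
  constructor
  · refine le_of_forall_lt_imp_le_of_dense fun r hr ↦ ?_
    lift r to NNReal using hr.ne_top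
    apply FormalMultilinearSeries.le_radius_of_summable
    have h1 := (hf.summable (z := (r : ℂ)) (by simpa using hr)).norm
    simpa [mul_comm, mul_left_comm, mul_assoc] using h1
  · simp
  · intro y hy
    rw [← ENNReal.coe_one, Metric.eball_coe, NNReal.coe_one, mem_ball_zero_iff] at hy
    have := (hf.summable hy).hasSum
    simpa [mul_comm, psFun] using this

lemma PSConv.differentiableOn {f : ℍ → ℂ} {p : PowerSeries ℂ} (hf : PSConv h f p) :
    DifferentiableOn ℂ (psFun p) (Metric.ball 0 1) := by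
  have := hf.hasFPowerSeriesOnBall.differentiableOn
  rwa [← ENNReal.coe_one, Metric.eball_coe, NNReal.coe_one] at this

lemma PSConv.continuousAt_zero {f : ℍ → ℂ} {p : PowerSeries ℂ} (hf : PSConv h f p) :
    ContinuousAt (psFun p) 0 :=
  (hf.differentiableOn.differentiableAt (Metric.ball_mem_nhds _ one_pos)).continuousAt

/-- uniqueness of the power series -/
lemma PSConv.unique {f : ℍ → ℂ} {p p' : PowerSeries ℂ} (hf : PSConv h f p)
    (hf' : PSConv h f p') : p = p' := by
  have h0 : ∀ z : ℂ, z ≠ 0 → ‖z‖ < 1 → psFun p z = psFun p' z := by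
    intro z hz0 hz
    obtain ⟨τ, rfl⟩ := exists_q_eq (h := h) hz hz0
    rw [← hf.eq_psFun, ← hf'.eq_psFun]
  have h1 : psFun p =ᶠ[𝓝 0] psFun p' := by
    refine (hf.continuousAt_zero.eventuallyEq_nhds_iff_eventuallyEq_nhdsNE
      hf'.continuousAt_zero).mp ?_
    filter_upwards [self_mem_nhdsWithin, mem_nhdsWithin_of_mem_nhds
      (Metric.ball_mem_nhds (0 : ℂ) one_pos)] with z hz hz'
    exact h0 z hz (by simpa using hz')
  have h2 := (hf.hasFPowerSeriesOnBall.hasFPowerSeriesAt.congr h1).eq_formalMultilinearSeries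
    hf'.hasFPowerSeriesOnBall.hasFPowerSeriesAt
  ext n
  simpa using congr_arg (FormalMultilinearSeries.coeff · n) h2

omit [NeZero h] in
lemma PSConv.unique_fun {f f' : ℍ → ℂ} {p : PowerSeries ℂ} (hf : PSConv h f p)
    (hf' : PSConv h f' p) : f = f' := by
  ext τ; exact (hf τ).unique (hf' τ)

lemma PSConv.mdifferentiable {f : ℍ → ℂ} {p : PowerSeries ℂ} (hf : PSConv h f p) :
    MDifferentiable 𝓘(ℂ) 𝓘(ℂ) f := by
  rw [UpperHalfPlane.mdifferentiable_iff]
  have h1 : DifferentiableOn ℂ (fun z : ℂ => psFun p (𝕢 h z)) {z | 0 < z.im} := by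
    refine hf.differentiableOn.comp (t := Metric.ball 0 1) ?_ ?_
    · exact (Periodic.differentiable_qParam).differentiableOn
    · intro z hz
      simpa using norm_q_lt_one (h := h) ⟨z, hz⟩
  refine h1.congr fun z hz => ?_
  rw [Function.comp_apply, UpperHalfPlane.ofComplex_apply_of_im_pos hz, hf.eq_psFun]

lemma q_add_period (w : ℂ) : 𝕢 h (w + (h : ℝ)) = 𝕢 h w := by
  have hh : ((h : ℝ) : ℂ) ≠ 0 := by exact_mod_cast (h_pos (h := h)).ne'
  rw [Periodic.qParam, Periodic.qParam, mul_add, add_div, mul_div_assoc (2 * _ * _) ((h : ℝ) : ℂ),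
    div_self hh, mul_one, Complex.exp_add, Complex.exp_two_pi_mul_I, mul_one]

lemma PSConv.periodic {f : ℍ → ℂ} {p : PowerSeries ℂ} (hf : PSConv h f p) :
    Periodic (f ∘ ofComplex) (h : ℝ) := by
  intro w
  by_cases! hw : 0 < w.im
  · have : 0 < (w + (h : ℝ)).im := by simp [hw]
    simp only [comp_apply, ofComplex_apply_of_im_pos this, ofComplex_apply_of_im_pos hw]
    rw [hf.eq_psFun, hf.eq_psFun]
    congr 1
    exact q_add_period w
  · have : (w + (h : ℝ)).im ≤ 0 := by simpa using hw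
    rw [comp_apply, comp_apply, ofComplex_apply_of_im_nonpos this, ofComplex_apply_of_im_nonpos hw]

lemma PSConv.tendsto {f : ℍ → ℂ} {p : PowerSeries ℂ} (hf : PSConv h f p) :
    Tendsto f atImInfty (𝓝 (PowerSeries.constantCoeff p)) := by
  have h1 : f = fun τ : ℍ => psFun p (𝕢 h (τ : ℂ)) := funext hf.eq_psFun
  rw [h1, ← psFun_zero]
  exact hf.continuousAt_zero.tendsto.comp (qParam_tendsto_atImInfty h_pos)

lemma PSConv.bounded {f : ℍ → ℂ} {p : PowerSeries ℂ} (hf : PSConv h f p) :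
    IsBoundedAtImInfty f :=
  hf.tendsto.isBigO_one ℝ

/-- periodic, holomorphic functions bounded at infinity have a power series expansion -/
lemma PSConv.of_bounded {f : ℍ → ℂ} (hper : Periodic (f ∘ ofComplex) (h : ℝ))
    (hhol : MDifferentiable 𝓘(ℂ) 𝓘(ℂ) f) (hbdd : IsBoundedAtImInfty f) :
    PSConv h f (qExpansion h f) := fun τ => by
  simpa using hasSum_qExpansion h_pos hper hhol hbdd τ

/-- inverse of a nowhere vanishing function with nonvanishing constant coefficient -/
lemma PSConv.inv {f : ℍ → ℂ} {p : PowerSeries ℂ} (hf : PSConv h f p)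
    (hf0 : ∀ τ, f τ ≠ 0) (hp : PowerSeries.constantCoeff p ≠ 0) :
    PSConv h (fun τ => (f τ)⁻¹) p⁻¹ := by
  have hper : Periodic ((fun τ => (f τ)⁻¹) ∘ ofComplex) (h : ℝ) := fun w => by
    have := hf.periodic w
    simp only [comp_apply] at this ⊢
    rw [this]
  have hhol : MDifferentiable 𝓘(ℂ) 𝓘(ℂ) (fun τ => (f τ)⁻¹) := by
    rw [UpperHalfPlane.mdifferentiable_iff]
    have h1 := UpperHalfPlane.mdifferentiable_iff.mp hf.mdifferentiable
    exact h1.inv fun z hz => hf0 _
  have hbdd : IsBoundedAtImInfty (fun τ => (f τ)⁻¹) :=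
    (hf.tendsto.inv₀ hp).isBigO_one ℝ
  have h2 := PSConv.of_bounded hper hhol hbdd
  have h3 : PSConv h 1 (p * qExpansion h (fun τ => (f τ)⁻¹)) := by
    have := hf.mul h2
    have h4 : (f * fun τ => (f τ)⁻¹) = 1 := by
      ext τ; simp [hf0 τ]
    rwa [h4] at this
  have h5 := h3.unique PSConv.one
  have h6 : qExpansion h (fun τ => (f τ)⁻¹) = p⁻¹ := by
    rw [PowerSeries.eq_inv_iff_mul_eq_one hp, mul_comm, h5]
  rwa [h6] at h2

end Analytic

end Fermat.Agent.Igusa
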