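import Fermat.Agent.Igusa.CharPoly
set_option autoImplicit false
set_option linter.unusedSectionVars false

noncomputable section
open UpperHalfPlane Function Filter ModularCurve Polynomial
open scoped Topology Manifold MatrixGroups ModularForm

namespace Fermat.Agent.Igusa

section order
variable {k : Type*} [Field k]

lemma order_multiset_prod {m : ℤ} (s : Multiset (LaurentSeries k)) (hs : ∀ x ∈ s, x ≠ 0)
    (ho : ∀ x ∈ s, x.order = m) : s.prod.order = s.card * m := by
  induction s using Multiset.induction_on with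
  | empty => simp
  | cons a s ih =>
    have h1 : s.prod ≠ 0 := by
      rw [Ne, Multiset.prod_eq_zero_iff]
      intro h
      exact hs 0 (Multiset.mem_cons_of_mem h) rfl
    rw [Multiset.prod_cons, HahnSeries.order_mul (hs a (Multiset.mem_cons_self a s)) h1,
      ih (fun x hx => hs x (Multiset.mem_cons_of_mem hx)) (fun x hx => ho x (Multiset.mem_cons_of_mem hx)),
      ho a (Multiset.mem_cons_self a s), Multiset.card_cons]
    push_cast; ring

end order

section
variable {N : ℕ} [NeZero N] {R : Type*} [CommRing R] [Algebra R ℂ]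
variable (hR : GoodRing N R) (hinj : Function.Injective (algebraMap R ℂ))

/-- the characteristic polynomial of the modular unit in `R[T][X]` -/
def Qpoly : R[X][X] := (exists_lift hinj (PhiQ (isMod_Ufun hR)) (PhiQ_inv (isMod_Ufun hR))).choose

lemma Qpoly_map : (Qpoly hR hinj).map (polyHom N R) = PhiQ (isMod_Ufun hR) :=
  (exists_lift hinj (PhiQ (isMod_Ufun hR)) (PhiQ_inv (isMod_Ufun hR))).choose_spec.1

lemma Qpoly_monic : (Qpoly hR hinj).Monic :=
  (exists_lift hinj (PhiQ (isMod_Ufun hR)) (PhiQ_inv (isMod_Ufun hR))).choose_spec.2.2 (PhiQ_monic _)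

lemma Qpoly_degree [Nontrivial (expRing N R)] : (Qpoly hR hinj).degree = Fintype.card (Cos N) :=
  (exists_lift hinj (PhiQ (isMod_Ufun hR)) (PhiQ_inv (isMod_Ufun hR))).choose_spec.2.1.trans
    (PhiQ_degree _)

lemma isUnit_Qpoly_coeff_zero : IsUnit ((Qpoly hR hinj).coeff 0) := by
  have h1 : polyHom N R ((Qpoly hR hinj).coeff 0) = ∏ c : Cos N, (-((isMod_Ufun hR).conj c)) := by
    rw [← PhiQ_coeff_zero, ← Qpoly_map hR hinj, Polynomial.coeff_map]
  have h2 : IsUnit (∏ c : Cos N, (-((isMod_Ufun hR).conj c))) := by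
    rw [IsUnit.prod_univ_iff]
    exact fun c => (isUnit_conj hR hinj c).neg
  obtain ⟨w, hw⟩ := h2
  have hev : ∀ τ : ℍ, evAt τ (w : expRing N R) * evAt τ ((w⁻¹ : (expRing N R)ˣ) : expRing N R) = 1 := by
    intro τ; rw [← map_mul, Units.mul_inv, map_one]
  have h3 : ∀ (γ : SL(2, ℤ)) (τ : ℍ), evAt (γ • τ) (w : expRing N R) = evAt τ (w : expRing N R) := by
    intro γ τ
    have h4 := congrArg (fun p => Polynomial.coeff p 0) (PhiQ_inv (isMod_Ufun hR) γ τ)
    simp only [Polynomial.coeff_map] at h4
    rwa [PhiQ_coeff_zero, ← hw] at h4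
  obtain ⟨P, hP⟩ := levelOne hinj ((w⁻¹ : (expRing N R)ˣ) : expRing N R) (by
    intro γ τ
    have h5 := hev (γ • τ)
    have h6 := hev τ
    rw [h3 γ τ] at h5
    have h7 : evAt τ (w : expRing N R) ≠ 0 := left_ne_zero_of_mul_eq_one h6
    exact mul_left_cancel₀ h7 (h5.trans h6.symm))
  refine IsUnit.of_mul_eq_one P ?_
  apply polyHom_injective R N
  rw [map_mul, h1, ← hw, map_one]
  have : polyHom N R P = ((w⁻¹ : (expRing N R)ˣ) : expRing N R) := hP
  rw [this, Units.mul_inv]

variable {k : Type} [Field k] (ρ : R →+* k)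

/-- reductions of the conjugates -/
def ubar (c : Cos N) : LaurentSeries k := coeffMap ρ (serHom ((isMod_Ufun hR).conj c))

include hinj in
lemma ubar_ne_zero (c : Cos N) : ubar hR ρ c ≠ 0 := by
  have := ((isUnit_conj hR hinj c).map (serHom (h := N) (R := R))).map (coeffMap ρ)
  exact this.ne_zero

lemma Qpoly_map_map :
    ((Qpoly hR hinj).map (Polynomial.mapRingHom ρ)).map ((qExpand k N).comp (jev k)) =
      ∏ c : Cos N, (X - C (ubar hR ρ c)) := by
  have h1 : ((qExpand k N).comp (jev k)).comp (Polynomial.mapRingHom ρ) =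
      ((coeffMap ρ).comp serHom).comp (polyHom N R) := by
    refine RingHom.ext fun p => ?_
    simp only [RingHom.comp_apply]
    rw [serHom_polyHom, coeffMap_qExpand', coeffMap_jev]
    rfl
  rw [Polynomial.map_map, h1, ← Polynomial.map_map, Qpoly_map, PhiQ, Polynomial.map_prod]
  refine Finset.prod_congr rfl fun c _ => ?_
  rw [Polynomial.map_sub, Polynomial.map_X, Polynomial.map_C]
  rfl

lemma natDegree_eq_zero_of {h : k[X][X]} (hmon : h.Monic) (hu : IsUnit (h.coeff 0))
    (hsp : (h.map ((qExpand k N).comp (jev k))).Splits)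
    (h0 : ∀ x ∈ (h.map ((qExpand k N).comp (jev k))).roots, x ≠ 0)
    (ho : ∀ x ∈ (h.map ((qExpand k N).comp (jev k))).roots, x.order = -(RN N * N)) : h.natDegree = 0 := by
  obtain ⟨a, ha, hau⟩ := Polynomial.isUnit_iff.mp hu
  have ha0 : a ≠ 0 := ha.ne_zero
  have h1 := hsp.coeff_zero_eq_prod_roots_of_monic (hmon.map _)
  rw [Polynomial.coeff_map, ← hau, RingHom.comp_apply, jev_C, qExpand_C] at h1
  have h2 := congrArg HahnSeries.order h1
  have h3 : (((-1 : LaurentSeries k)) ^ (h.map ((qExpand k N).comp (jev k))).natDegree).order = 0 := by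
    rcases neg_one_pow_eq_or (LaurentSeries k) (h.map ((qExpand k N).comp (jev k))).natDegree with h | h
    · rw [h, HahnSeries.order_one]
    · rw [h, HahnSeries.order_neg, HahnSeries.order_one]
  have h4 : (h.map ((qExpand k N).comp (jev k))).roots.prod ≠ 0 := by
    rw [Ne, Multiset.prod_eq_zero_iff]
    intro h
    exact h0 0 h rfl
  rw [HahnSeries.order_C, HahnSeries.order_mul (pow_ne_zero _ (neg_ne_zero.mpr one_ne_zero)) h4, h3,
    order_multiset_prod _ h0 ho, zero_add] at h2
  have h5 : 0 < RN N * N := mul_pos RN_pos (by exact_mod_cast Nat.pos_of_ne_zero (NeZero.ne N))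
  have h6 : ((h.map ((qExpand k N).comp (jev k))).roots.card : ℤ) = 0 := by
    rcases mul_eq_zero.mp h2.symm with h | h
    · exact h
    · linarith
  rw [← hmon.natDegree_map ((qExpand k N).comp (jev k)), hsp.natDegree_eq_card_roots]
  exact_mod_cast h6

/-- **Irreducibility** of the reduction of the characteristic polynomial. -/
theorem Qbar_irreducible : Irreducible ((Qpoly hR hinj).map (Polynomial.mapRingHom ρ)) := by
  classical
  set Qb := (Qpoly hR hinj).map (Polynomial.mapRingHom ρ) with hQb
  have hmon : Qb.Monic := (Qpoly_monic hR hinj).map _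
  set e : k[X] →+* LaurentSeries k := (qExpand k N).comp (jev k) with he
  have hmap : Qb.map e = ∏ c : Cos N, (X - C (ubar hR ρ c)) := Qpoly_map_map hR hinj ρ
  have hu : IsUnit (Qb.coeff 0) := by
    rw [hQb, Polynomial.coeff_map]
    exact (isUnit_Qpoly_coeff_zero hR hinj).map _
  rw [hmon.irreducible_iff_natDegree]
  constructor
  · intro h1
    have h2 : (Qb.map e).natDegree = Fintype.card (Cos N) := by
      rw [hmap, Polynomial.natDegree_prod_of_monic _ _ fun c _ => Polynomial.monic_X_sub_C _]
      simp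
    rw [h1, Polynomial.map_one, Polynomial.natDegree_one] at h2
    have h3 : 0 < Fintype.card (Cos N) := Fintype.card_pos_iff.mpr ⟨QuotientGroup.mk 1⟩
    omega
  · intro f g hf hg hfg
    have hprod : f.map e * g.map e = ∏ c : Cos N, (X - C (ubar hR ρ c)) := by
      rw [← Polynomial.map_mul, hfg, hmap]
    have hne : (∏ c : Cos N, (X - C (ubar hR ρ c)) : (LaurentSeries k)[X]) ≠ 0 :=
      (Polynomial.monic_prod_of_monic _ _ fun c _ => Polynomial.monic_X_sub_C _).ne_zero
    have hroots : (f.map e).roots + (g.map e).roots = Finset.univ.val.map (ubar hR ρ) := by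
      rw [← Polynomial.roots_mul (by rw [hprod]; exact hne), hprod]
      exact Polynomial.roots_multiset_prod_X_sub_C (Finset.univ.val.map (ubar hR ρ)) ▸ by
        rw [Multiset.map_map]; rfl
    have hsplits : (f.map e * g.map e).Splits := by
      rw [hprod]
      exact Polynomial.Splits.prod fun c _ => Polynomial.Splits.X_sub_C _
    have hsf : (f.map e).Splits := hsplits.of_dvd (by rw [hprod]; exact hne) (dvd_mul_right _ _)
    have hsg : (g.map e).Splits := hsplits.of_dvd (by rw [hprod]; exact hne) (dvd_mul_left _ _)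
    have hne0 : ∀ x ∈ (f.map e).roots + (g.map e).roots, x ≠ 0 := by
      intro x hx
      rw [hroots, Multiset.mem_map] at hx
      obtain ⟨c, -, rfl⟩ := hx
      exact ubar_ne_zero hR hinj ρ c
    have hcount : Multiset.countP (fun x : LaurentSeries k => ¬ x.order = -(RN N * N))
        ((f.map e).roots + (g.map e).roots) ≤ 1 := by
      rw [hroots, Multiset.countP_map]
      have h1 : (Finset.univ.filter fun c : Cos N => ¬ (ubar hR ρ c).order = -(RN N * N)) ⊆
          {QuotientGroup.mk 1} := by
        intro c hc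
        rw [Finset.mem_filter] at hc
        rw [Finset.mem_singleton]
        by_contra hc1
        exact hc.2 (order_conj_ne hR hinj hc1 ρ)
      exact (Finset.card_le_card h1)
    rw [Multiset.countP_add] at hcount
    have hfu : IsUnit (f.coeff 0) := by
      rw [← hfg, Polynomial.mul_coeff_zero] at hu
      exact isUnit_of_mul_isUnit_left hu
    have hgu : IsUnit (g.coeff 0) := by
      rw [← hfg, Polynomial.mul_coeff_zero] at hu
      exact isUnit_of_mul_isUnit_right hu
    have hor : Multiset.countP (fun x : LaurentSeries k => ¬ x.order = -(RN N * N)) (f.map e).roots = 0 ∨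
        Multiset.countP (fun x : LaurentSeries k => ¬ x.order = -(RN N * N)) (g.map e).roots = 0 := by
      omega
    rcases hor with h1 | h1
    · left
      rw [Multiset.countP_eq_zero] at h1
      push Not at h1
      exact natDegree_eq_zero_of hf hfu hsf (fun x hx => hne0 x (Multiset.mem_add.mpr (Or.inl hx))) h1
    · right
      rw [Multiset.countP_eq_zero] at h1
      push Not at h1
      exact natDegree_eq_zero_of hg hgu hsg (fun x hx => hne0 x (Multiset.mem_add.mpr (Or.inr hx))) h1

end

end Fermat.Agent.Igusa
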