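import Fermat.Agent.Igusa.Eta
import Fermat.Prelude.Def_ModularCurve_X0ModL
import Fermat.Prelude.Def_ModularCurve_ModularUnit
set_option autoImplicit false

noncomputable section
open UpperHalfPlane Function Filter ModularCurve
open scoped Topology Manifold MatrixGroups

namespace Fermat.Agent.Igusa

local notation "𝕢" => Periodic.qParam
local notation "Δ" => ModularForm.discriminant

lemma discriminant_conv :
    PSConv 1 Δ (PowerSeries.X * dedekindEtaUnit.map (Int.castRingHom ℂ)) := by
  have h1 := (PSConv.qvar (h := 1)).mul ((etaProd_conv 1).pow 24)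
  rw [dedekindEtaUnit, map_pow]
  convert h1 using 1
  ext τ
  have h2 : (𝕢 24 (τ : ℂ)) ^ 24 = 𝕢 1 (τ : ℂ) := by
    rw [Periodic.qParam, Periodic.qParam, ← Complex.exp_nat_mul]
    congr 1
    push_cast
    ring
  simp only [ModularForm.discriminant, ModularForm.eta, Pi.mul_apply, Pi.pow_apply, mul_pow, h2,
    ModularForm.eta_q, Nat.cast_one]

/-- the Laurent series of `Δ` with coefficients in `R` -/
def deltaC (R : Type*) [CommRing R] : LaurentSeries R :=
  HahnSeries.single (1 : ℤ) 1 * HahnSeries.ofPowerSeries ℤ R (dedekindEtaUnit.map (Int.castRingHom R))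

lemma coeffMap_ofPS {R S : Type*} [CommRing R] [CommRing S] (f : R →+* S) (p : PowerSeries ℤ) :
    coeffMap f (HahnSeries.ofPowerSeries ℤ R (p.map (Int.castRingHom R))) =
      HahnSeries.ofPowerSeries ℤ S (p.map (Int.castRingHom S)) := by
  rw [coeffMap_ofPowerSeries]
  congr 1
  ext n
  simp

lemma coeffMap_deltaC {R S : Type*} [CommRing R] [CommRing S] (f : R →+* S) :
    coeffMap f (deltaC R) = deltaC S := by
  rw [deltaC, map_mul, coeffMap_single, map_one, coeffMap_ofPS, deltaC]

lemma deltaC_rat : deltaC ℚ = deltaSeries := rfl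

lemma deltaC_eq (R : Type*) [CommRing R] : deltaC R =
    HahnSeries.ofPowerSeries ℤ R (PowerSeries.X * dedekindEtaUnit.map (Int.castRingHom R)) := by
  rw [map_mul, HahnSeries.ofPowerSeries_X, deltaC]

lemma hasExp_discriminant : HasExp 1 Δ (deltaC ℂ) := by
  rw [deltaC_eq]
  exact HasExp.of_psConv discriminant_conv

lemma bernoulli_four' : bernoulli 4 = -1 / 30 := by decide +kernel

/-- `E₄` as a function -/
def e4 : ℍ → ℂ := ⇑ModularForm.E₄

lemma E4_conv : PSConv 1 e4 (eisenstein4.map (Int.castRingHom ℂ)) := by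
  intro τ
  have : Fact (IsCusp .infty 𝒮ℒ) :=
    ⟨Subgroup.isCusp_of_mem_strictPeriods one_pos one_mem_strictPeriods_SL⟩
  have h1 := ModularForm.hasSum_qExpansion ModularForm.E₄ one_pos one_mem_strictPeriods_SL τ
  have h2 : (fun n : ℕ => (eisenstein4.map (Int.castRingHom ℂ)).coeff n * (𝕢 ((1 : ℕ) : ℝ) (τ : ℂ)) ^ n) =
      fun m => (qExpansion 1 ModularForm.E₄).coeff m * (𝕢 1 (τ : ℂ)) ^ m := by
    ext n
    rw [EisensteinSeries.E_qExpansion_coeff (by norm_num) ⟨2, rfl⟩, PowerSeries.coeff_map, eisenstein4,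
      PowerSeries.coeff_mk, Nat.cast_one, bernoulli_four']
    congr 1
    split_ifs with h
    · simp
    · norm_num [ArithmeticFunction.sigma_apply]
  rw [h2]
  exact h1

/-- the `j`-function -/
def jfun (τ : ℍ) : ℂ := e4 τ ^ 3 * (Δ τ)⁻¹

lemma jqModC_mul_deltaC (R : Type*) [CommRing R] :
    jqModC R * deltaC R = HahnSeries.ofPowerSeries ℤ R ((eisenstein4.map (Int.castRingHom R)) ^ 3) := by
  rw [jqModC, deltaC, mul_mul_mul_comm, HahnSeries.single_mul_single, mul_one, neg_add_cancel,
    ← map_mul, jNum, ← map_mul, mul_assoc, mul_comm dedekindEtaUnitInv, dedekindEtaUnit_mul_inv,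
    mul_one, map_pow]
  exact one_mul _

lemma deltaC_ne_zero (R : Type*) [CommRing R] [Nontrivial R] : deltaC R ≠ 0 := by
  intro h
  have h1 : (deltaC R).coeff 1 = 1 := by
    rw [deltaC, HahnSeries.coeff_single_mul, one_mul, sub_self,
      show (0 : ℤ) = ((0 : ℕ) : ℤ) from rfl, HahnSeries.ofPowerSeries_apply_coeff,
      PowerSeries.coeff_map, PowerSeries.coeff_zero_eq_constantCoeff, constantCoeff_dedekindEtaUnit]
    simp
  rw [h] at h1
  simp at h1

lemma hasExp_jfun : HasExp 1 jfun (jqModC ℂ) := by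
  have h1 := (HasExp.of_psConv (E4_conv.pow 3)).mul
    (hasExp_discriminant.inv ModularForm.discriminant_ne_zero)
  rw [← jqModC_mul_deltaC, mul_assoc, mul_inv_cancel₀ (deltaC_ne_zero ℂ), mul_one] at h1
  exact h1

end Fermat.Agent.Igusa
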