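import Fermat.Agent.Igusa.Irred
set_option autoImplicit false
set_option linter.unusedSectionVars false

noncomputable section
open UpperHalfPlane Function Filter ModularCurve Polynomial
open scoped Topology Manifold MatrixGroups ModularForm

namespace Fermat.Agent.Igusa

section abstractK

theorem eq_zero_of_eval₂_eq_zero {A E : Type*} [CommRing A] [IsDomain A] [IsIntegrallyClosed A]
    [Field E] {φ : A →+* E} (hφ : Injective φ) {Q : A[X]} (hQ : Q.Monic) (hirr : Irreducible Q)
    {u : E} (hu : Q.eval₂ φ u = 0) {P : A[X]} (hdeg : P.degree < Q.degree)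
    (hP : P.eval₂ φ u = 0) : P = 0 := by
  let K := FractionRing A
  let φ' : K →+* E := IsFractionRing.lift hφ
  let : Algebra K E := φ'.toAlgebra
  have h0 : (algebraMap K E).comp (algebraMap A K) = φ := by
    ext a
    exact IsFractionRing.lift_algebraMap hφ a
  have h1 : ∀ p : A[X], Polynomial.aeval u (p.map (algebraMap A K)) = p.eval₂ φ u := by
    intro p
    rw [Polynomial.aeval_def, Polynomial.eval₂_map, h0]
  have h2 : Irreducible (Q.map (algebraMap A K)) :=
    hQ.irreducible_iff_irreducible_map_fraction_map.mp hirr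
  have h3 := minpoly.eq_of_irreducible_of_monic h2 (by rw [h1, hu]) (hQ.map _)
  by_contra hne
  have h4 : P.map (algebraMap A K) ≠ 0 := by
    rw [Ne, Polynomial.map_eq_zero_iff (IsFractionRing.injective A K)]
    exact hne
  have h5 := minpoly.degree_le_of_ne_zero K u h4 (by rw [h1, hP])
  rw [← h3, hQ.degree_map, Polynomial.degree_map_eq_of_injective (IsFractionRing.injective A K)] at h5
  exact absurd hdeg (not_lt.mpr h5)

end abstractK

section
variable {R S : Type*} [CommRing R] [CommRing S] (f : R →+* S)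

lemma coeffMap_eval₂_jev (P : R[X][X]) (x : LaurentSeries R) :
    coeffMap f (P.eval₂ (jev R) x) = (P.map (Polynomial.mapRingHom f)).eval₂ (jev S) (coeffMap f x) := by
  rw [Polynomial.hom_eval₂, Polynomial.eval₂_map]
  congr 1
  refine RingHom.ext fun p => ?_
  exact coeffMap_jev f p

end

section
variable {N : ℕ} [NeZero N] {R : Type*} [CommRing R] [Algebra R ℂ]
variable (hR : GoodRing N R) (hinj : Function.Injective (algebraMap R ℂ))

include hinj in
lemma serHom_conj_one : serHom ((isMod_Ufun hR).conj (QuotientGroup.mk 1)) =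
    qExpand R N (UserU R N : LaurentSeries R) := by
  rw [(isMod_Ufun hR).conj_one hinj (UE N R) (evAt_UE N R), ← serU_UE N R]
  rfl

lemma Qpoly_eval : (Qpoly hR hinj).eval₂ (jev R) (UserU R N) = 0 := by
  have h1 := PhiQ_eval (isMod_Ufun hR) (QuotientGroup.mk 1)
  rw [← Qpoly_map hR hinj, Polynomial.eval_map] at h1
  have h2 := congrArg serHom h1
  rw [Polynomial.hom_eval₂, serHom_conj_one hR hinj, eval₂_qExpand, map_zero] at h2
  exact (map_eq_zero_iff _ (qExpand_injective N)).mp h2

variable {k : Type} [Field k] (ρ : R →+* k)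

include hR hinj ρ in
theorem keyK {P : k[X][X]} (hdeg : P.degree < Fintype.card (Cos N))
    (hP : P.eval₂ (jev k) (UserU k N) = 0) : P = 0 := by
  have : Nontrivial (expRing N R) := by
    refine ⟨⟨0, 1, fun h => ?_⟩⟩
    have := congrArg (coeffMap ρ) (congrArg serHom h)
    simp at this
  have hQ := (Qpoly_monic hR hinj).map (Polynomial.mapRingHom ρ)
  have hev : ((Qpoly hR hinj).map (Polynomial.mapRingHom ρ)).eval₂ (jev k) (UserU k N) = 0 := by
    rw [← coeffMap_UserU N ρ, ← coeffMap_eval₂_jev, Qpoly_eval, map_zero]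
  refine eq_zero_of_eval₂_eq_zero (jev_injective k) hQ (Qbar_irreducible hR hinj ρ) hev ?_ hP
  rw [(Qpoly_monic hR hinj).degree_map, Qpoly_degree]
  exact hdeg

end

section complex
variable {N : ℕ} [NeZero N]

lemma goodRing_complex : GoodRing N ℂ where
  root z hz := by
    have : z ≠ 0 := by
      rintro rfl
      rw [zero_pow (NeZero.ne N)] at hz
      exact zero_ne_one hz
    exact ⟨Units.mk0 z this, rfl⟩
  unit := by
    rw [isUnit_iff_ne_zero]
    exact_mod_cast NeZero.ne N

theorem keyC {P : ℂ[X][X]} (hdeg : P.degree < Fintype.card (Cos N))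
    (hP : P.eval₂ (jev ℂ) (UserU ℂ N) = 0) : P = 0 :=
  keyK (N := N) (R := ℂ) goodRing_complex (fun _ _ h => h) (RingHom.id ℂ) hdeg hP

end complex

section pmap
variable {A B : Type*} [Semiring A] [Semiring B]

/-- apply an additive map to all coefficients of a polynomial -/
def pmapFun (g : A →+ B) (p : A[X]) : B[X] := p.sum fun n a => monomial n (g a)

lemma pmapFun_coeff (g : A →+ B) (p : A[X]) (i : ℕ) : (pmapFun g p).coeff i = g (p.coeff i) := by
  rw [pmapFun, Polynomial.sum_def, Polynomial.finsetSum_coeff]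
  simp only [Polynomial.coeff_monomial]
  rw [Finset.sum_ite_eq' p.support i]
  split_ifs with h
  · rfl
  · rw [Polynomial.notMem_support_iff.mp h, map_zero]

/-- apply an additive map to all coefficients of a polynomial -/
def pmap (g : A →+ B) : A[X] →+ B[X] where
  toFun := pmapFun g
  map_zero' := by ext; simp [pmapFun_coeff]
  map_add' p q := by ext; simp [pmapFun_coeff]

@[simp] lemma pmap_coeff (g : A →+ B) (p : A[X]) (i : ℕ) : (pmap g p).coeff i = g (p.coeff i) :=
  pmapFun_coeff g p i

lemma pmap_monomial (g : A →+ B) (n : ℕ) (a : A) : pmap g (monomial n a) = monomial n (g a) := by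
  ext i
  rw [pmap_coeff, Polynomial.coeff_monomial, Polynomial.coeff_monomial]
  split_ifs <;> simp

/-- apply an additive map coefficientwise to a Laurent series -/
def lmap {A B : Type*} [AddMonoid A] [AddMonoid B] (g : A →+ B) (x : HahnSeries ℤ A) : HahnSeries ℤ B :=
  x.map g

@[simp] lemma lmap_coeff {A B : Type*} [AddMonoid A] [AddMonoid B] (g : A →+ B) (x : HahnSeries ℤ A) (i : ℤ) :
    (lmap g x).coeff i = g (x.coeff i) := rfl

end pmap

section functional

/-- coefficientwise application as an additive map -/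
def lmapA (g : ℂ →+ ℚ) : LaurentSeries ℂ →+ LaurentSeries ℚ where
  toFun := lmap g
  map_zero' := by ext; simp
  map_add' p q := by ext; simp

@[simp] lemma lmapA_coeff (g : ℂ →+ ℚ) (x : LaurentSeries ℂ) (i : ℤ) :
    (lmapA g x).coeff i = g (x.coeff i) := rfl

variable (lam : ℂ →ₗ[ℚ] ℚ)

lemma lmapA_mul (y : LaurentSeries ℚ) (x : LaurentSeries ℂ) :
    lmapA lam.toAddMonoidHom (coeffMap (algebraMap ℚ ℂ) y * x) = y * lmapA lam.toAddMonoidHom x := by
  ext n
  have hpwo : (y.support ∪ x.support).IsPWO := y.isPWO_support.union x.isPWO_support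
  rw [lmapA_coeff]
  rw [HahnSeries.coeff_mul_left' (s := y.support) y.isPWO_support (by
    intro m hm
    rw [HahnSeries.mem_support, coeffMap_coeff] at hm
    rw [HahnSeries.mem_support]
    intro h; exact hm (by rw [h, map_zero]))]
  rw [HahnSeries.coeff_mul_right' (s := x.support) x.isPWO_support (by
    intro m hm
    rw [HahnSeries.mem_support, lmapA_coeff] at hm
    rw [HahnSeries.mem_support]
    intro h; exact hm (by rw [h, map_zero]))]
  rw [map_sum]
  refine Finset.sum_congr rfl fun ij _ => ?_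
  rw [coeffMap_coeff, lmapA_coeff]
  show lam (algebraMap ℚ ℂ (y.coeff ij.1) * x.coeff ij.2) = y.coeff ij.1 * lam (x.coeff ij.2)
  rw [← Algebra.smul_def, map_smul, smul_eq_mul]

lemma lmapA_C (a : ℂ) : lmapA lam.toAddMonoidHom (HahnSeries.C a) = HahnSeries.C (lam a) := by
  ext n
  rw [lmapA_coeff, HahnSeries.C_apply, HahnSeries.C_apply, HahnSeries.coeff_single, HahnSeries.coeff_single]
  split_ifs
  · rfl
  · exact map_zero _

lemma lmapA_eval₂ (P : ℂ[X][X]) (x : LaurentSeries ℚ) :
    lmapA lam.toAddMonoidHom (P.eval₂ (jev ℂ) (coeffMap (algebraMap ℚ ℂ) x)) =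
      (pmap (pmap lam.toAddMonoidHom) P).eval₂ (jev ℚ) x := by
  have key : (lmapA lam.toAddMonoidHom).comp
      ((Polynomial.eval₂RingHom (jev ℂ) (coeffMap (algebraMap ℚ ℂ) x)) : ℂ[X][X] →+ LaurentSeries ℂ) =
      ((Polynomial.eval₂RingHom (jev ℚ) x) : ℚ[X][X] →+ LaurentSeries ℚ).comp
        (pmap (pmap lam.toAddMonoidHom)) := by
    apply Polynomial.addHom_ext'
    intro i
    apply Polynomial.addHom_ext
    intro j a
    simp only [AddMonoidHom.comp_apply, LinearMap.toAddMonoidHom_coe, AddMonoidHom.coe_coe,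
      Polynomial.coe_eval₂RingHom, Polynomial.eval₂_monomial, pmap_monomial, jev]
    rw [← coeffMap_jqModC (algebraMap ℚ ℂ), ← map_pow, ← map_pow, mul_assoc, mul_comm (HahnSeries.C a),
      ← map_mul, lmapA_mul, lmapA_C]
    ring
  exact DFunLike.congr_fun key P

end functional

end Fermat.Agent.Igusa
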