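import Fermat.Agent.Igusa.Exp
set_option autoImplicit false

noncomputable section
open UpperHalfPlane Function Filter ModularCurve
open scoped Topology Manifold

namespace Fermat.Agent.Igusa

local notation "𝕢" => Periodic.qParam

/-- `f` is given by the convergent Laurent series `φ` in `q_h`. -/
def HasExp (h : ℕ) (f : ℍ → ℂ) (φ : LaurentSeries ℂ) : Prop :=
  ∃ (m : ℕ) (p : PowerSeries ℂ),
    HahnSeries.single (m : ℤ) 1 * φ = HahnSeries.ofPowerSeries ℤ ℂ p ∧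
    PSConv h (fun τ => (𝕢 h (τ : ℂ)) ^ m * f τ) p

variable {h : ℕ}

lemma ofPowerSeries_X_pow' {R : Type*} [CommRing R] (n : ℕ) :
    HahnSeries.ofPowerSeries ℤ R (PowerSeries.X ^ n) = HahnSeries.single (n : ℤ) 1 := by
  simp [HahnSeries.ofPowerSeries_X_pow]

lemma PSConv.qpow_mul {f : ℍ → ℂ} {p : PowerSeries ℂ} (hf : PSConv h f p) (n : ℕ) :
    PSConv h (fun τ => (𝕢 h (τ : ℂ)) ^ n * f τ) (PowerSeries.X ^ n * p) :=
  (PSConv.qvar.pow n).mul hf

namespace HasExp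

lemma exists_ge {f : ℍ → ℂ} {φ : LaurentSeries ℂ} (hf : HasExp h f φ) :
    ∃ m₀ : ℕ, ∀ k : ℕ, ∃ p : PowerSeries ℂ,
      HahnSeries.single ((m₀ + k : ℕ) : ℤ) 1 * φ = HahnSeries.ofPowerSeries ℤ ℂ p ∧
      PSConv h (fun τ => (𝕢 h (τ : ℂ)) ^ (m₀ + k) * f τ) p := by
  obtain ⟨m, p, h1, h2⟩ := hf
  refine ⟨m, fun k => ⟨PowerSeries.X ^ k * p, ?_, ?_⟩⟩
  · rw [map_mul, ← h1, ofPowerSeries_X_pow', ← mul_assoc, HahnSeries.single_mul_single, mul_one,
      Nat.cast_add, add_comm]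
  · have := h2.qpow_mul k
    convert this using 2
    rw [pow_add]; ring

lemma add {f g : ℍ → ℂ} {φ ψ : LaurentSeries ℂ} (hf : HasExp h f φ) (hg : HasExp h g ψ) :
    HasExp h (f + g) (φ + ψ) := by
  obtain ⟨m, hm⟩ := hf.exists_ge
  obtain ⟨n, hn⟩ := hg.exists_ge
  obtain ⟨p, hp1, hp2⟩ := hm n
  obtain ⟨r, hr1, hr2⟩ := hn m
  rw [add_comm n m] at hr1 hr2
  refine ⟨m + n, p + r, ?_, ?_⟩
  · rw [mul_add, hp1, hr1, map_add]
  · convert hp2.add hr2 using 1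
    ext τ; simp [mul_add]

lemma mul {f g : ℍ → ℂ} {φ ψ : LaurentSeries ℂ} (hf : HasExp h f φ) (hg : HasExp h g ψ) :
    HasExp h (f * g) (φ * ψ) := by
  obtain ⟨m, p, hp1, hp2⟩ := hf
  obtain ⟨n, r, hr1, hr2⟩ := hg
  refine ⟨m + n, p * r, ?_, ?_⟩
  · rw [map_mul, ← hp1, ← hr1, Nat.cast_add,
      show (HahnSeries.single ((m : ℤ) + n) (1 : ℂ)) =
        HahnSeries.single (m : ℤ) 1 * HahnSeries.single (n : ℤ) 1 by
        rw [HahnSeries.single_mul_single, mul_one]]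
    ring
  · convert hp2.mul hr2 using 1
    ext τ; simp [pow_add]; ring

lemma neg {f : ℍ → ℂ} {φ : LaurentSeries ℂ} (hf : HasExp h f φ) : HasExp h (-f) (-φ) := by
  obtain ⟨m, p, hp1, hp2⟩ := hf
  refine ⟨m, -p, by rw [map_neg, ← hp1]; ring, ?_⟩
  convert hp2.neg using 1
  ext τ; simp

lemma of_psConv {f : ℍ → ℂ} {p : PowerSeries ℂ} (hf : PSConv h f p) :
    HasExp h f (HahnSeries.ofPowerSeries ℤ ℂ p) := by
  refine ⟨0, p, ?_, ?_⟩
  · rw [Nat.cast_zero, show (HahnSeries.single (0 : ℤ) (1 : ℂ)) = 1 from rfl, one_mul]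
  · simpa using hf

lemma one : HasExp h 1 1 := by
  have := of_psConv (h := h) PSConv.one
  rwa [map_one] at this

lemma zero : HasExp h 0 0 := by
  have := of_psConv (h := h) PSConv.zero
  rwa [map_zero] at this

lemma const (c : ℂ) : HasExp h (fun _ => c) (HahnSeries.C c) := by
  have := of_psConv (h := h) (PSConv.const c)
  rwa [HahnSeries.ofPowerSeries_C] at this

lemma single_ne_zero' (m : ℤ) : (HahnSeries.single m (1 : ℂ)) ≠ 0 := by
  simp

lemma unique [NeZero h] {f : ℍ → ℂ} {φ ψ : LaurentSeries ℂ} (hf : HasExp h f φ)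
    (hg : HasExp h f ψ) : φ = ψ := by
  obtain ⟨m, hm⟩ := hf.exists_ge
  obtain ⟨n, hn⟩ := hg.exists_ge
  obtain ⟨p, hp1, hp2⟩ := hm n
  obtain ⟨r, hr1, hr2⟩ := hn m
  rw [add_comm n m] at hr1 hr2
  have h1 := hp2.unique hr2
  rw [h1, ← hr1] at hp1
  exact mul_left_cancel₀ (single_ne_zero' _) hp1

lemma unique_fun {f g : ℍ → ℂ} {φ : LaurentSeries ℂ} (hf : HasExp h f φ)
    (hg : HasExp h g φ) : f = g := by
  obtain ⟨m, hm⟩ := hf.exists_ge
  obtain ⟨n, hn⟩ := hg.exists_ge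
  obtain ⟨p, hp1, hp2⟩ := hm n
  obtain ⟨r, hr1, hr2⟩ := hn m
  rw [add_comm n m] at hr1 hr2
  rw [hp1] at hr1
  have h1 : p = r := HahnSeries.ofPowerSeries_injective hr1
  subst h1
  have h2 := hp2.unique_fun hr2
  ext τ
  have h3 := congrFun h2 τ
  exact mul_left_cancel₀ (pow_ne_zero _ (q_ne_zero τ)) h3

lemma exists_ps [NeZero h] {f : ℍ → ℂ} {φ : LaurentSeries ℂ} (hf : HasExp h f φ) {m : ℤ}
    (hm : ∀ k : ℤ, k < -m → φ.coeff k = 0) :
    ∃ p : PowerSeries ℂ, (∀ n : ℕ, p.coeff n = φ.coeff ((n : ℤ) - m)) ∧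
      HahnSeries.single m 1 * φ = HahnSeries.ofPowerSeries ℤ ℂ p ∧
      PSConv h (fun τ => (𝕢 h (τ : ℂ)) ^ m * f τ) p := by
  obtain ⟨m₀, hn⟩ := hf.exists_ge
  obtain ⟨r, hr1, hr2⟩ := hn m.toNat
  obtain ⟨n, hn'⟩ : ∃ n : ℕ, ((m₀ + m.toNat : ℕ) : ℤ) = n + m :=
    ⟨(((m₀ + m.toNat : ℕ) : ℤ) - m).toNat, by omega⟩
  set p : PowerSeries ℂ := PowerSeries.mk fun n => φ.coeff ((n : ℤ) - m) with hp
  have h1 : HahnSeries.single m 1 * φ = HahnSeries.ofPowerSeries ℤ ℂ p := by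
    ext k
    rw [HahnSeries.coeff_single_mul, one_mul]
    rcases le_or_gt 0 k with hk | hk
    · lift k to ℕ using hk
      rw [HahnSeries.ofPowerSeries_apply_coeff, hp, PowerSeries.coeff_mk]
    · rw [ModularCurve.ofPowerSeries_coeff_of_neg _ hk]
      exact hm _ (by omega)
  refine ⟨p, fun n => by rw [hp, PowerSeries.coeff_mk], h1, ?_⟩
  -- r = X^n * p
  have h2 : r = PowerSeries.X ^ n * p := by
    apply HahnSeries.ofPowerSeries_injective (Γ := ℤ) (R := ℂ)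
    rw [← hr1, map_mul, ← h1, ofPowerSeries_X_pow', ← mul_assoc, HahnSeries.single_mul_single,
      mul_one, hn']
  intro τ
  have h3 := hr2 τ
  rw [h2] at h3
  -- use summability of p from summability of X^n p
  have h4 : ∀ z : ℂ, (fun k : ℕ => (PowerSeries.X ^ n * p).coeff (k + n) * z ^ (k + n)) =
      fun k : ℕ => z ^ n * (p.coeff k * z ^ k) := by
    intro z; ext k
    rw [PowerSeries.coeff_X_pow_mul, pow_add]; ring
  have h5 : HasSum (fun k : ℕ => (PowerSeries.X ^ n * p).coeff (k + n) * (𝕢 h (τ : ℂ)) ^ (k + n))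
      ((𝕢 h (τ : ℂ)) ^ (m₀ + m.toNat) * f τ) := by
    have := (hasSum_nat_add_iff' n).mpr h3
    rwa [Finset.sum_eq_zero, sub_zero] at this
    intro i hi
    rw [PowerSeries.coeff_X_pow_mul', if_neg (by simpa using hi), zero_mul]
  rw [h4] at h5
  have h6 := h5.mul_left (((𝕢 h (τ : ℂ)) ^ n)⁻¹)
  have h0 : (𝕢 h (τ : ℂ)) ≠ 0 := q_ne_zero τ
  have h7 : ((𝕢 h (τ : ℂ)) ^ n) ≠ 0 := pow_ne_zero _ h0
  have h8 : (fun i => ((𝕢 h (τ : ℂ)) ^ n)⁻¹ * ((𝕢 h (τ : ℂ)) ^ n * (p.coeff i * 𝕢 h (τ : ℂ) ^ i))) =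
      fun i => p.coeff i * 𝕢 h (τ : ℂ) ^ i := by
    ext i; rw [← mul_assoc, inv_mul_cancel₀ h7, one_mul]
  have h9 : ((𝕢 h (τ : ℂ)) ^ n)⁻¹ * ((𝕢 h (τ : ℂ)) ^ (m₀ + m.toNat) * f τ) =
      (𝕢 h (τ : ℂ)) ^ m * f τ := by
    rw [← zpow_natCast _ (m₀ + m.toNat), hn', zpow_add₀ h0, zpow_natCast, mul_assoc, ← mul_assoc,
      inv_mul_cancel₀ h7, one_mul]
  rw [h8, h9] at h6
  exact h6

lemma qzpow (k : ℤ) : HasExp h (fun τ => (𝕢 h (τ : ℂ)) ^ k) (HahnSeries.single k 1) := by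
  rcases le_or_gt 0 k with hk | hk
  · lift k to ℕ using hk
    have := of_psConv (h := h) (PSConv.qvar.pow k)
    rw [ofPowerSeries_X_pow'] at this
    simpa [Pi.pow_def] using this
  · obtain ⟨n, rfl⟩ : ∃ n : ℕ, k = -(n : ℤ) := ⟨(-k).toNat, by omega⟩
    refine ⟨n, 1, ?_, ?_⟩
    · rw [HahnSeries.single_mul_single, mul_one, add_neg_cancel]
      exact (map_one (HahnSeries.ofPowerSeries ℤ ℂ)).symm
    · convert PSConv.one (h := h) using 1
      ext τ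
      simp only [zpow_neg, zpow_natCast]
      rw [mul_inv_cancel₀ (pow_ne_zero _ (q_ne_zero τ))]; rfl

lemma inv [NeZero h] {f : ℍ → ℂ} {φ : LaurentSeries ℂ} (hf : HasExp h f φ)
    (hf0 : ∀ τ, f τ ≠ 0) : HasExp h (fun τ => (f τ)⁻¹) φ⁻¹ := by
  have hφ : φ ≠ 0 := by
    rintro rfl
    have := hf.unique_fun zero
    exact hf0 UpperHalfPlane.I (congrFun this _)
  obtain ⟨p, hp1, hp2, hp3⟩ := hf.exists_ps (m := -φ.order) (fun k hk =>
    HahnSeries.coeff_eq_zero_of_lt_order (by simpa using hk))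
  have h0 : PowerSeries.constantCoeff p ≠ 0 := by
    rw [← PowerSeries.coeff_zero_eq_constantCoeff_apply, hp1]
    simpa using HahnSeries.coeff_order_eq_zero.not.mpr hφ
  have h1 := hp3.inv (fun τ => mul_ne_zero (zpow_ne_zero _ (q_ne_zero τ)) (hf0 τ)) h0
  have h2 := (qzpow (h := h) (-φ.order)).mul (of_psConv h1)
  have h3 : ((fun τ : ℍ => (𝕢 h (τ : ℂ)) ^ (-φ.order)) *
      fun τ : ℍ => ((𝕢 h (τ : ℂ)) ^ (-φ.order) * f τ)⁻¹) = fun τ => (f τ)⁻¹ := by
    ext τ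
    rw [Pi.mul_apply, mul_inv, ← mul_assoc, mul_inv_cancel₀ (zpow_ne_zero _ (q_ne_zero τ)), one_mul]
  rw [h3] at h2
  have h4 := hf.mul h2
  have h5 : (f * fun τ => (f τ)⁻¹) = 1 := by
    ext τ; simp [hf0 τ]
  rw [h5] at h4
  have h6 := h4.unique one
  rwa [eq_inv_of_mul_eq_one_right h6] at h2

lemma mdifferentiable [NeZero h] {f : ℍ → ℂ} {φ : LaurentSeries ℂ} (hf : HasExp h f φ) :
    MDifferentiable 𝓘(ℂ) 𝓘(ℂ) f := by
  obtain ⟨m, p, -, hp⟩ := hf
  have h1 := UpperHalfPlane.mdifferentiable_iff.mp hp.mdifferentiable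
  rw [UpperHalfPlane.mdifferentiable_iff]
  have h2 : DifferentiableOn ℂ (fun z : ℂ => ((𝕢 h z) ^ m)⁻¹) {z | 0 < z.im} := by
    refine DifferentiableOn.inv ?_ ?_
    · exact ((Periodic.differentiable_qParam).pow m).differentiableOn
    · intro z hz; exact pow_ne_zero _ (Periodic.qParam_ne_zero _)
  refine (h2.mul h1).congr fun z hz => ?_
  simp only [Function.comp_apply, Pi.mul_apply]
  rw [UpperHalfPlane.ofComplex_apply_of_im_pos hz, ← mul_assoc]
  have : ((𝕢 h (z : ℂ)) ^ m) ≠ 0 := pow_ne_zero _ (Periodic.qParam_ne_zero _)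
  rw [inv_mul_cancel₀ this, one_mul]

end HasExp

/-- The ring of pairs `(f, φ)` where `φ` is a Laurent series with coefficients in `R ⊆ ℂ`
converging to `f`. -/
def expRing (h : ℕ) (R : Type*) [CommRing R] [Algebra R ℂ] :
    Subring ((ℍ → ℂ) × LaurentSeries R) where
  carrier := {x | HasExp h x.1 (coeffMap (algebraMap R ℂ) x.2)}
  mul_mem' {a b} ha hb := by
    have := HasExp.mul ha hb
    rw [← map_mul] at this; exact this
  one_mem' := by
    have := HasExp.one (h := h)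
    rw [← map_one (coeffMap (algebraMap R ℂ))] at this; exact this
  add_mem' {a b} ha hb := by
    have := HasExp.add ha hb
    rw [← map_add] at this; exact this
  zero_mem' := by
    have := HasExp.zero (h := h)
    rw [← map_zero (coeffMap (algebraMap R ℂ))] at this; exact this
  neg_mem' {a} ha := by
    have := HasExp.neg ha
    rw [← map_neg] at this; exact this

lemma mem_expRing {R : Type*} [CommRing R] [Algebra R ℂ] {x : (ℍ → ℂ) × LaurentSeries R} :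
    x ∈ expRing h R ↔ HasExp h x.1 (coeffMap (algebraMap R ℂ) x.2) := Iff.rfl

lemma coeffMap_injective {R S : Type*} [CommRing R] [CommRing S] (f : R →+* S)
    (hf : Function.Injective f) : Function.Injective (coeffMap f) := fun x y hxy => by
  ext k
  apply hf
  rw [← coeffMap_coeff, ← coeffMap_coeff, hxy]

end Fermat.Agent.Igusa
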