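import Fermat.Agent.Igusa.JFun
set_option autoImplicit false

noncomputable section
open UpperHalfPlane Function Filter ModularCurve
open scoped Topology Manifold MatrixGroups ModularForm

namespace Fermat.Agent.Igusa

local notation "𝕢" => Periodic.qParam
local notation "Δ" => ModularForm.discriminant

/-- the factor `c τ + d` -/
def cd (γ : SL(2, ℤ)) (τ : ℍ) : ℂ := ((γ 1 0 : ℤ) : ℂ) * (τ : ℂ) + ((γ 1 1 : ℤ) : ℂ)

lemma denom_eq_cd (γ : SL(2, ℤ)) (τ : ℍ) : denom γ τ = cd γ τ := by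
  simp [cd, denom]

lemma cd_ne_zero (γ : SL(2, ℤ)) (τ : ℍ) : cd γ τ ≠ 0 := by
  rw [← denom_eq_cd]; exact denom_ne_zero _ _

lemma disc_smul (γ : SL(2, ℤ)) (τ : ℍ) : Δ (γ • τ) = cd γ τ ^ 12 * Δ τ := by
  have := SlashInvariantForm.slash_action_eqn' (Γ := 𝒮ℒ) CuspForm.discriminant
    (γ := (γ : GL (Fin 2) ℝ)) ⟨γ, rfl⟩ τ
  simpa [cd] using this

lemma e4_smul (γ : SL(2, ℤ)) (τ : ℍ) : e4 (γ • τ) = cd γ τ ^ 4 * e4 τ := by
  have := SlashInvariantForm.slash_action_eqn' (Γ := 𝒮ℒ) ModularForm.E₄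
    (γ := (γ : GL (Fin 2) ℝ)) ⟨γ, rfl⟩ τ
  simpa [e4, cd] using this

lemma jfun_smul (γ : SL(2, ℤ)) (τ : ℍ) : jfun (γ • τ) = jfun τ := by
  have h0 := cd_ne_zero γ τ
  rw [jfun, jfun, e4_smul, disc_smul]
  field_simp

/-- a function on `ℍ` is `SL₂(ℤ)`-invariant -/
def SLInv (f : ℍ → ℂ) : Prop := ∀ (γ : SL(2, ℤ)) (τ : ℍ), f (γ • τ) = f τ

lemma SLInv.const_of_bounded {f : ℍ → ℂ} (hf : SLInv f) (hhol : MDifferentiable 𝓘(ℂ) 𝓘(ℂ) f)
    (hbdd : IsBoundedAtImInfty f) : ∃ c : ℂ, f = fun _ => c := by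
  have hslash : ∀ γ : SL(2, ℤ), f ∣[(0 : ℤ)] γ = f := by
    intro γ
    ext τ
    rw [ModularForm.SL_slash_apply, hf]
    simp
  let F : ModularForm 𝒮ℒ 0 :=
    { toFun := f
      slash_action_eq' := by
        rintro A ⟨A, rfl⟩
        exact hslash A
      holo' := hhol
      bdd_at_cusps' := by
        intro c hc
        rw [Subgroup.IsArithmetic.isCusp_iff_isCusp_SL2Z] at hc
        rw [OnePoint.isBoundedAt_iff_forall_SL2Z hc]
        intro γ _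
        rw [hslash]
        exact hbdd }
  obtain ⟨c, hc⟩ := ModularFormClass.levelOne_weight_zero_const F
  exact ⟨c, hc⟩

end Fermat.Agent.Igusa
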