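import Fermat.Agent.Igusa.LevelOne
set_option autoImplicit false
set_option linter.unusedSectionVars false

noncomputable section
open UpperHalfPlane Function Filter ModularCurve Polynomial
open scoped Topology Manifold MatrixGroups ModularForm

namespace Fermat.Agent.Igusa

local notation "𝕢" => Periodic.qParam

section
variable (h : ℕ) [NeZero h]

lemma q_one_eq (τ : ℍ) : 𝕢 ((1 : ℕ) : ℝ) (τ : ℂ) = 1 * (𝕢 h (τ : ℂ)) ^ h := by
  rw [Periodic.qParam, Periodic.qParam, ← Complex.exp_nat_mul, one_mul]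
  congr 1
  have : (h : ℂ) ≠ 0 := by exact_mod_cast NeZero.ne h
  push_cast
  field_simp

/-- a primitive `h`-th root of unity as a unit of `ℂ` -/
def zetaC : ℂˣ := Units.mk0 (Complex.exp (2 * Real.pi * Complex.I / h)) (Complex.exp_ne_zero _)

lemma zetaC_primitive : IsPrimitiveRoot (zetaC h) h := by
  have := Complex.isPrimitiveRoot_exp h (NeZero.ne h)
  exact IsPrimitiveRoot.coe_units_iff.mp this

lemma q_add_one (τ : ℍ) : 𝕢 (h : ℝ) (((ModularGroup.T • τ : ℍ)) : ℂ) = zetaC h * (𝕢 h (τ : ℂ)) ^ 1 := by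
  rw [UpperHalfPlane.modular_T_smul, pow_one, UpperHalfPlane.coe_vadd, Periodic.qParam, Periodic.qParam,
    zetaC, Units.val_mk0, ← Complex.exp_add]
  congr 1
  push_cast
  ring

variable {h}

lemma HasExp.coeff_of_not_dvd {f : ℍ → ℂ} {φ : LaurentSeries ℂ} (hf : HasExp h f φ)
    (hT : ∀ τ : ℍ, f (ModularGroup.T • τ) = f τ) {k : ℤ} (hk : ¬ (h : ℤ) ∣ k) : φ.coeff k = 0 := by
  have h1 := hf.subst (h₂ := h) (fun τ => ModularGroup.T • τ) (zetaC h) 1 (q_add_one h)
  have h2 : (f ∘ fun τ : ℍ => ModularGroup.T • τ) = f := by ext τ; exact hT τ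
  rw [h2] at h1
  have h3 := h1.unique hf
  have h4 := congrArg (fun x => HahnSeries.coeff x (((1 : ℕ) : ℤ) * k)) h3
  simp only [lsubst_coeff_mul] at h4
  rw [Nat.cast_one, one_mul] at h4
  by_contra h0
  have h5 : ((zetaC h ^ k : ℂˣ) : ℂ) = 1 := by
    exact mul_right_cancel₀ h0 (by rw [h4, one_mul])
  rw [Units.val_eq_one] at h5
  exact hk ((zetaC_primitive h).zpow_eq_one_iff_dvd k |>.mp h5)

end

section
variable (h : ℕ) [NeZero h] (R : Type*) [CommRing R] [Algebra R ℂ]

/-- constants in the expansion ring -/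
def cst : R →+* expRing h R where
  toFun r := ⟨(fun _ => algebraMap R ℂ r, HahnSeries.C r), by
    rw [mem_expRing]
    have := HasExp.const (h := h) (algebraMap R ℂ r)
    convert this using 1
    rw [HahnSeries.C_apply, coeffMap_single]; rfl⟩
  map_one' := by
    ext1; simp only [map_one]; rfl
  map_zero' := by
    ext1; simp only [map_zero]; rfl
  map_add' a b := by
    ext1; simp only [map_add]; rfl
  map_mul' a b := by
    ext1; simp only [map_mul]; rfl

/-- the `j`-invariant as an element of the expansion ring -/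
def jel : expRing h R := ⟨(jfun, qExpand R h (jqModC R)), by
  rw [mem_expRing]
  have h1 := hasExp_jfun.subst (h₂ := h) id 1 h (fun τ => by simpa using q_one_eq h τ)
  rw [Function.comp_id] at h1
  convert h1 using 1
  rw [coeffMap_qExpand', coeffMap_jqModC, lsubst_apply, twist_one]⟩

variable {h R}

@[simp] lemma cst_fst (r : R) : (cst h R r).1.1 = fun _ => algebraMap R ℂ r := rfl
@[simp] lemma cst_snd (r : R) : (cst h R r).1.2 = HahnSeries.C r := rfl
@[simp] lemma jel_fst : (jel h R).1.1 = jfun := rfl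
@[simp] lemma jel_snd : (jel h R).1.2 = qExpand R h (jqModC R) := rfl

/-- the function component -/
def fnHom : expRing h R →+* (ℍ → ℂ) := (RingHom.fst _ _).comp (expRing h R).subtype

/-- the series component -/
def serHom : expRing h R →+* LaurentSeries R := (RingHom.snd _ _).comp (expRing h R).subtype

lemma fnHom_apply (x : expRing h R) : fnHom x = x.1.1 := rfl
lemma serHom_apply (x : expRing h R) : serHom x = x.1.2 := rfl

lemma serHom_injective : Function.Injective (serHom : expRing h R → LaurentSeries R) := by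
  intro x y hxy
  rw [serHom_apply, serHom_apply] at hxy
  ext1
  refine Prod.ext ?_ hxy
  have hx : HasExp h _ _ := x.2
  have hy : HasExp h _ _ := y.2
  rw [← hxy] at hy
  exact hx.unique_fun hy

lemma fnHom_injective (hinj : Function.Injective (algebraMap R ℂ)) :
    Function.Injective (fnHom : expRing h R → (ℍ → ℂ)) := by
  intro x y hxy
  rw [fnHom_apply, fnHom_apply] at hxy
  ext1
  refine Prod.ext hxy ?_
  have hx : HasExp h _ _ := x.2
  have hy : HasExp h _ _ := y.2
  rw [← hxy] at hy
  exact coeffMap_injective _ hinj (hx.unique hy)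

lemma SLInv.sub {f g : ℍ → ℂ} (hf : SLInv f) (hg : SLInv g) : SLInv (f - g) := fun γ τ => by
  rw [Pi.sub_apply, Pi.sub_apply, hf γ τ, hg γ τ]
lemma SLInv.mul {f g : ℍ → ℂ} (hf : SLInv f) (hg : SLInv g) : SLInv (f * g) := fun γ τ => by
  rw [Pi.mul_apply, Pi.mul_apply, hf γ τ, hg γ τ]
lemma SLInv.const (c : ℂ) : SLInv (fun _ => c) := fun _ _ => rfl
lemma SLInv.jfun : SLInv jfun := jfun_smul
lemma SLInv.pow {f : ℍ → ℂ} (hf : SLInv f) (n : ℕ) : SLInv (f ^ n) := fun γ τ => by
  rw [Pi.pow_apply, Pi.pow_apply, hf γ τ]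

lemma levelOne_aux (hinj : Function.Injective (algebraMap R ℂ)) (m : ℕ) :
    ∀ x : expRing h R, SLInv (fnHom x) → (∀ k : ℤ, k < -((h : ℤ) * m) → (serHom x).coeff k = 0) →
    ∃ P : R[X], P.eval₂ (cst h R) (jel h R) = x := by
  have hhpos : (0 : ℤ) < h := by exact_mod_cast Nat.pos_of_ne_zero (NeZero.ne h)
  induction m with
  | zero =>
    intro x hx hk
    simp only [Nat.cast_zero, mul_zero, neg_zero] at hk
    have hxe : HasExp h _ _ := x.2
    obtain ⟨p, hp1, hp2, hp3⟩ := hxe.exists_ps (m := 0) (fun k hk' => by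
      rw [coeffMap_coeff, ← serHom_apply, hk k (by simpa using hk'), map_zero])
    have h1 : IsBoundedAtImInfty (fnHom x) := by
      have := hp3.bounded
      simp only [zpow_zero, one_mul] at this
      exact this
    have h2 : MDifferentiable 𝓘(ℂ) 𝓘(ℂ) (fnHom x) := hxe.mdifferentiable
    obtain ⟨c, hc⟩ := hx.const_of_bounded h2 h1
    have h3 : coeffMap (algebraMap R ℂ) (serHom x) = HahnSeries.C c := by
      have h4 := HasExp.const (h := h) c
      rw [← hc] at h4
      exact hxe.unique h4
    refine ⟨Polynomial.C ((serHom x).coeff 0), ?_⟩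
    rw [Polynomial.eval₂_C]
    apply serHom_injective
    rw [serHom_apply, cst_snd]
    apply coeffMap_injective _ hinj
    rw [h3, HahnSeries.C_apply, coeffMap_single, ← coeffMap_coeff, h3, HahnSeries.C_apply,
      HahnSeries.coeff_single_same]
  | succ m ih =>
    intro x hx hk
    have hxe : HasExp h (fnHom x) (coeffMap (algebraMap R ℂ) (serHom x)) := x.2
    have hdvd : ∀ k : ℤ, ¬ (h : ℤ) ∣ k → (serHom x).coeff k = 0 := fun k hk' => by
      have := hxe.coeff_of_not_dvd (fun τ => hx _ τ) hk'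
      rw [coeffMap_coeff] at this
      exact (injective_iff_map_eq_zero _).mp hinj _ this
    set c := (serHom x).coeff (-((h : ℤ) * (m + 1 : ℕ))) with hc
    set y : expRing h R := x - cst h R c * jel h R ^ (m + 1) with hy
    have hser : serHom y = serHom x - HahnSeries.C c * qExpand R h (jqModC R ^ (m + 1)) := by
      rw [hy, map_sub, map_mul, map_pow, map_pow]; rfl
    have hylt : ∀ k : ℤ, k < -((h : ℤ) * m) → (serHom y).coeff k = 0 := by
      intro k hk'
      rw [hser, HahnSeries.coeff_sub, HahnSeries.C_mul_eq_smul, HahnSeries.coeff_smul]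
      by_cases hd : (h : ℤ) ∣ k
      · obtain ⟨l, rfl⟩ := hd
        rw [qExpand_coeff_mul]
        have hl : l < -(m : ℤ) := by
          have : (h : ℤ) * l < h * (-(m : ℤ)) := by linarith
          exact lt_of_mul_lt_mul_left this hhpos.le
        rcases eq_or_lt_of_le (show l ≤ -((m + 1 : ℕ) : ℤ) by push_cast; omega) with h1 | h1
        · rw [h1, coeff_jqModC_pow_self, hc, smul_eq_mul, mul_one, mul_neg, sub_self]
        · rw [coeff_jqModC_pow_of_lt _ h1, smul_zero, sub_zero, hk]
          have : (h : ℤ) * l < h * (-((m + 1 : ℕ) : ℤ)) := mul_lt_mul_of_pos_left h1 hhpos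
          linarith
      · rw [hdvd k hd, qExpand_coeff_of_not_dvd _ _ hd, smul_zero, sub_zero]
    have hyinv : SLInv (fnHom y) := by
      rw [hy, map_sub, map_mul, map_pow]
      exact hx.sub ((SLInv.const _).mul (SLInv.jfun.pow _))
    obtain ⟨P, hP⟩ := ih y hyinv hylt
    refine ⟨P + Polynomial.C c * Polynomial.X ^ (m + 1), ?_⟩
    rw [Polynomial.eval₂_add, hP, Polynomial.eval₂_mul, Polynomial.eval₂_C, Polynomial.eval₂_X_pow, hy]
    ring

/-- **Level one lemma.** -/
theorem levelOne (hinj : Function.Injective (algebraMap R ℂ)) (x : expRing h R)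
    (hx : SLInv (fnHom x)) : ∃ P : R[X], P.eval₂ (cst h R) (jel h R) = x := by
  have hhpos : (0 : ℤ) < h := by exact_mod_cast Nat.pos_of_ne_zero (NeZero.ne h)
  refine levelOne_aux hinj (-(serHom x).order).toNat x hx fun k hk => ?_
  apply HahnSeries.coeff_eq_zero_of_lt_order
  refine lt_of_lt_of_le hk ?_
  have : (-(serHom x).order) ≤ ((-(serHom x).order).toNat : ℤ) := Int.self_le_toNat _
  nlinarith [Int.toNat_of_nonneg (show (0:ℤ) ≤ ((-(serHom x).order).toNat : ℤ) by positivity)]

end

end Fermat.Agent.Igusa
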