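import Fermat.Agent.Igusa.Units
import Fermat.Agent.Igusa.Arith
set_option autoImplicit false
set_option linter.unusedSectionVars false

noncomputable section
open UpperHalfPlane Function Filter ModularCurve Polynomial
open scoped Topology Manifold MatrixGroups ModularForm

namespace Fermat.Agent.Igusa

local notation "𝕢" => Periodic.qParam
local notation "Δ" => ModularForm.discriminant

section order
variable {k : Type*} [Field k]

/-- order as a group homomorphism -/
def ordU : (LaurentSeries k)ˣ →* Multiplicative ℤ where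
  toFun x := Multiplicative.ofAdd (x : LaurentSeries k).order
  map_one' := by
    rw [Units.val_one, HahnSeries.order_one]; rfl
  map_mul' x y := by
    rw [Units.val_mul, HahnSeries.order_mul x.ne_zero y.ne_zero]; rfl

lemma ordU_apply (x : (LaurentSeries k)ˣ) :
    (ordU x).toAdd = (x : LaurentSeries k).order := rfl

lemma order_eq_of {φ : LaurentSeries k} {m : ℤ} (h1 : φ.coeff m ≠ 0)
    (h2 : ∀ j : ℤ, j < m → φ.coeff j = 0) : φ.order = m := by
  have h0 : φ ≠ 0 := HahnSeries.ne_zero_of_coeff_ne_zero h1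
  refine le_antisymm (HahnSeries.order_le_of_coeff_ne_zero h1) ?_
  by_contra hlt
  rw [not_le] at hlt
  exact h0 (HahnSeries.coeff_order_eq_zero.mp (h2 _ hlt))

lemma order_lsubst (s : ℕ) [NeZero s] (ζ : kˣ) {φ : LaurentSeries k} (hφ : φ ≠ 0) :
    (lsubst s ζ φ).order = s * φ.order := by
  have hs : (0 : ℤ) < s := by exact_mod_cast Nat.pos_of_ne_zero (NeZero.ne s)
  apply order_eq_of
  · rw [lsubst_coeff_mul]
    exact mul_ne_zero (Units.ne_zero _) (HahnSeries.coeff_order_eq_zero.not.mpr hφ)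
  · intro j hj
    by_cases hd : (s : ℤ) ∣ j
    · obtain ⟨l, rfl⟩ := hd
      rw [lsubst_coeff_mul, HahnSeries.coeff_eq_zero_of_lt_order, mul_zero]
      exact lt_of_mul_lt_mul_left hj hs.le
    · exact lsubst_coeff_of_not_dvd _ _ _ hd

lemma order_deltaC : (deltaC k).order = 1 := by
  apply order_eq_of
  · rw [deltaC, HahnSeries.coeff_single_mul, one_mul, sub_self,
      show (0 : ℤ) = ((0 : ℕ) : ℤ) from rfl, HahnSeries.ofPowerSeries_apply_coeff,
      PowerSeries.coeff_map, PowerSeries.coeff_zero_eq_constantCoeff, constantCoeff_dedekindEtaUnit]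
    simp
  · intro j hj
    rw [deltaC, HahnSeries.coeff_single_mul, one_mul, ofPowerSeries_coeff_of_neg _ (by omega)]

lemma order_C {c : k} : (HahnSeries.C c : LaurentSeries k).order = 0 := by
  exact HahnSeries.order_C

end order

/-- scaling as a total function -/
def sclT (t : ℕ) (τ : ℍ) : ℍ := if h : 0 < t then scl t h τ else τ

lemma sclT_of_pos {t : ℕ} (h : 0 < t) (τ : ℍ) : sclT t τ = scl t h τ := dif_pos h

section
variable (N : ℕ) [NeZero N]

/-- The modular unit -/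
def Ufun (τ : ℍ) : ℂ :=
  (∏ S ∈ N.primeFactors.powerset, Δ (sclT (tS N S) τ) ^ (rS N S)) * Δ τ ^ (-(RN N))

/-- reduction of units -/
def redU {N : ℕ} {R : Type*} [CommRing R] [Algebra R ℂ] {k : Type*} [Field k] (ρ : R →+* k) :
    (expRing N R)ˣ →* (LaurentSeries k)ˣ :=
  Units.map (((coeffMap ρ).comp serHom : expRing N R →+* LaurentSeries k) : expRing N R →* LaurentSeries k)

variable {N} {R : Type*} [CommRing R] [Algebra R ℂ]

lemma exists_vunit (hR : GoodRing N R) {t : ℕ} (ht : 0 < t) (htN : t ∣ N) (γ : SL(2, ℤ)) :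
    ∃ (v : (expRing N R)ˣ) (s : ℕ), s * t = N * (Nat.gcd t (γ 1 0).natAbs) ^ 2 ∧
      (∀ τ, Δ (scl t ht (γ • τ)) = cd γ τ ^ 12 * evAt τ (v : expRing N R)) ∧
      ∀ {k : Type} [Field k] (ρ : R →+* k), (ordU (redU ρ v)).toAdd = s := by
  obtain ⟨dec⟩ := Dec.exists t ht γ
  obtain ⟨s, hs, ζ, φ, h1, h2, h3⟩ := hR.exists_subst ht htN dec
  have hDN : dec.D ∣ N := (Dvd.intro_left _ dec.hAD).trans htN
  obtain ⟨d, hd⟩ := hR.unit_of_dvd hDN
  refine ⟨Units.map (cst N R : R →* expRing N R) (d⁻¹ ^ 12) * Units.map (φ : expRing 1 R →* expRing N R) (discU R),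
    s, by rw [h1, dec.hA], ?_, ?_⟩
  · intro τ
    rw [dec.disc_scl ht τ]
    congr 1
    rw [Units.val_mul, map_mul]
    congr 1
    · have h4 : algebraMap R ℂ ((d⁻¹ : Rˣ) : R) = (dec.D : ℂ)⁻¹ := by
        have h5 : algebraMap R ℂ (d : R) = dec.D := by rw [hd, map_natCast]
        have h6 : algebraMap R ℂ (d : R) * algebraMap R ℂ ((d⁻¹ : Rˣ) : R) = 1 := by
          rw [← map_mul, Units.mul_inv, map_one]
        rw [← h5]
        exact eq_inv_of_mul_eq_one_right h6
      rw [← h4, ← map_pow]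
      rfl
    · exact (h2 (discU R) τ).symm
  · intro k _ ρ
    rw [map_mul, map_mul, toAdd_mul, ordU_apply, ordU_apply]
    have h4 : ((redU ρ (Units.map (cst N R : R →* expRing N R) (d⁻¹ ^ 12)) : (LaurentSeries k)ˣ) : LaurentSeries k) =
        HahnSeries.C (ρ ((d⁻¹ ^ 12 : Rˣ) : R)) := by
      exact coeffMap_single _ _ _
    have h5 : ((redU ρ (Units.map (φ : expRing 1 R →* expRing N R) (discU R)) : (LaurentSeries k)ˣ) : LaurentSeries k) =
        lsubst s (Units.map (ρ : R →* k) ζ) (deltaC k) := by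
      have h6 : ((redU ρ (Units.map (φ : expRing 1 R →* expRing N R) (discU R)) : (LaurentSeries k)ˣ) : LaurentSeries k) =
        coeffMap ρ (serHom (φ (discU R))) := rfl
      rw [h6, h3, coeffMap_lsubst]
      congr 1
      exact coeffMap_deltaC ρ
    rw [h4, h5, order_C, zero_add, order_lsubst _ _ (deltaC_ne_zero k), order_deltaC, mul_one]

lemma prod_zpow_exp {G ι : Type*} [CommGroup G] (a : G) (s : Finset ι) (r : ι → ℤ) :
    ∏ i ∈ s, a ^ r i = a ^ (∑ i ∈ s, r i) := by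
  classical
  induction s using Finset.induction_on with
  | empty => simp
  | insert i s hi ih => rw [Finset.prod_insert hi, Finset.sum_insert hi, ih, zpow_add]

/-- `U ∘ γ` is given by a unit of the expansion ring, with explicit order of reduction. -/
theorem exists_unit (hR : GoodRing N R) (γ : SL(2, ℤ)) :
    ∃ u : (expRing N R)ˣ, (∀ τ, evAt τ (u : expRing N R) = Ufun N (γ • τ)) ∧
      ∀ {k : Type} [Field k] (ρ : R →+* k), (ordU (redU ρ u)).toAdd =
        (∏ p ∈ N.primeFactors, (p : ℤ)) * ∑ S ∈ N.primeFactors.powerset,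
          ((-1 : ℤ) ^ S.card * ((Nat.gcd (tS N S) (γ 1 0).natAbs : ℕ) : ℤ) ^ 2) - RN N * N := by
  classical
  have hN : N ≠ 0 := NeZero.ne N
  have key : ∀ S : Finset ℕ, ∃ (v : (expRing N R)ˣ) (s : ℕ), S ⊆ N.primeFactors →
      (s * tS N S = N * (Nat.gcd (tS N S) (γ 1 0).natAbs) ^ 2 ∧
      (∀ τ, Δ (sclT (tS N S) (γ • τ)) = cd γ τ ^ 12 * evAt τ (v : expRing N R)) ∧
      ∀ {k : Type} [Field k] (ρ : R →+* k), (ordU (redU ρ v)).toAdd = s) := by
    intro S
    by_cases hS : S ⊆ N.primeFactors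
    · obtain ⟨v, s, h1, h2, h3⟩ := exists_vunit hR (tS_pos hN hS) (tS_dvd hS) γ
      refine ⟨v, s, fun _ => ⟨h1, ?_, h3⟩⟩
      intro τ
      rw [sclT_of_pos (tS_pos hN hS)]
      exact h2 τ
    · exact ⟨1, 0, fun h => absurd h hS⟩
  choose v s hvs using key
  obtain ⟨v₁, s₁, hs₁, hv₁, ho₁⟩ := exists_vunit hR one_pos (one_dvd N) γ
  refine ⟨(∏ S ∈ N.primeFactors.powerset, v S ^ rS N S) * v₁ ^ (-(RN N)), ?_, ?_⟩
  · intro τ
    set E : (expRing N R)ˣ →* ℂˣ := Units.map ((evAt τ : expRing N R →+* ℂ) : expRing N R →* ℂ) with hE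
    have hEv : ∀ w : (expRing N R)ˣ, evAt τ (w : expRing N R) = (E w : ℂ) := fun w => rfl
    set a : ℂˣ := Units.mk0 (cd γ τ ^ 12) (pow_ne_zero _ (cd_ne_zero γ τ)) with ha
    rw [hEv, map_mul, map_zpow, map_prod]
    have h1 : ∀ S ∈ N.primeFactors.powerset, Δ (sclT (tS N S) (γ • τ)) ^ (rS N S) =
        ((a ^ rS N S * E (v S ^ rS N S) : ℂˣ) : ℂ) := by
      intro S hS
      rw [(hvs S (Finset.mem_powerset.mp hS)).2.1 τ, map_zpow, ← mul_zpow, Units.val_zpow_eq_zpow_val]
      rfl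
    have h2 : Δ (γ • τ) ^ (-(RN N)) = ((a ^ (-(RN N)) * E v₁ ^ (-(RN N)) : ℂˣ) : ℂ) := by
      have h3 := hv₁ τ
      rw [scl_one] at h3
      rw [h3, ← mul_zpow, Units.val_zpow_eq_zpow_val]
      rfl
    rw [Ufun, Finset.prod_congr rfl h1, h2, ← Units.coe_prod, ← Units.val_mul,
      Finset.prod_mul_distrib, prod_zpow_exp, sum_rS]
    congr 1
    rw [mul_mul_mul_comm, ← zpow_add, add_neg_cancel, zpow_zero, one_mul]
  · intro k _ ρ
    rw [map_mul, map_mul, toAdd_mul, map_prod, map_prod, toAdd_prod, map_zpow, map_zpow, toAdd_zpow,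
      ho₁ ρ]
    have h1 : (s₁ : ℤ) = N := by
      rw [mul_one, Nat.gcd_one_left, one_pow, mul_one] at hs₁
      exact_mod_cast hs₁
    have h2 : ∀ S ∈ N.primeFactors.powerset,
        (ordU (redU ρ (v S ^ rS N S))).toAdd = (∏ p ∈ N.primeFactors, (p : ℤ)) *
          ((-1 : ℤ) ^ S.card * ((Nat.gcd (tS N S) (γ 1 0).natAbs : ℕ) : ℤ) ^ 2) := by
      intro S hS
      have h3 := hvs S (Finset.mem_powerset.mp hS)
      rw [map_zpow, map_zpow, toAdd_zpow, h3.2.2 ρ, smul_eq_mul]
      exact order_term hN (Finset.mem_powerset.mp hS) h3.1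
    rw [Finset.sum_congr rfl h2, ← Finset.mul_sum, h1, smul_eq_mul]
    ring

end

end Fermat.Agent.Igusa
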