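import Fermat.Agent.Igusa.Zl
import Fermat.Prelude.Def_ModularCurve_LaurentCoeff
set_option autoImplicit false
set_option linter.unusedSectionVars false

noncomputable section
open TensorProduct ModularCurve

namespace Fermat.Agent.Igusa

section
variable {ℓ : ℕ} [hℓ : Fact ℓ.Prime]

/-- ring homs out of `ℤ_(ℓ)` are unique -/
lemma ringHom_Zl_ext {B : Type*} [CommRing B] (f g : (GaloisRep.ratLocalizedAt ℓ) →+* B) : f = g :=
  IsLocalization.ringHom_ext (pl ℓ).primeCompl (RingHom.ext_int _ _)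

variable (K : Type) [Field K] [CharP K ℓ] [Algebra (GaloisRep.ratLocalizedAt ℓ) K]

/-- `ZMod ℓ → K` -/
def iotaK : ZMod ℓ →+* K := ZMod.castHom dvd_rfl K

lemma algebraMap_eq_iota (a : GaloisRep.ratLocalizedAt ℓ) :
    algebraMap (GaloisRep.ratLocalizedAt ℓ) K a = iotaK K (redZ ℓ a) :=
  congrArg (fun f : (GaloisRep.ratLocalizedAt ℓ) →+* K => f a)
    (ringHom_Zl_ext (algebraMap (GaloisRep.ratLocalizedAt ℓ) K) ((iotaK K).comp (redZ ℓ)))

/-- type synonym for the Laurent series field -/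
def LK (K : Type) [Field K] : Type := LaurentSeries K

instance : CommRing (LK K) := inferInstanceAs (CommRing (LaurentSeries K))
instance : IsDomain (LK K) := inferInstanceAs (IsDomain (LaurentSeries K))

/-- identity -/
def toLK : LaurentSeries K →+* LK K := RingHom.id (LaurentSeries K)

/-- the structure of a `Zl`-algebra on the Laurent series -/
instance algLK : Algebra (GaloisRep.ratLocalizedAt ℓ) (LK K) :=
  ((toLK K).comp ((HahnSeries.C : K →+* LaurentSeries K).comp
    (algebraMap (GaloisRep.ratLocalizedAt ℓ) K))).toAlgebra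

variable {A : Type} [CommRing A] [Algebra (GaloisRep.ratLocalizedAt ℓ) A]
  (θ : A →+* LaurentSeries (ZMod ℓ))

/-- the map to `K((q))` -/
def psiA : A →ₐ[GaloisRep.ratLocalizedAt ℓ] LK K :=
  { (toLK K).comp ((coeffMap (iotaK K)).comp θ) with
    commutes' := fun a => congrArg (fun f : (GaloisRep.ratLocalizedAt ℓ) →+* LK K => f a)
      (ringHom_Zl_ext (((toLK K).comp ((coeffMap (iotaK K)).comp θ)).comp
        (algebraMap (GaloisRep.ratLocalizedAt ℓ) A)) (algebraMap (GaloisRep.ratLocalizedAt ℓ) (LK K))) }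

/-- the map to `K((q))` -/
def psiK : K →ₐ[GaloisRep.ratLocalizedAt ℓ] LK K :=
  { (toLK K).comp (HahnSeries.C : K →+* LaurentSeries K) with
    commutes' := fun _ => rfl }

/-- the map `A ⊗ K → K((q))` -/
def Psi : A ⊗[GaloisRep.ratLocalizedAt ℓ] K →ₐ[GaloisRep.ratLocalizedAt ℓ] LK K :=
  Algebra.TensorProduct.lift (psiA K θ) (psiK K) (fun _ _ => Commute.all _ _)

lemma Psi_tmul (a : A) (x : K) :
    Psi K θ (a ⊗ₜ x) = toLK K (coeffMap (iotaK K) (θ a) * HahnSeries.C x) := by
  exact Algebra.TensorProduct.lift_tmul _ _ _ _ _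

lemma exists_repr (z : A ⊗[GaloisRep.ratLocalizedAt ℓ] K) {ι : Type*} (e : ι → K)
    (he : letI := (iotaK (ℓ := ℓ) K).toAlgebra; ⊤ ≤ Submodule.span (ZMod ℓ) (Set.range e)) :
    ∃ f : ι →₀ A, z = f.sum (fun i a => a ⊗ₜ e i) := by
  classical
  let : Algebra (ZMod ℓ) K := (iotaK (ℓ := ℓ) K).toAlgebra
  have hadd : ∀ f g : ι →₀ A, (f + g).sum (fun i a => (a ⊗ₜ[GaloisRep.ratLocalizedAt ℓ] e i : A ⊗[GaloisRep.ratLocalizedAt ℓ] K)) =
      f.sum (fun i a => a ⊗ₜ e i) + g.sum (fun i a => a ⊗ₜ e i) := fun f g =>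
    Finsupp.sum_add_index' (fun i => TensorProduct.zero_tmul _ _) (fun i a b => TensorProduct.add_tmul _ _ _)
  induction z using TensorProduct.induction_on with
  | zero => exact ⟨0, by simp⟩
  | add x y hx hy =>
    obtain ⟨f, hf⟩ := hx
    obtain ⟨g, hg⟩ := hy
    exact ⟨f + g, by rw [hadd, hf, hg]⟩
  | tmul a x =>
    have hx : x ∈ Submodule.span (ZMod ℓ) (Set.range e) := he trivial
    induction hx using Submodule.span_induction with
    | mem x h =>
      obtain ⟨i, rfl⟩ := h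
      exact ⟨Finsupp.single i a, (Finsupp.sum_single_index (h := fun i a =>
        (a ⊗ₜ[GaloisRep.ratLocalizedAt ℓ] e i : A ⊗[GaloisRep.ratLocalizedAt ℓ] K))
        (TensorProduct.zero_tmul _ _)).symm⟩
    | zero => exact ⟨0, by rw [TensorProduct.tmul_zero]; simp⟩
    | add x y _ _ hx hy =>
      obtain ⟨f, hf⟩ := hx
      obtain ⟨g, hg⟩ := hy
      exact ⟨f + g, by rw [hadd, TensorProduct.tmul_add, hf, hg]⟩
    | smul c x _ hx =>
      obtain ⟨f, hf⟩ := hx
      obtain ⟨c', rfl⟩ := redZ_surjective ℓ c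
      refine ⟨f.mapRange (fun a => c' • a) (smul_zero _), ?_⟩
      have h1 : redZ ℓ c' • x = c' • x := by
        rw [Algebra.smul_def, Algebra.smul_def, algebraMap_eq_iota]
        rfl
      rw [h1, TensorProduct.tmul_smul, hf, Finsupp.smul_sum]
      rw [Finsupp.sum_mapRange_index (h := fun i a =>
        (a ⊗ₜ[GaloisRep.ratLocalizedAt ℓ] e i : A ⊗[GaloisRep.ratLocalizedAt ℓ] K))
        (fun i => TensorProduct.zero_tmul _ _)]
      refine Finsupp.sum_congr fun i _ => ?_
      rw [TensorProduct.smul_tmul']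

theorem Psi_injective (hker : ∀ a, θ a = 0 → ∃ b, a = (ℓ : A) * b) :
    Function.Injective (Psi K θ : A ⊗[GaloisRep.ratLocalizedAt ℓ] K → LK K) := by
  classical
  let : Algebra (ZMod ℓ) K := (iotaK (ℓ := ℓ) K).toAlgebra
  rw [injective_iff_map_eq_zero]
  intro z hz
  let e := Module.Basis.ofVectorSpace (ZMod ℓ) K
  obtain ⟨f, hf⟩ := exists_repr (A := A) K z e (by rw [e.span_eq])
  rw [hf, Finsupp.sum, map_sum] at hz
  simp only [Psi_tmul] at hz
  rw [← map_sum] at hz
  replace hz : ∑ i ∈ f.support, coeffMap (iotaK K) (θ (f i)) * HahnSeries.C (e i) = 0 := hz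
  have h0 : ∀ i, θ (f i) = 0 := by
    intro i
    ext n
    have h1 := congrArg (fun x => HahnSeries.coeff x n) hz
    simp only [HahnSeries.coeff_sum, HahnSeries.coeff_zero] at h1
    have h2 : ∀ j, (coeffMap (iotaK K) (θ (f j)) * HahnSeries.C (e j)).coeff n = (θ (f j)).coeff n • e j := by
      intro j
      rw [mul_comm, HahnSeries.C_mul_eq_smul, HahnSeries.coeff_smul, coeffMap_coeff,
        smul_eq_mul, mul_comm, Algebra.smul_def]
      rfl
    rw [Finset.sum_congr rfl fun j _ => h2 j] at h1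
    have h3 := linearIndependent_iff'.mp e.linearIndependent f.support (fun j => (θ (f j)).coeff n) h1
    by_cases hi : i ∈ f.support
    · rw [h3 i hi, HahnSeries.coeff_zero]
    · rw [Finsupp.notMem_support_iff.mp hi, map_zero]
  rw [hf, Finsupp.sum]
  refine Finset.sum_eq_zero fun i _ => ?_
  obtain ⟨b, hb⟩ := hker _ (h0 i)
  have h4 : (ℓ : A) * b = (ℓ : GaloisRep.ratLocalizedAt ℓ) • b := by
    rw [Algebra.smul_def, map_natCast]
  rw [hb, h4, ← TensorProduct.smul_tmul', ← TensorProduct.tmul_smul, Algebra.smul_def, map_natCast,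
    CharP.cast_eq_zero, zero_mul, TensorProduct.tmul_zero]

theorem tensor_isDomain (hker : ∀ a, θ a = 0 → ∃ b, a = (ℓ : A) * b) :
    IsDomain (A ⊗[GaloisRep.ratLocalizedAt ℓ] K) :=
  (Psi_injective K θ hker).isDomain (Psi K θ).toRingHom

end

end Fermat.Agent.Igusa
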