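import Fermat.Agent.Igusa.ChartRed
import Fermat.Agent.Igusa.Tensor
set_option autoImplicit false
set_option linter.unusedSectionVars false

noncomputable section
open AlgebraicGeometry CategoryTheory CategoryTheory.Limits ModularCurve ModularCurve.IgusaScheme TensorProduct

namespace Fermat.Agent.Igusa

theorem isIntegral_of_cover {P : Scheme.{0}} (𝒱 : P.OpenCover) [∀ i, IsIntegral (𝒱.X i)] (a : 𝒱.I₀)
    (h : ∀ i, (Set.range (𝒱.f i) ∩ Set.range (𝒱.f a)).Nonempty) : IsIntegral P := by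
  have hred : IsReduced P := AlgebraicGeometry.IsReduced.of_openCover P 𝒱
  have hirr : ∀ i, IsIrreducible (Set.range (𝒱.f i)) := by
    intro i
    rw [← Set.image_univ]
    exact (IrreducibleSpace.isIrreducible_univ (𝒱.X i)).image _ (𝒱.f i).continuous.continuousOn
  have hcl : closure (Set.range (𝒱.f a)) = Set.univ := by
    rw [Set.eq_univ_iff_forall]
    intro x
    obtain ⟨i, y, rfl⟩ := 𝒱.exists_eq x
    have h1 := subset_closure_inter_of_isPreirreducible_of_isOpen (hirr i).isPreirreducible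
      (𝒱.f a).isOpenEmbedding.isOpen_range (h i)
    exact closure_mono Set.inter_subset_right (h1 (Set.mem_range_self y))
  have : IrreducibleSpace P := by
    rw [irreducibleSpace_def]
    have h1 := (hirr a).closure
    rw [hcl] at h1
    exact h1
  exact isIntegral_of_irreducibleSpace_of_isReduced P

section
variable (N : ℕ) [NeZero N] (ℓ : ℕ) [hℓ : Fact ℓ.Prime] (hN : ¬ ℓ ∣ N)
  (K : Type) [Field K] [CharP K ℓ] [Algebra ↥(GaloisRep.ratLocalizedAt ℓ) K]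

include hN in
lemma domain_fin : IsDomain (chartAlg N ℓ {jFull N} ⊗[GaloisRep.ratLocalizedAt ℓ] K) :=
  tensor_isDomain K (thetaS N ℓ hN (sub_fin N)) (ker_fin N ℓ hN)

include hN in
lemma domain_inf : IsDomain (chartAlg N ℓ {(jFull N)⁻¹} ⊗[GaloisRep.ratLocalizedAt ℓ] K) :=
  tensor_isDomain K (thetaS N ℓ hN (sub_inf N)) (ker_inf N ℓ hN)

include hN in
lemma domain_mid : IsDomain (chartAlg N ℓ {jFull N, (jFull N)⁻¹} ⊗[GaloisRep.ratLocalizedAt ℓ] K) :=
  tensor_isDomain K (thetaS N ℓ hN subset_rfl) (fun x h0 => by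
    obtain ⟨y, hy, hxy⟩ := ker_mid N ℓ hN x.2 h0
    exact ⟨⟨y, hy⟩, Subtype.ext (by rw [Subalgebra.coe_mul]; exact hxy)⟩)

end

section two
variable {X S T U₁ U₂ W : Scheme.{0}} (i₁ : U₁ ⟶ X) (i₂ : U₂ ⟶ X)
  [IsOpenImmersion i₁] [IsOpenImmersion i₂] (hcov : ∀ x : X, x ∈ Set.range i₁ ∨ x ∈ Set.range i₂)

/-- a cover by two open immersions -/
def cov2 : X.OpenCover :=
  Scheme.Cover.mkOfCovers Bool (fun b => match b with | true => U₁ | false => U₂)
    (fun b => match b with | true => i₁ | false => i₂)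
    (fun x => by
      rcases hcov x with ⟨y, hy⟩ | ⟨y, hy⟩
      · exact ⟨true, y, hy⟩
      · exact ⟨false, y, hy⟩)
    (fun b => by
      cases b
      · exact ‹IsOpenImmersion i₂›
      · exact ‹IsOpenImmersion i₁›)

include hcov in
theorem isIntegral_pullback_of_two (f : X ⟶ S) (g : T ⟶ S) (j₁ : W ⟶ U₁) (j₂ : W ⟶ U₂)
    (hj : j₁ ≫ i₁ = j₂ ≫ i₂) (h₁ : IsIntegral (pullback (i₁ ≫ f) g))
    (h₂ : IsIntegral (pullback (i₂ ≫ f) g)) (hW : Nonempty ↥(pullback (j₁ ≫ i₁ ≫ f) g)) :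
    IsIntegral (pullback f g) := by
  let 𝒱 := Scheme.Pullback.openCoverOfLeft (cov2 i₁ i₂ hcov) f g
  have hint : ∀ b : Bool, IsIntegral (𝒱.X b) := by
    intro b
    cases b
    · exact h₂
    · exact h₁
  have hint' : ∀ b, IsIntegral (𝒱.X b) := hint
  refine isIntegral_of_cover 𝒱 (true : Bool) ?_
  intro b
  cases b
  · obtain ⟨w⟩ := hW
    let t₁ : pullback (j₁ ≫ i₁ ≫ f) g ⟶ pullback (i₁ ≫ f) g :=
      pullback.map _ _ _ _ j₁ (𝟙 _) (𝟙 _) (by simp) (by simp)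
    let t₂ : pullback (j₁ ≫ i₁ ≫ f) g ⟶ pullback (i₂ ≫ f) g :=
      pullback.map _ _ _ _ j₂ (𝟙 _) (𝟙 _) (by rw [Category.comp_id, ← Category.assoc, hj, Category.assoc]) (by simp)
    let m₁ : pullback (i₁ ≫ f) g ⟶ pullback f g :=
      pullback.map _ _ _ _ i₁ (𝟙 _) (𝟙 _) (by simp) (by simp)
    let m₂ : pullback (i₂ ≫ f) g ⟶ pullback f g :=
      pullback.map _ _ _ _ i₂ (𝟙 _) (𝟙 _) (by simp) (by simp)
    have hm : t₁ ≫ m₁ = t₂ ≫ m₂ := by
      apply pullback.hom_ext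
      · simp only [t₁, t₂, m₁, m₂, Category.assoc, pullback.lift_fst, pullback.lift_fst_assoc, hj]
      · simp only [t₁, t₂, m₁, m₂, Category.assoc, pullback.lift_snd, pullback.lift_snd_assoc,
          Category.comp_id]
    refine ⟨m₂ (t₂ w), ⟨t₂ w, rfl⟩, ⟨t₁ w, ?_⟩⟩
    show m₁ (t₁ w) = m₂ (t₂ w)
    rw [← Scheme.Hom.comp_apply, ← Scheme.Hom.comp_apply, hm]
  · obtain ⟨x⟩ : Nonempty (𝒱.X (true : Bool)) := inferInstance
    exact ⟨𝒱.f (true : Bool) x, ⟨x, rfl⟩, ⟨x, rfl⟩⟩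

end two

section
variable (N : ℕ) [NeZero N] (ℓ : ℕ) [hℓ : Fact ℓ.Prime] (hN : ¬ ℓ ∣ N)
  (K : Type) [Field K] [CharP K ℓ] [Algebra ↥(GaloisRep.ratLocalizedAt ℓ) K]

include hN in
theorem main : IsIntegral ↑(pullback (igusaTo N ℓ)
      (Spec.map (CommRingCat.ofHom (algebraMap ↥(GaloisRep.ratLocalizedAt ℓ) K)))) := by
  have d1 := domain_fin N ℓ hN K
  have d2 := domain_inf N ℓ hN K
  have d3 := domain_mid N ℓ hN K
  refine isIntegral_pullback_of_two (ιFin N ℓ) (ιInf N ℓ) (mem_range_ιFin_or_mem_range_ιInf N ℓ)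
    (igusaTo N ℓ) _ (fFin N ℓ) (fInf N ℓ) (glue_condition N ℓ) ?_ ?_ ?_
  · rw [ιFin_igusaTo]
    exact IsIntegral.of_isIso (pullbackSpecIso _ _ _).inv
  · rw [ιInf_igusaTo]
    exact IsIntegral.of_isIso (pullbackSpecIso _ _ _).inv
  · have h : fFin N ℓ ≫ ιFin N ℓ ≫ igusaTo N ℓ =
        Spec.map (CommRingCat.ofHom (algebraMap ↥(GaloisRep.ratLocalizedAt ℓ) (chartAlgMid N ℓ))) := by
      rw [ιFin_igusaTo, ← Spec.map_comp, ← CommRingCat.ofHom_comp]
      congr 2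
    rw [h]
    have hint : IsIntegral (pullback
      (Spec.map (CommRingCat.ofHom (algebraMap ↥(GaloisRep.ratLocalizedAt ℓ) (chartAlgMid N ℓ))))
      (Spec.map (CommRingCat.ofHom (algebraMap ↥(GaloisRep.ratLocalizedAt ℓ) K)))) :=
      IsIntegral.of_isIso (pullbackSpecIso _ _ _).inv
    infer_instance

end

end Fermat.Agent.Igusa
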