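import Fermat.Agent.Igusa.Laurent
set_option autoImplicit false

noncomputable section
open UpperHalfPlane Function Filter ModularCurve
open scoped Topology Manifold

namespace Fermat.Agent.Igusa

local notation "𝕢" => Periodic.qParam

section Twist
variable {R : Type*} [CommRing R]

/-- the coefficientwise twist by `ζ ^ n`, i.e. `q ↦ ζ q`. -/
def twistFun (ζ : Rˣ) (x : LaurentSeries R) : LaurentSeries R where
  coeff n := ((ζ ^ n : Rˣ) : R) * x.coeff n
  isPWO_support' := x.isPWO_support.mono (by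
    intro n hn
    rw [HahnSeries.mem_support]
    intro h
    exact hn (by simp [h]))

lemma twistFun_coeff (ζ : Rˣ) (x : LaurentSeries R) (n : ℤ) :
    (twistFun ζ x).coeff n = ((ζ ^ n : Rˣ) : R) * x.coeff n := rfl

/-- the ring homomorphism `q ↦ ζ q`. -/
def twist (ζ : Rˣ) : LaurentSeries R →+* LaurentSeries R where
  toFun := twistFun ζ
  map_one' := by
    ext n
    rw [twistFun_coeff, HahnSeries.coeff_one]
    split_ifs with h
    · subst h; simp
    · simp
  map_zero' := by ext n; rw [twistFun_coeff]; simp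
  map_add' x y := by ext n; simp [twistFun_coeff, mul_add]
  map_mul' x y := by
    ext n
    have hs : ∀ (z : LaurentSeries R) (i : ℤ), (twistFun ζ z).coeff i = 0 ↔ z.coeff i = 0 := by
      intro z i
      rw [twistFun_coeff]
      exact (Units.isUnit (ζ ^ i)).mul_right_eq_zero
    rw [twistFun_coeff, HahnSeries.coeff_mul, HahnSeries.coeff_mul, Finset.mul_sum]
    refine Finset.sum_congr ?_ ?_
    · ext ⟨i, j⟩
      simp [HahnSeries.mem_support, hs]
    · rintro ⟨i, j⟩ hij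
      have h : i + j = n := by
        have := Finset.mem_antidiagonal.mp hij
        exact this.2.2
      subst h
      rw [twistFun_coeff, twistFun_coeff, zpow_add]
      push_cast; ring

@[simp] lemma twist_coeff (ζ : Rˣ) (x : LaurentSeries R) (n : ℤ) :
    (twist ζ x).coeff n = ((ζ ^ n : Rˣ) : R) * x.coeff n := rfl

@[simp] lemma twist_one (x : LaurentSeries R) : twist (1 : Rˣ) x = x := by
  ext n; simp

lemma coeffMap_twist {S : Type*} [CommRing S] (f : R →+* S) (ζ : Rˣ) (x : LaurentSeries R) :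
    coeffMap f (twist ζ x) = twist (Units.map (f : R →* S) ζ) (coeffMap f x) := by
  ext n
  rw [coeffMap_coeff, twist_coeff, twist_coeff, coeffMap_coeff, map_mul, ← map_zpow]
  rfl

lemma twist_single (ζ : Rˣ) (k : ℤ) (r : R) :
    twist ζ (HahnSeries.single k r) = HahnSeries.single k (((ζ ^ k : Rˣ) : R) * r) := by
  ext n
  rw [twist_coeff]
  rcases eq_or_ne n k with rfl | h
  · simp
  · simp [HahnSeries.coeff_single_of_ne h]

variable (s : ℕ) [NeZero s]

/-- the substitution `q ↦ ζ q ^ s` -/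
def lsubst (ζ : Rˣ) : LaurentSeries R →+* LaurentSeries R := (qExpand R s).comp (twist ζ)

lemma lsubst_apply (ζ : Rˣ) (x : LaurentSeries R) : lsubst s ζ x = qExpand R s (twist ζ x) := rfl

lemma lsubst_single (ζ : Rˣ) (k : ℤ) (r : R) :
    lsubst s ζ (HahnSeries.single k r) = HahnSeries.single ((s : ℤ) * k) (((ζ ^ k : Rˣ) : R) * r) := by
  rw [lsubst_apply, twist_single, qExpand_single]

lemma lsubst_coeff_mul (ζ : Rˣ) (x : LaurentSeries R) (k : ℤ) :
    (lsubst s ζ x).coeff ((s : ℤ) * k) = ((ζ ^ k : Rˣ) : R) * x.coeff k := by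
  rw [lsubst_apply, qExpand_coeff_mul, twist_coeff]

lemma lsubst_coeff_of_not_dvd (ζ : Rˣ) (x : LaurentSeries R) {k : ℤ} (hk : ¬ (s : ℤ) ∣ k) :
    (lsubst s ζ x).coeff k = 0 := by
  rw [lsubst_apply, qExpand_coeff_of_not_dvd _ _ hk]

lemma coeffMap_qExpand' {S : Type*} [CommRing S] (f : R →+* S) (x : LaurentSeries R) :
    coeffMap f (qExpand R s x) = qExpand S s (coeffMap f x) := by
  ext k
  by_cases hk : (s : ℤ) ∣ k
  · obtain ⟨m, rfl⟩ := hk
    rw [coeffMap_coeff, qExpand_coeff_mul, qExpand_coeff_mul, coeffMap_coeff]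
  · rw [coeffMap_coeff, qExpand_coeff_of_not_dvd _ _ hk, qExpand_coeff_of_not_dvd _ _ hk, map_zero]

lemma coeffMap_lsubst {S : Type*} [CommRing S] (f : R →+* S) (ζ : Rˣ) (x : LaurentSeries R) :
    coeffMap f (lsubst s ζ x) = lsubst s (Units.map (f : R →* S) ζ) (coeffMap f x) := by
  rw [lsubst_apply, lsubst_apply, coeffMap_qExpand', coeffMap_twist]

/-- power series version of the substitution -/
def psSubst (ζ : Rˣ) (p : PowerSeries R) : PowerSeries R :=
  PowerSeries.mk fun n => if s ∣ n then ((ζ ^ (n / s) : Rˣ) : R) * p.coeff (n / s) else 0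

lemma psSubst_coeff_mul (ζ : Rˣ) (p : PowerSeries R) (n : ℕ) :
    (psSubst s ζ p).coeff (s * n) = ((ζ ^ n : Rˣ) : R) * p.coeff n := by
  rw [psSubst, PowerSeries.coeff_mk, if_pos (dvd_mul_right _ _),
    Nat.mul_div_cancel_left _ (Nat.pos_of_ne_zero (NeZero.ne s))]

lemma lsubst_ofPowerSeries (ζ : Rˣ) (p : PowerSeries R) :
    lsubst s ζ (HahnSeries.ofPowerSeries ℤ R p) = HahnSeries.ofPowerSeries ℤ R (psSubst s ζ p) := by
  have hs : (0 : ℤ) < s := by exact_mod_cast Nat.pos_of_ne_zero (NeZero.ne s)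
  ext k
  by_cases hk : (s : ℤ) ∣ k
  · obtain ⟨m, rfl⟩ := hk
    rw [lsubst_coeff_mul]
    rcases le_or_gt 0 m with hm | hm
    · lift m to ℕ using hm
      rw [show (s : ℤ) * m = ((s * m : ℕ) : ℤ) by push_cast; rfl,
        HahnSeries.ofPowerSeries_apply_coeff, HahnSeries.ofPowerSeries_apply_coeff,
        psSubst_coeff_mul, zpow_natCast]
    · rw [ofPowerSeries_coeff_of_neg _ hm, ofPowerSeries_coeff_of_neg _ (by nlinarith), mul_zero]
  · rw [lsubst_coeff_of_not_dvd _ _ _ hk]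
    rcases le_or_gt 0 k with hm | hm
    · lift k to ℕ using hm
      rw [HahnSeries.ofPowerSeries_apply_coeff, psSubst, PowerSeries.coeff_mk, if_neg]
      exact_mod_cast hk
    · rw [ofPowerSeries_coeff_of_neg _ hm]

end Twist

section Analytic
variable {h₁ h₂ : ℕ}

lemma PSConv.subst {f : ℍ → ℂ} {p : PowerSeries ℂ} (hf : PSConv h₁ f p) (g : ℍ → ℍ) (ζ : ℂˣ)
    (s : ℕ) [NeZero s] (hg : ∀ τ : ℍ, 𝕢 h₁ (g τ : ℂ) = ζ * (𝕢 h₂ (τ : ℂ)) ^ s) :
    PSConv h₂ (f ∘ g) (psSubst s ζ p) := fun τ => by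
  have h1 := hf (g τ)
  have hinj : Function.Injective (fun n : ℕ => s * n) :=
    fun a b hab => Nat.eq_of_mul_eq_mul_left (Nat.pos_of_ne_zero (NeZero.ne s)) hab
  rw [Function.comp_apply, ← hinj.hasSum_iff]
  · convert h1 using 1
    ext n
    rw [Function.comp_apply, psSubst_coeff_mul, hg, mul_pow, ← pow_mul]
    push_cast; ring
  · intro n hn
    rw [psSubst, PowerSeries.coeff_mk, if_neg, zero_mul]
    rintro ⟨m, rfl⟩
    exact hn ⟨m, rfl⟩

lemma HasExp.subst {f : ℍ → ℂ} {φ : LaurentSeries ℂ} (hf : HasExp h₁ f φ) (g : ℍ → ℍ) (ζ : ℂˣ)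
    (s : ℕ) [NeZero s] (hg : ∀ τ : ℍ, 𝕢 h₁ (g τ : ℂ) = ζ * (𝕢 h₂ (τ : ℂ)) ^ s) :
    HasExp h₂ (f ∘ g) (lsubst s ζ φ) := by
  obtain ⟨m, p, hp1, hp2⟩ := hf
  refine ⟨s * m, PowerSeries.C (((ζ ^ m)⁻¹ : ℂˣ) : ℂ) * psSubst s ζ p, ?_, ?_⟩
  · have h1 := congrArg (lsubst s ζ) hp1
    rw [map_mul, lsubst_single, lsubst_ofPowerSeries, mul_one] at h1
    rw [map_mul, ← h1, HahnSeries.ofPowerSeries_C, HahnSeries.C_apply, ← mul_assoc,
      HahnSeries.single_mul_single, zero_add, zpow_natCast]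
    simp
  · have h1 := (PSConv.const (h := h₂) (((ζ ^ m)⁻¹ : ℂˣ) : ℂ)).mul (hp2.subst g ζ s hg)
    convert h1 using 1
    ext τ
    simp only [Pi.mul_apply, Function.comp_apply]
    rw [hg, mul_pow, ← pow_mul]
    push_cast
    have : (ζ : ℂ) ^ m ≠ 0 := pow_ne_zero _ ζ.ne_zero
    field_simp

end Analytic

end Fermat.Agent.Igusa
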