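import Fermat.Agent.Igusa.Decomp
set_option autoImplicit false
set_option linter.unusedSectionVars false

noncomputable section
open UpperHalfPlane Function Filter ModularCurve Polynomial
open scoped Topology Manifold MatrixGroups ModularForm

namespace Fermat.Agent.Igusa

local notation "𝕢" => Periodic.qParam
local notation "Δ" => ModularForm.discriminant

section subst
variable {h₁ h₂ : ℕ} {R : Type*} [CommRing R] [Algebra R ℂ]

/-- substitution as a ring homomorphism between expansion rings -/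
def substHom (g : ℍ → ℍ) (ζ : Rˣ) (s : ℕ) [NeZero s]
    (hg : ∀ τ : ℍ, 𝕢 h₁ (g τ : ℂ) = algebraMap R ℂ ζ * (𝕢 h₂ (τ : ℂ)) ^ s) :
    expRing h₁ R →+* expRing h₂ R where
  toFun x := ⟨(x.1.1 ∘ g, lsubst s ζ x.1.2), by
    have hx : HasExp h₁ _ _ := x.2
    rw [mem_expRing, coeffMap_lsubst]
    exact hx.subst g (Units.map (algebraMap R ℂ : R →* ℂ) ζ) s hg⟩
  map_one' := by
    ext1
    refine Prod.ext rfl ?_
    exact (map_one _)
  map_zero' := by
    ext1
    refine Prod.ext rfl ?_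
    exact (map_zero _)
  map_add' a b := by
    ext1
    refine Prod.ext rfl ?_
    exact (map_add _ _ _)
  map_mul' a b := by
    ext1
    refine Prod.ext rfl ?_
    exact (map_mul _ _ _)

@[simp] lemma substHom_fst (g : ℍ → ℍ) (ζ : Rˣ) (s : ℕ) [NeZero s]
    (hg : ∀ τ : ℍ, 𝕢 h₁ (g τ : ℂ) = algebraMap R ℂ ζ * (𝕢 h₂ (τ : ℂ)) ^ s) (x : expRing h₁ R) (τ : ℍ) :
    (substHom g ζ s hg x).1.1 τ = x.1.1 (g τ) := rfl

@[simp] lemma substHom_snd (g : ℍ → ℍ) (ζ : Rˣ) (s : ℕ) [NeZero s]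
    (hg : ∀ τ : ℍ, 𝕢 h₁ (g τ : ℂ) = algebraMap R ℂ ζ * (𝕢 h₂ (τ : ℂ)) ^ s) (x : expRing h₁ R) :
    (substHom g ζ s hg x).1.2 = lsubst s ζ x.1.2 := rfl

end subst

/-- evaluation at a point -/
def evAt {h : ℕ} {R : Type*} [CommRing R] [Algebra R ℂ] (τ : ℍ) : expRing h R →+* ℂ :=
  (Pi.evalRingHom (fun _ : ℍ => ℂ) τ).comp fnHom

lemma evAt_apply {h : ℕ} [NeZero h] {R : Type*} [CommRing R] [Algebra R ℂ] (τ : ℍ) (x : expRing h R) :
    evAt τ x = fnHom x τ := rfl

section delta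
variable (R : Type*) [CommRing R]

/-- the inverse of `deltaC` -/
def deltaInvC : LaurentSeries R :=
  HahnSeries.single (-1 : ℤ) 1 *
    HahnSeries.ofPowerSeries ℤ R (dedekindEtaUnitInv.map (Int.castRingHom R))

lemma deltaC_mul_inv : deltaC R * deltaInvC R = 1 := by
  rw [deltaC, deltaInvC, mul_mul_mul_comm, HahnSeries.single_mul_single, mul_one, add_neg_cancel,
    ← map_mul, ← map_mul, dedekindEtaUnit_mul_inv, map_one (PowerSeries.map _)]
  exact (one_mul _).trans (map_one _)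

/-- `deltaC` as a unit -/
def deltaU : (LaurentSeries R)ˣ where
  val := deltaC R
  inv := deltaInvC R
  val_inv := deltaC_mul_inv R
  inv_val := by rw [mul_comm]; exact deltaC_mul_inv R

lemma coeffMap_deltaInvC {R S : Type*} [CommRing R] [CommRing S] (f : R →+* S) :
    coeffMap f (deltaInvC R) = deltaInvC S := by
  rw [deltaInvC, map_mul, coeffMap_single, map_one, coeffMap_ofPS, deltaInvC]

variable [Algebra R ℂ]

/-- `Δ` as a unit of the expansion ring -/
def discU : (expRing 1 R)ˣ where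
  val := ⟨(Δ, deltaC R), by
    rw [mem_expRing, coeffMap_deltaC]
    exact hasExp_discriminant⟩
  inv := ⟨(fun τ => (Δ τ)⁻¹, deltaInvC R), by
    rw [mem_expRing, coeffMap_deltaInvC]
    have := hasExp_discriminant.inv ModularForm.discriminant_ne_zero
    rwa [inv_eq_of_mul_eq_one_right (deltaC_mul_inv ℂ)] at this⟩
  val_inv := by
    ext1
    refine Prod.ext ?_ (deltaC_mul_inv R)
    ext τ
    exact mul_inv_cancel₀ (ModularForm.discriminant_ne_zero τ)
  inv_val := by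
    ext1
    refine Prod.ext ?_ ?_
    · ext τ
      exact inv_mul_cancel₀ (ModularForm.discriminant_ne_zero τ)
    · exact (mul_comm _ _).trans (deltaC_mul_inv R)

/-- `j` as an element of the expansion ring of level 1 -/
def jel1 : expRing 1 R := ⟨(jfun, jqModC R), by
    rw [mem_expRing, coeffMap_jqModC]
    exact hasExp_jfun⟩

end delta

section conj
variable {R : Type*} [CommRing R] [Algebra R ℂ]

/-- hypothesis: all `N`-th roots of unity are in `R`, and `N` is invertible in `R` -/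
structure GoodRing (N : ℕ) (R : Type*) [CommRing R] [Algebra R ℂ] : Prop where
  root : ∀ z : ℂ, z ^ N = 1 → ∃ ζ : Rˣ, algebraMap R ℂ ζ = z
  unit : IsUnit (N : R)

variable {N : ℕ} [NeZero N]

lemma q_aff (A : ℕ) (B : ℤ) (D M : ℕ) (hA : 0 < A) (hD : 0 < D) (hN : N = D * M) (τ : ℍ) :
    𝕢 ((1 : ℕ) : ℝ) (aff A B D hA hD τ : ℂ) =
      Complex.exp (2 * Real.pi * Complex.I * B / D) * (𝕢 N (τ : ℂ)) ^ (A * M) := by
  have hD' : (D : ℂ) ≠ 0 := by exact_mod_cast hD.ne'
  have hN' : (N : ℂ) ≠ 0 := by exact_mod_cast NeZero.ne N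
  rw [Periodic.qParam, Periodic.qParam, ← Complex.exp_nat_mul, ← Complex.exp_add, coe_aff]
  congr 1
  have h1 : (M : ℂ) = N / D := by
    rw [hN]; push_cast; field_simp
  push_cast
  rw [h1]
  field_simp
  ring

lemma GoodRing.exists_zeta (hR : GoodRing N R) {D : ℕ} (hD : 0 < D) (hDN : D ∣ N) (B : ℤ) :
    ∃ ζ : Rˣ, algebraMap R ℂ ζ = Complex.exp (2 * Real.pi * Complex.I * B / D) := by
  apply hR.root
  obtain ⟨M, rfl⟩ := hDN
  have hD' : (D : ℂ) ≠ 0 := by exact_mod_cast hD.ne'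
  rw [← Complex.exp_nat_mul]
  rw [Complex.exp_eq_one_iff]
  refine ⟨M * B, ?_⟩
  push_cast
  field_simp

lemma GoodRing.unit_of_dvd (hR : GoodRing N R) {D : ℕ} (hDN : D ∣ N) : IsUnit (D : R) := by
  obtain ⟨M, rfl⟩ := hDN
  have := hR.unit
  rw [Nat.cast_mul] at this
  exact isUnit_of_mul_isUnit_left this

/-- existence of the conjugate substitution -/
lemma GoodRing.exists_subst (hR : GoodRing N R) {t : ℕ} (ht : 0 < t) (htN : t ∣ N) {γ : SL(2, ℤ)}
    (dec : Dec t γ) : ∃ (s : ℕ) (_ : NeZero s) (ζ : Rˣ) (φ : expRing 1 R →+* expRing N R),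
      s * t = N * dec.A ^ 2 ∧
      (∀ x τ, fnHom (φ x) τ = fnHom x (dec.map ht τ)) ∧
      (∀ x, serHom (φ x) = lsubst s ζ (serHom x)) := by
  have hD := dec.D_pos ht
  have hA := dec.A_pos ht
  have hDN : dec.D ∣ N := (Dvd.intro_left _ dec.hAD).trans htN
  obtain ⟨ζ, hζ⟩ := hR.exists_zeta hD hDN dec.B
  obtain ⟨M, hM⟩ := hDN
  have hMpos : 0 < M := by
    rcases Nat.eq_zero_or_pos M with h | h
    · rw [h, mul_zero] at hM; exact absurd hM (NeZero.ne N)
    · exact h
  have : NeZero (dec.A * M) := ⟨(Nat.mul_pos hA hMpos).ne'⟩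
  refine ⟨dec.A * M, inferInstance, ζ, substHom (h₁ := 1) (h₂ := N) (dec.map ht) ζ (dec.A * M) ?_, ?_, ?_, ?_⟩
  · intro τ
    rw [hζ]
    exact q_aff _ _ _ M _ _ hM τ
  · have := dec.hAD
    calc dec.A * M * t = dec.A * M * (dec.A * dec.D) := by rw [this]
      _ = (dec.D * M) * dec.A ^ 2 := by ring
      _ = N * dec.A ^ 2 := by rw [← hM]
  · intro x τ; rfl
  · intro x; rfl

end conj

end Fermat.Agent.Igusa
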